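import Mathlib

set_option autoImplicit false

open Polynomial

namespace Fermat.Agent.Igusa

section Core

variable {A₀ K₀ F : Type*} [CommRing A₀] [IsDomain A₀] [IsIntegrallyClosed A₀]
  [Field K₀] [Algebra A₀ K₀] [IsFractionRing A₀ K₀] [Field F] [Algebra A₀ F] [Algebra K₀ F]
  [IsScalarTower A₀ K₀ F]

/-- scaling the minimal polynomial gives the minimal polynomial of the scaled element. -/
theorem minpoly_mul_eq_scaleRoots (a : K₀) (ha : a ≠ 0) (y : F) (hy : IsIntegral K₀ y) :
    minpoly K₀ (algebraMap K₀ F a * y) = (minpoly K₀ y).scaleRoots a := by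
  have hz : IsIntegral K₀ (algebraMap K₀ F a * y) := isIntegral_algebraMap.mul hy
  have hq0 : aeval (algebraMap K₀ F a * y) ((minpoly K₀ y).scaleRoots a) = 0 :=
    scaleRoots_aeval_eq_zero (minpoly.aeval K₀ y)
  have hqm : ((minpoly K₀ y).scaleRoots a).Monic :=
    (monic_scaleRoots_iff a).mpr (minpoly.monic hy)
  have hdvd : minpoly K₀ (algebraMap K₀ F a * y) ∣ (minpoly K₀ y).scaleRoots a :=
    minpoly.dvd K₀ _ hq0
  have hy' : y = algebraMap K₀ F a⁻¹ * (algebraMap K₀ F a * y) := by
    rw [← mul_assoc, ← map_mul, inv_mul_cancel₀ ha, map_one, one_mul]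
  have hdeg : (minpoly K₀ y).natDegree ≤ (minpoly K₀ (algebraMap K₀ F a * y)).natDegree := by
    have h1 : aeval y ((minpoly K₀ (algebraMap K₀ F a * y)).scaleRoots a⁻¹) = 0 := by
      have := scaleRoots_aeval_eq_zero (r := a⁻¹) (minpoly.aeval K₀ (algebraMap K₀ F a * y))
      rwa [← hy'] at this
    have h2 : ((minpoly K₀ (algebraMap K₀ F a * y)).scaleRoots a⁻¹).Monic :=
      (monic_scaleRoots_iff a⁻¹).mpr (minpoly.monic hz)
    have := natDegree_le_of_dvd (minpoly.dvd K₀ y h1) h2.ne_zero
    rwa [natDegree_scaleRoots] at this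
  refine (eq_of_monic_of_dvd_of_natDegree_le (minpoly.monic hz) hqm hdvd ?_).symm
  rw [natDegree_scaleRoots]
  exact hdeg

/-- **Abstract core of Igusa's integrality argument.**  Let `A₀` be an integrally closed domain
with fraction field `K₀`, `F/K₀` a field extension and `ℓ ∈ A₀` nonzero.  If `ℓ y` is integral
over `A₀` and every coefficient `c` of the minimal polynomial of `y` over `K₀` has the property
`ℓ ^ n c ∈ A₀ → c ∈ A₀`, then `y` is integral over `A₀`. -/
theorem isIntegral_of_isIntegral_mul_of_coeff (ℓ : A₀) (hℓ : ℓ ≠ 0) (y : F)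
    (hy : IsIntegral A₀ (algebraMap A₀ F ℓ * y))
    (hc : ∀ (i n : ℕ), (algebraMap A₀ K₀ ℓ) ^ n * (minpoly K₀ y).coeff i ∈ (algebraMap A₀ K₀).range →
      (minpoly K₀ y).coeff i ∈ (algebraMap A₀ K₀).range) :
    IsIntegral A₀ y := by
  have hinj : Function.Injective (algebraMap A₀ K₀) := IsFractionRing.injective A₀ K₀
  have ha : algebraMap A₀ K₀ ℓ ≠ 0 := by
    rwa [Ne, map_eq_zero_iff _ hinj]
  have hzK : IsIntegral K₀ (algebraMap A₀ F ℓ * y) := hy.tower_top
  have haF : algebraMap A₀ F ℓ = algebraMap K₀ F (algebraMap A₀ K₀ ℓ) :=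
    IsScalarTower.algebraMap_apply A₀ K₀ F ℓ
  have hyK : IsIntegral K₀ y := by
    have h1 : y = algebraMap K₀ F (algebraMap A₀ K₀ ℓ)⁻¹ * (algebraMap A₀ F ℓ * y) := by
      rw [haF, ← mul_assoc, ← map_mul, inv_mul_cancel₀ ha, map_one, one_mul]
    rw [h1]
    exact isIntegral_algebraMap.mul hzK
  have hmin : minpoly K₀ (algebraMap A₀ F ℓ * y) = (minpoly A₀ (algebraMap A₀ F ℓ * y)).map
      (algebraMap A₀ K₀) := minpoly.isIntegrallyClosed_eq_field_fractions' K₀ hy
  have hscale := minpoly_mul_eq_scaleRoots (algebraMap A₀ K₀ ℓ) ha y hyK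
  rw [← haF, hmin] at hscale
  -- all coefficients of `minpoly K₀ y` are in `A₀`
  have hcoeff : ∀ i, (minpoly K₀ y).coeff i ∈ (algebraMap A₀ K₀).range := by
    intro i
    apply hc i ((minpoly K₀ y).natDegree - i)
    have := congrArg (fun p => p.coeff i) hscale
    simp only [coeff_map, coeff_scaleRoots] at this
    rw [mul_comm, ← this]
    exact ⟨_, rfl⟩
  have hlifts : minpoly K₀ y ∈ Polynomial.lifts (algebraMap A₀ K₀) :=
    (Polynomial.lifts_iff_coeff_lifts _).mpr fun i => hcoeff i
  obtain ⟨m', hm', -, hm'monic⟩ :=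
    Polynomial.lifts_and_natDegree_eq_and_monic hlifts (minpoly.monic hyK)
  refine ⟨m', hm'monic, ?_⟩
  have h0 := minpoly.aeval K₀ y
  rw [← hm', aeval_map_algebraMap] at h0
  exact h0

end Core

section PolyFrac

open IntermediateField

variable {R K E : Type*} [CommRing R] [IsDomain R] [Field K] [Algebra R K] [IsFractionRing R K]
  [Field E] [Algebra K E] [Algebra R E] [IsScalarTower R K E]

/-- elements of `K(s)` are quotients of polynomials in `s` with coefficients in `R`,
`K = Frac R`. -/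
theorem exists_polynomial_div_of_mem_adjoin_simple (s z : E) (hz : z ∈ K⟮s⟯) :
    ∃ P Q : R[X], z = aeval s P / aeval s Q := by
  obtain ⟨r, t, rfl⟩ := (mem_adjoin_simple_iff K z).mp hz
  obtain ⟨b₁, hb₁m, hb₁⟩ := IsLocalization.integerNormalization_spec (nonZeroDivisors R) r
  obtain ⟨b₂, hb₂m, hb₂⟩ := IsLocalization.integerNormalization_spec (nonZeroDivisors R) t
  have hinj : Function.Injective (algebraMap R E) := by
    rw [IsScalarTower.algebraMap_eq R K E]
    exact (algebraMap K E).injective.comp (IsFractionRing.injective R K)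
  have hb₁0 : algebraMap R E b₁ ≠ 0 := by
    rw [Ne, map_eq_zero_iff _ hinj]
    exact nonZeroDivisors.ne_zero hb₁m
  have hb₂0 : algebraMap R E b₂ ≠ 0 := by
    rw [Ne, map_eq_zero_iff _ hinj]
    exact nonZeroDivisors.ne_zero hb₂m
  have h1 : aeval s (IsLocalization.integerNormalization (nonZeroDivisors R) r) =
      algebraMap R E b₁ * aeval s r := by
    rw [← aeval_map_algebraMap K, hb₁, Algebra.smul_def, Polynomial.algebraMap_apply, map_mul,
      aeval_C, ← IsScalarTower.algebraMap_apply]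
  have h2 : aeval s (IsLocalization.integerNormalization (nonZeroDivisors R) t) =
      algebraMap R E b₂ * aeval s t := by
    rw [← aeval_map_algebraMap K, hb₂, Algebra.smul_def, Polynomial.algebraMap_apply, map_mul,
      aeval_C, ← IsScalarTower.algebraMap_apply]
  refine ⟨C b₂ * IsLocalization.integerNormalization (nonZeroDivisors R) r,
    C b₁ * IsLocalization.integerNormalization (nonZeroDivisors R) t, ?_⟩
  rw [map_mul, map_mul, aeval_C, aeval_C, h1, h2]
  rw [show algebraMap R E b₂ * (algebraMap R E b₁ * aeval s r) =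
    (algebraMap R E b₁ * algebraMap R E b₂) * aeval s r by ring,
    ← mul_assoc, mul_div_mul_left _ _ (mul_ne_zero hb₁0 hb₂0)]

end PolyFrac

end Fermat.Agent.Igusa
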