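import Mathlib
import Fermat.Prelude.Def_ModularCurve_X0ModL

/-!
# S28 package (A), part 1: formal `t`-expansions of `j((az+b)/d)` and `a^12 Δ((az+b)/d)/Δ(z)`

`t = q^{1/N}`.  Everything lives in `LaurentSeries A` for an arbitrary commutative ring `A` with a
unit `ζ` (a primitive `N`-th root of unity in the applications).

* `twist ξ` : the ring automorphism `t ↦ ξ t` of `LaurentSeries A`;
* `deltaSer A`, `deltaInvSer A` : the formal `Δ = q ∏ (1 - q^n)^24` and its inverse;
* `Idx N` : upper triangular integer matrices `(a b; 0 d)` with `a d ∣ N`, `0 ≤ b < d`;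
* `xSer A ζ N α`, `phiSer A ζ N α` : the formal expansions.
-/

set_option autoImplicit false

namespace Fermat.Agent.Igusa

open ModularCurve HahnSeries

noncomputable section

section Twist

variable {A B : Type*} [CommRing A] [CommRing B]

/-- the underlying function of `twist`. -/
def twistFun (ξ : Aˣ) (f : LaurentSeries A) : LaurentSeries A where
  coeff n := ((ξ ^ n : Aˣ) : A) * f.coeff n
  isPWO_support' := f.isPWO_support.mono (by
    intro n hn
    simp only [Function.mem_support, ne_eq] at hn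
    rw [HahnSeries.mem_support]
    intro h0
    exact hn (by rw [h0, mul_zero]))

@[simp] theorem twistFun_coeff (ξ : Aˣ) (f : LaurentSeries A) (n : ℤ) :
    (twistFun ξ f).coeff n = ((ξ ^ n : Aˣ) : A) * f.coeff n := rfl

theorem twistFun_support (ξ : Aˣ) (f : LaurentSeries A) :
    (twistFun ξ f).support = f.support := by
  ext n
  simp only [HahnSeries.mem_support, twistFun_coeff, ne_eq]
  rw [Units.mul_right_eq_zero]

theorem twistFun_mul (ξ : Aˣ) (f g : LaurentSeries A) :
    twistFun ξ (f * g) = twistFun ξ f * twistFun ξ g := by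
  ext n
  rw [twistFun_coeff, HahnSeries.coeff_mul,
    HahnSeries.coeff_mul_left' (x := twistFun ξ f) (y := twistFun ξ g) f.isPWO_support
      (twistFun_support ξ f).le,
    Finset.mul_sum]
  have hsub : ∀ ij ∈ Finset.antidiagonal f.isPWO_support (twistFun ξ g).isPWO_support n,
      ij ∈ Finset.antidiagonal f.isPWO_support g.isPWO_support n := by
    intro ij hij
    rw [Finset.mem_antidiagonal] at hij ⊢
    exact ⟨hij.1, (twistFun_support ξ g) ▸ hij.2.1, hij.2.2⟩
  have hsub' : ∀ ij ∈ Finset.antidiagonal f.isPWO_support g.isPWO_support n,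
      ij ∈ Finset.antidiagonal f.isPWO_support (twistFun ξ g).isPWO_support n := by
    intro ij hij
    rw [Finset.mem_antidiagonal] at hij ⊢
    exact ⟨hij.1, (twistFun_support ξ g).symm ▸ hij.2.1, hij.2.2⟩
  have heq : Finset.antidiagonal f.isPWO_support (twistFun ξ g).isPWO_support n =
      Finset.antidiagonal f.isPWO_support g.isPWO_support n :=
    Finset.Subset.antisymm hsub hsub'
  rw [heq]
  refine Finset.sum_congr rfl fun ij hij => ?_
  rw [Finset.mem_antidiagonal] at hij
  rw [twistFun_coeff, twistFun_coeff, ← hij.2.2, zpow_add, Units.val_mul]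
  ring

/-- **The substitution `t ↦ ξ t`** as a ring automorphism of `LaurentSeries A`. -/
def twist (ξ : Aˣ) : LaurentSeries A ≃+* LaurentSeries A where
  toFun := twistFun ξ
  invFun := twistFun ξ⁻¹
  left_inv f := by
    ext n
    simp only [twistFun_coeff, inv_zpow', ← mul_assoc, ← Units.val_mul]
    simp
  right_inv f := by
    ext n
    simp only [twistFun_coeff, inv_zpow', ← mul_assoc, ← Units.val_mul]
    simp
  map_mul' := twistFun_mul ξ
  map_add' f g := by
    ext n
    simp only [twistFun_coeff, HahnSeries.coeff_add]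
    ring

@[simp] theorem twist_coeff (ξ : Aˣ) (f : LaurentSeries A) (n : ℤ) :
    (twist ξ f).coeff n = ((ξ ^ n : Aˣ) : A) * f.coeff n := rfl

theorem twist_symm (ξ : Aˣ) : (twist ξ).symm = twist ξ⁻¹ := by
  ext f n
  rfl

@[simp] theorem twist_one (f : LaurentSeries A) : twist (1 : Aˣ) f = f := by
  ext n
  simp

theorem twist_mul (ξ η : Aˣ) (f : LaurentSeries A) :
    twist (ξ * η) f = twist ξ (twist η f) := by
  ext n
  simp only [twist_coeff, mul_zpow, Units.val_mul]
  ring

theorem twist_single (ξ : Aˣ) (n : ℤ) (c : A) :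
    twist ξ (HahnSeries.single n c) = HahnSeries.single n (((ξ ^ n : Aˣ) : A) * c) := by
  ext m
  rw [twist_coeff]
  rcases eq_or_ne m n with rfl | hm
  · simp
  · simp [HahnSeries.coeff_single_of_ne hm]

theorem twist_C (ξ : Aˣ) (c : A) : twist ξ (HahnSeries.C c) = HahnSeries.C c := by
  have h := twist_single ξ 0 c
  simpa using h

theorem coeffMap_twist (φ : A →+* B) (ξ : Aˣ) (f : LaurentSeries A) :
    coeffMap φ (twist ξ f) = twist (Units.map (φ : A →* B) ξ) (coeffMap φ f) := by
  ext n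
  simp only [coeffMap_coeff, twist_coeff, map_mul]
  congr 1
  rw [← map_zpow]
  rfl

/-- `twist` commutes with `qExpand` up to raising `ξ` to the power `e`. -/
theorem twist_qExpand (ξ : Aˣ) (e : ℕ) [NeZero e] (f : LaurentSeries A) :
    twist ξ (qExpand A e f) = qExpand A e (twist (ξ ^ e) f) := by
  ext n
  by_cases hn : (e : ℤ) ∣ n
  · obtain ⟨m, rfl⟩ := hn
    rw [twist_coeff, qExpand_coeff_mul, qExpand_coeff_mul, twist_coeff]
    congr 2
    rw [zpow_mul, zpow_natCast]
  · rw [twist_coeff, qExpand_coeff_of_not_dvd _ _ hn, qExpand_coeff_of_not_dvd _ _ hn, mul_zero]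

end Twist

/-! ### series supported in degrees `≥ 0` with constant coefficient one -/

section OneUnit

variable {A B : Type*} [CommRing A] [CommRing B]

/-- a Laurent series which is a power series with constant coefficient `1`. -/
def IsOneUnit (f : LaurentSeries A) : Prop := (∀ n : ℤ, n < 0 → f.coeff n = 0) ∧ f.coeff 0 = 1

theorem isOneUnit_ofPowerSeries {p : PowerSeries A} (hp : PowerSeries.constantCoeff p = 1) :
    IsOneUnit (HahnSeries.ofPowerSeries ℤ A p) := by
  refine ⟨fun n hn => ofPowerSeries_coeff_of_neg p hn, ?_⟩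
  have h := HahnSeries.ofPowerSeries_apply_coeff (Γ := ℤ) p 0
  simp only [Nat.cast_zero] at h
  rw [h, PowerSeries.coeff_zero_eq_constantCoeff, hp]

theorem IsOneUnit.mul {f g : LaurentSeries A} (hf : IsOneUnit f) (hg : IsOneUnit g) :
    IsOneUnit (f * g) := by
  have hfs : f.support ⊆ Set.Ici (0 : ℤ) := by
    intro n hn
    by_contra h
    exact hn (hf.1 n (not_le.mp h))
  have hgs : g.support ⊆ Set.Ici (0 : ℤ) := by
    intro n hn
    by_contra h
    exact hn (hg.1 n (not_le.mp h))
  constructor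
  · intro n hn
    rw [HahnSeries.coeff_mul]
    apply Finset.sum_eq_zero
    intro ij hij
    rw [Finset.mem_antidiagonal] at hij
    have h1 := hfs hij.1
    have h2 := hgs hij.2.1
    have h3 := hij.2.2
    simp only [Set.mem_Ici] at h1 h2
    omega
  · rw [HahnSeries.coeff_mul]
    rw [Finset.sum_eq_single (0, 0)]
    · simp [hf.2, hg.2]
    · intro ij hij hne
      rw [Finset.mem_antidiagonal] at hij
      have h1 := hfs hij.1
      have h2 := hgs hij.2.1
      have h3 := hij.2.2
      simp only [Set.mem_Ici] at h1 h2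
      exfalso
      apply hne
      have : ij.1 = 0 ∧ ij.2 = 0 := by omega
      exact Prod.ext this.1 this.2
    · intro h
      rw [Finset.mem_antidiagonal] at h
      simp only [not_and_or] at h
      rcases h with h | h | h
      · rw [HahnSeries.mem_support, not_not] at h
        simp [h]
      · rw [HahnSeries.mem_support, not_not] at h
        simp [h]
      · simp at h

theorem IsOneUnit.qExpand {f : LaurentSeries A} (hf : IsOneUnit f) (e : ℕ) [NeZero e] :
    IsOneUnit (qExpand A e f) := by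
  constructor
  · intro n hn
    by_cases hd : (e : ℤ) ∣ n
    · obtain ⟨m, rfl⟩ := hd
      rw [qExpand_coeff_mul]
      apply hf.1
      have he : (0 : ℤ) < e := by exact_mod_cast Nat.pos_of_ne_zero (NeZero.ne e)
      by_contra hm
      push Not at hm
      nlinarith
    · exact qExpand_coeff_of_not_dvd _ _ hd
  · have h := qExpand_coeff_mul (R := A) e f 0
    rw [mul_zero] at h
    rw [h, hf.2]

theorem IsOneUnit.twist {f : LaurentSeries A} (hf : IsOneUnit f) (ξ : Aˣ) :
    IsOneUnit (twist ξ f) := by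
  constructor
  · intro n hn
    rw [twist_coeff, hf.1 n hn, mul_zero]
  · rw [twist_coeff, hf.2]
    simp

theorem IsOneUnit.coeffMap {f : LaurentSeries A} (hf : IsOneUnit f) (φ : A →+* B) :
    IsOneUnit (coeffMap φ f) := by
  constructor
  · intro n hn
    rw [coeffMap_coeff, hf.1 n hn, map_zero]
  · rw [coeffMap_coeff, hf.2, map_one]

/-- coefficients of `c t^m · (1 + …)` -/
theorem coeff_single_mul_of_isOneUnit {f : LaurentSeries A} (hf : IsOneUnit f) (m : ℤ) (c : A) :
    (HahnSeries.single m c * f).coeff m = c ∧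
      ∀ n : ℤ, n < m → (HahnSeries.single m c * f).coeff n = 0 := by
  constructor
  · rw [HahnSeries.coeff_single_mul, sub_self, hf.2, mul_one]
  · intro n hn
    rw [HahnSeries.coeff_single_mul, hf.1 _ (by omega), mul_zero]

theorem qExpand_single_mul (e : ℕ) [NeZero e] (m : ℤ) (c : A) (f : LaurentSeries A) :
    qExpand A e (HahnSeries.single m c * f) =
      HahnSeries.single ((e : ℤ) * m) c * qExpand A e f := by
  rw [map_mul, qExpand_single]

theorem twist_single_mul (ξ : Aˣ) (m : ℤ) (c : A) (f : LaurentSeries A) :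
    twist ξ (HahnSeries.single m c * f) =
      HahnSeries.single m (((ξ ^ m : Aˣ) : A) * c) * twist ξ f := by
  rw [map_mul, twist_single]

end OneUnit

/-! ### the formal discriminant -/

section Delta

variable (A : Type*) [CommRing A] {B : Type*} [CommRing B]

/-- `∏ (1 - q^n)^24` over `A`. -/
def etaUnitSer : LaurentSeries A :=
  HahnSeries.ofPowerSeries ℤ A (dedekindEtaUnit.map (Int.castRingHom A))

/-- `∏ (1 - q^n)^{-24}` over `A`. -/
def etaUnitInvSer : LaurentSeries A :=
  HahnSeries.ofPowerSeries ℤ A (dedekindEtaUnitInv.map (Int.castRingHom A))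

theorem isOneUnit_etaUnitSer : IsOneUnit (etaUnitSer A) := by
  apply isOneUnit_ofPowerSeries
  rw [← PowerSeries.coeff_zero_eq_constantCoeff, PowerSeries.coeff_map,
    PowerSeries.coeff_zero_eq_constantCoeff, constantCoeff_dedekindEtaUnit]
  simp

theorem isOneUnit_etaUnitInvSer : IsOneUnit (etaUnitInvSer A) := by
  apply isOneUnit_ofPowerSeries
  rw [← PowerSeries.coeff_zero_eq_constantCoeff, PowerSeries.coeff_map,
    PowerSeries.coeff_zero_eq_constantCoeff, constantCoeff_dedekindEtaUnitInv]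
  simp

theorem etaUnitSer_mul_etaUnitInvSer : etaUnitSer A * etaUnitInvSer A = 1 := by
  rw [etaUnitSer, etaUnitInvSer, ← map_mul, ← map_mul, dedekindEtaUnit_mul_inv, map_one, map_one]

/-- the formal `Δ(q) = q ∏ (1 - q^n)^24` over `A`. -/
def deltaSer : LaurentSeries A := HahnSeries.single (1 : ℤ) (1 : A) * etaUnitSer A

/-- the formal `Δ(q)⁻¹` over `A`. -/
def deltaInvSer : LaurentSeries A := HahnSeries.single (-1 : ℤ) (1 : A) * etaUnitInvSer A

theorem deltaSer_mul_deltaInvSer : deltaSer A * deltaInvSer A = 1 := by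
  rw [deltaSer, deltaInvSer, mul_mul_mul_comm, etaUnitSer_mul_etaUnitInvSer, mul_one,
    HahnSeries.single_mul_single]
  simp

variable {A}

theorem coeffMap_etaUnitSer (φ : A →+* B) : coeffMap φ (etaUnitSer A) = etaUnitSer B := by
  rw [etaUnitSer, coeffMap_ofPowerSeries,
    ← RingHom.comp_apply (PowerSeries.map φ) (PowerSeries.map (Int.castRingHom A)),
    ← PowerSeries.map_comp, RingHom.ext_int (φ.comp (Int.castRingHom A)) (Int.castRingHom B)]
  rfl

theorem coeffMap_etaUnitInvSer (φ : A →+* B) : coeffMap φ (etaUnitInvSer A) = etaUnitInvSer B := by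
  rw [etaUnitInvSer, coeffMap_ofPowerSeries,
    ← RingHom.comp_apply (PowerSeries.map φ) (PowerSeries.map (Int.castRingHom A)),
    ← PowerSeries.map_comp, RingHom.ext_int (φ.comp (Int.castRingHom A)) (Int.castRingHom B)]
  rfl

theorem coeffMap_deltaSer (φ : A →+* B) : coeffMap φ (deltaSer A) = deltaSer B := by
  rw [deltaSer, map_mul, coeffMap_single, map_one, coeffMap_etaUnitSer]
  rfl

theorem coeffMap_deltaInvSer (φ : A →+* B) : coeffMap φ (deltaInvSer A) = deltaInvSer B := by
  rw [deltaInvSer, map_mul, coeffMap_single, map_one, coeffMap_etaUnitInvSer]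
  rfl

end Delta

/-! ### the index set and the series -/

/-- upper triangular integer matrices `(a b; 0 d)` with `a d ∣ N` and `0 ≤ b < d`
(not necessarily primitive). -/
@[ext] structure Idx (N : ℕ) where
  /-- upper left entry -/
  a : ℕ
  /-- upper right entry -/
  b : ℕ
  /-- lower right entry -/
  d : ℕ
  ha : 0 < a
  hd : 0 < d
  hdvd : a * d ∣ N
  hb : b < d

namespace Idx

variable {N : ℕ}

theorem d_dvd (α : Idx N) : α.d ∣ N := (Dvd.intro_left _ rfl).trans α.hdvd

theorem a_dvd (α : Idx N) : α.a ∣ N := (Dvd.intro _ rfl).trans α.hdvd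

/-- the exponent `e = N a / d`: the substitution is `t ↦ ξ t^e`. -/
def e (α : Idx N) : ℕ := N / α.d * α.a

/-- the exponent of `ζ`: `ξ = ζ^(N b / d)`. -/
def c (α : Idx N) : ℕ := N / α.d * α.b

instance [NeZero N] (α : Idx N) : NeZero α.e := by
  refine ⟨Nat.mul_ne_zero ?_ α.ha.ne'⟩
  exact (Nat.div_pos (Nat.le_of_dvd (Nat.pos_of_ne_zero (NeZero.ne N)) α.d_dvd) α.hd).ne'

/-- the diagonal matrix `(d0 0; 0 1)`. -/
def diag (N d0 : ℕ) (h : d0 ∣ N) (h0 : 0 < d0) : Idx N :=
  ⟨d0, 0, 1, h0, one_pos, by simpa using h, one_pos⟩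

@[simp] theorem diag_a (d0 : ℕ) (h : d0 ∣ N) (h0 : 0 < d0) : (diag N d0 h h0).a = d0 := rfl
@[simp] theorem diag_b (d0 : ℕ) (h : d0 ∣ N) (h0 : 0 < d0) : (diag N d0 h h0).b = 0 := rfl
@[simp] theorem diag_d (d0 : ℕ) (h : d0 ∣ N) (h0 : 0 < d0) : (diag N d0 h h0).d = 1 := rfl

theorem diag_e (d0 : ℕ) (h : d0 ∣ N) (h0 : 0 < d0) : (diag N d0 h h0).e = N * d0 := by
  simp [e]

theorem diag_c (d0 : ℕ) (h : d0 ∣ N) (h0 : 0 < d0) : (diag N d0 h h0).c = 0 := by
  simp [c]

end Idx

section Series

variable (A : Type*) [CommRing A] {B : Type*} [CommRing B] (ζ : Aˣ) (N : ℕ) [NeZero N]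

/-- the formal `t`-expansion of `j((a z + b)/d)`, `t = q^{1/N}`. -/
def xSer (α : Idx N) : LaurentSeries A :=
  qExpand A α.e (twist (ζ ^ α.c) (jqModC A))

/-- the formal `t`-expansion of `Δ((a z + b)/d)`. -/
def deltaSubSer (α : Idx N) : LaurentSeries A :=
  qExpand A α.e (twist (ζ ^ α.c) (deltaSer A))

/-- the formal `t`-expansion of `a^12 Δ((a z + b)/d) / Δ(z)`, `t = q^{1/N}`. -/
def phiSer (α : Idx N) : LaurentSeries A :=
  HahnSeries.C ((α.a : A) ^ 12) * deltaSubSer A ζ N α * qExpand A N (deltaInvSer A)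

variable {A}

theorem coeffMap_xSer (φ : A →+* B) (α : Idx N) :
    coeffMap φ (xSer A ζ N α) = xSer B (Units.map (φ : A →* B) ζ) N α := by
  rw [xSer, coeffMap_qExpand, coeffMap_twist, coeffMap_jqModC, map_pow]
  rfl

theorem coeffMap_deltaSubSer (φ : A →+* B) (α : Idx N) :
    coeffMap φ (deltaSubSer A ζ N α) = deltaSubSer B (Units.map (φ : A →* B) ζ) N α := by
  rw [deltaSubSer, coeffMap_qExpand, coeffMap_twist, coeffMap_deltaSer, map_pow]
  rfl

theorem coeffMap_C (φ : A →+* B) (c : A) :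
    coeffMap φ (HahnSeries.C c) = HahnSeries.C (φ c) := by
  have h := coeffMap_single φ 0 c
  exact h

theorem coeffMap_phiSer (φ : A →+* B) (α : Idx N) :
    coeffMap φ (phiSer A ζ N α) = phiSer B (Units.map (φ : A →* B) ζ) N α := by
  rw [phiSer, map_mul, map_mul, coeffMap_C, coeffMap_deltaSubSer, coeffMap_qExpand,
    coeffMap_deltaInvSer, map_pow, map_natCast]
  rfl

/-- `x_{(d0 0; 0 1)} = j(q^{d0})` with `q = t^N`. -/
theorem xSer_diag (d0 : ℕ) (h : d0 ∣ N) (h0 : 0 < d0) [NeZero (N * d0)] :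
    xSer A ζ N (Idx.diag N d0 h h0) = qExpand A (N * d0) (jqModC A) := by
  rw [xSer, Idx.diag_c, pow_zero]
  have : twist (1 : Aˣ) (jqModC A) = jqModC A := twist_one _
  rw [this]
  exact qExpand_congr (Idx.diag_e d0 h h0) _

/-- the shape of `Δ(t^e ξ)`: `ξ t^e · (1 + …)`. -/
theorem deltaSubSer_eq (α : Idx N) :
    ∃ u : LaurentSeries A, IsOneUnit u ∧
      deltaSubSer A ζ N α = HahnSeries.single (α.e : ℤ) (((ζ ^ α.c : Aˣ) : A)) * u := by
  refine ⟨qExpand A α.e (twist (ζ ^ α.c) (etaUnitSer A)),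
    ((isOneUnit_etaUnitSer A).twist _).qExpand _, ?_⟩
  rw [deltaSubSer, deltaSer, twist_single_mul, qExpand_single_mul]
  simp

/-- the shape of `Δ(t^N)⁻¹`. -/
theorem qExpand_deltaInvSer_eq :
    ∃ u : LaurentSeries A, IsOneUnit u ∧
      qExpand A N (deltaInvSer A) = HahnSeries.single (-(N : ℤ)) (1 : A) * u := by
  refine ⟨qExpand A N (etaUnitInvSer A), (isOneUnit_etaUnitInvSer A).qExpand _, ?_⟩
  rw [deltaInvSer, qExpand_single_mul]
  simp

/-- **The shape of `φ_α`**: `a^12 ξ t^{e - N} · (1 + …)`. -/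
theorem phiSer_eq (α : Idx N) :
    ∃ u : LaurentSeries A, IsOneUnit u ∧
      phiSer A ζ N α =
        HahnSeries.single ((α.e : ℤ) - N) ((α.a : A) ^ 12 * ((ζ ^ α.c : Aˣ) : A)) * u := by
  obtain ⟨u₁, hu₁, h₁⟩ := deltaSubSer_eq ζ N α
  obtain ⟨u₂, hu₂, h₂⟩ := qExpand_deltaInvSer_eq (A := A) N
  refine ⟨u₁ * u₂, hu₁.mul hu₂, ?_⟩
  rw [phiSer, h₁, h₂]
  have hC : (HahnSeries.C ((α.a : A) ^ 12) : LaurentSeries A) =
      HahnSeries.single (0 : ℤ) ((α.a : A) ^ 12) := rfl
  rw [hC]
  calc HahnSeries.single (0 : ℤ) ((α.a : A) ^ 12) *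
        (HahnSeries.single (α.e : ℤ) (((ζ ^ α.c : Aˣ) : A)) * u₁) *
        (HahnSeries.single (-(N : ℤ)) (1 : A) * u₂)
      = (HahnSeries.single (0 : ℤ) ((α.a : A) ^ 12) *
          HahnSeries.single (α.e : ℤ) (((ζ ^ α.c : Aˣ) : A)) *
          HahnSeries.single (-(N : ℤ)) (1 : A)) * (u₁ * u₂) := by ring
    _ = _ := by
      rw [HahnSeries.single_mul_single, HahnSeries.single_mul_single, mul_one]
      have e1 : (0 : ℤ) + (α.e : ℤ) + -(N : ℤ) = (α.e : ℤ) - N := by ring
      rw [e1]

/-- coefficients of `φ_α` below and at its order. -/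
theorem phiSer_coeff (α : Idx N) :
    (phiSer A ζ N α).coeff ((α.e : ℤ) - N) = (α.a : A) ^ 12 * ((ζ ^ α.c : Aˣ) : A) ∧
      ∀ n : ℤ, n < (α.e : ℤ) - N → (phiSer A ζ N α).coeff n = 0 := by
  obtain ⟨u, hu, h⟩ := phiSer_eq ζ N α
  rw [h]
  exact coeff_single_mul_of_isOneUnit hu _ _

/-- for `α = (r 0; 0 1)`: `φ_r = r^12 t^{N(r-1)} (1 + …)`. -/
theorem phiSer_diag_coeff (r : ℕ) (h : r ∣ N) (h0 : 0 < r) :
    (phiSer A ζ N (Idx.diag N r h h0)).coeff ((N : ℤ) * (r - 1)) = (r : A) ^ 12 ∧
      ∀ n : ℤ, n < (N : ℤ) * (r - 1) → (phiSer A ζ N (Idx.diag N r h h0)).coeff n = 0 := by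
  have := phiSer_coeff (A := A) ζ N (Idx.diag N r h h0)
  rw [Idx.diag_e, Idx.diag_c] at this
  simp only [Idx.diag_a, pow_zero, Units.val_one, mul_one, Nat.cast_mul] at this
  have e : (N : ℤ) * r - N = (N : ℤ) * (r - 1) := by ring
  rw [e] at this
  exact this

end Series

end

end Fermat.Agent.Igusa
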