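/-
S28 (Igusa) — package (V), helper5.
(V1) The Gauss valuation ring `𝒲 = R((t))_{(ϖ)}` and its fraction field `Frac R((t))` inside
`L((t))`, for a discrete valuation ring `R` with fraction field `L`; the residue map
`gaussRed : 𝒲 → k((t))`, `f/g ↦ red f / red g`, with kernel `ϖ 𝒲`.
-/
import Mathlib
import Fermat.Prelude.Def_ModularCurve_X0ModL

set_option autoImplicit false
set_option linter.unusedSectionVars false

open ModularCurve

namespace Fermat.Agent.Igusa

noncomputable section

section CoeffMapLemmas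

variable {A B : Type*} [CommRing A] [CommRing B]

theorem coeffMapV_injective {φ : A →+* B} (hφ : Function.Injective φ) :
    Function.Injective (coeffMap φ) := by
  intro f g h
  ext n
  apply hφ
  have := congrArg (fun x => HahnSeries.coeff x n) h
  simpa using this

theorem coeffMapV_C (φ : A →+* B) (a : A) :
    coeffMap φ (HahnSeries.C a : LaurentSeries A) = HahnSeries.C (φ a) := by
  rw [HahnSeries.C_apply, coeffMap_single, HahnSeries.C_apply]

theorem coeffV_C_mul (a : A) (f : LaurentSeries A) (n : ℤ) :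
    (HahnSeries.C a * f).coeff n = a * f.coeff n := by
  rw [HahnSeries.C_mul_eq_smul, HahnSeries.coeff_smul, smul_eq_mul]

end CoeffMapLemmas

variable (R : Type*) [CommRing R] [IsDomain R] [IsDiscreteValuationRing R]
variable (L : Type*) [Field L] [Algebra R L] [IsFractionRing R L]

/-- `R((t)) → L((t))` -/
def emb : LaurentSeries R →+* LaurentSeries L := coeffMap (algebraMap R L)

/-- coefficientwise reduction `R((t)) → k((t))`, `k` the residue field of `R` -/
def red : LaurentSeries R →+* LaurentSeries (IsLocalRing.ResidueField R) :=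
  coeffMap (IsLocalRing.residue R)

@[simp] theorem emb_coeff (f : LaurentSeries R) (n : ℤ) :
    (emb R L f).coeff n = algebraMap R L (f.coeff n) := rfl

@[simp] theorem red_coeff (f : LaurentSeries R) (n : ℤ) :
    (red R f).coeff n = IsLocalRing.residue R (f.coeff n) := rfl

theorem emb_injective : Function.Injective (emb R L) :=
  coeffMapV_injective (IsFractionRing.injective R L)

variable {R L} in
theorem emb_eq_zero_iff {f : LaurentSeries R} : emb R L f = 0 ↔ f = 0 :=
  map_eq_zero_iff _ (emb_injective R L)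

theorem emb_C (a : R) : emb R L (HahnSeries.C a) = HahnSeries.C (algebraMap R L a) :=
  coeffMapV_C _ a

theorem red_C (a : R) : red R (HahnSeries.C a) = HahnSeries.C (IsLocalRing.residue R a) :=
  coeffMapV_C _ a

theorem red_surjective : Function.Surjective (red R) := by
  intro g
  classical
  refine ⟨⟨fun n => if g.coeff n = 0 then 0 else
    Function.surjInv (IsLocalRing.residue_surjective (R := R)) (g.coeff n), ?_⟩, ?_⟩
  · refine g.isPWO_support.mono fun n hn => ?_
    simp only [Function.mem_support, ne_eq, ite_eq_left_iff, not_forall] at hn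
    exact hn.1
  · ext n
    rw [red_coeff]
    show IsLocalRing.residue R (if g.coeff n = 0 then 0 else _) = _
    split_ifs with h
    · rw [map_zero, h]
    · exact Function.surjInv_eq _ _

variable {R}

theorem residue_irreducible {ϖ : R} (hϖ : Irreducible ϖ) : IsLocalRing.residue R ϖ = 0 :=
  (IsLocalRing.residue_eq_zero_iff ϖ).2 ((IsLocalRing.mem_maximalIdeal ϖ).2 hϖ.not_isUnit)

theorem red_eq_zero_iff {ϖ : R} (hϖ : Irreducible ϖ) (f : LaurentSeries R) :
    red R f = 0 ↔ ∃ g : LaurentSeries R, f = HahnSeries.C ϖ * g := by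
  constructor
  · intro h
    classical
    have hmem : ∀ n, ∃ c : R, f.coeff n = ϖ * c := by
      intro n
      have h1 : IsLocalRing.residue R (f.coeff n) = 0 := by
        have := congrArg (fun x => HahnSeries.coeff x n) h
        simpa using this
      rw [IsLocalRing.residue_eq_zero_iff,
        (IsDiscreteValuationRing.irreducible_iff_uniformizer ϖ).1 hϖ,
        Ideal.mem_span_singleton] at h1
      exact h1
    choose c hc using hmem
    refine ⟨⟨fun n => if f.coeff n = 0 then 0 else c n, ?_⟩, ?_⟩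
    · refine f.isPWO_support.mono fun n hn => ?_
      simp only [Function.mem_support, ne_eq, ite_eq_left_iff, not_forall] at hn
      exact hn.1
    · ext n
      rw [coeffV_C_mul]
      show f.coeff n = ϖ * (if f.coeff n = 0 then 0 else c n)
      split_ifs with h0
      · rw [h0, mul_zero]
      · exact hc n
  · rintro ⟨g, rfl⟩
    rw [map_mul, red_C, residue_irreducible hϖ, map_zero, zero_mul]

theorem exists_pow_mul_red_ne_zero {ϖ : R} (hϖ : Irreducible ϖ) {f : LaurentSeries R}
    (hf : f ≠ 0) :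
    ∃ (n : ℕ) (g : LaurentSeries R), f = HahnSeries.C ϖ ^ n * g ∧ red R g ≠ 0 := by
  have key : ∀ N : ℕ, ∀ f : LaurentSeries R, (∃ m, ¬ ϖ ^ (N + 1) ∣ f.coeff m) →
      ∃ (n : ℕ) (g : LaurentSeries R), f = HahnSeries.C ϖ ^ n * g ∧ red R g ≠ 0 := by
    intro N
    induction N with
    | zero =>
      rintro f ⟨m, hm⟩
      refine ⟨0, f, by rw [pow_zero, one_mul], fun h => hm ?_⟩
      obtain ⟨g, rfl⟩ := (red_eq_zero_iff hϖ f).1 h
      rw [coeffV_C_mul, zero_add, pow_one]
      exact dvd_mul_right _ _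
    | succ N ih =>
      rintro f ⟨m, hm⟩
      by_cases h : red R f = 0
      · obtain ⟨g, rfl⟩ := (red_eq_zero_iff hϖ f).1 h
        obtain ⟨n, g', hg', hr⟩ := ih g ⟨m, fun hd => hm (by
          rw [coeffV_C_mul, pow_succ']
          exact mul_dvd_mul_left _ hd)⟩
        exact ⟨n + 1, g', by rw [hg', pow_succ']; ring, hr⟩
      · exact ⟨0, f, by rw [pow_zero, one_mul], h⟩
  obtain ⟨m, hm⟩ : ∃ m, f.coeff m ≠ 0 := by
    by_contra h
    simp only [not_exists, not_not] at h
    exact hf (HahnSeries.ext (funext h))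
  obtain ⟨N, hN⟩ := FiniteMultiplicity.of_not_isUnit hϖ.not_isUnit hm
  exact key N f ⟨m, hN⟩

variable (R)

/-- `Frac(R((t)))` inside `L((t))` -/
def gaussField : IntermediateField L (LaurentSeries L) where
  carrier := {x | ∃ f g : LaurentSeries R, g ≠ 0 ∧ x * emb R L g = emb R L f}
  mul_mem' := by
    rintro x y ⟨f, g, hg, h⟩ ⟨f', g', hg', h'⟩
    refine ⟨f * f', g * g', mul_ne_zero hg hg', ?_⟩
    rw [map_mul, map_mul, ← h, ← h']
    ring
  one_mem' := ⟨1, 1, one_ne_zero, by rw [map_one, mul_one]⟩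
  add_mem' := by
    rintro x y ⟨f, g, hg, h⟩ ⟨f', g', hg', h'⟩
    refine ⟨f * g' + f' * g, g * g', mul_ne_zero hg hg', ?_⟩
    rw [map_add, map_mul, map_mul, map_mul, ← h, ← h']
    ring
  zero_mem' := ⟨0, 1, one_ne_zero, by rw [map_zero, zero_mul]⟩
  algebraMap_mem' := by
    intro c
    obtain ⟨a, b, hb, rfl⟩ := IsFractionRing.div_surjective (A := R) c
    have hb0 : b ≠ 0 := nonZeroDivisors.ne_zero hb
    refine ⟨HahnSeries.C a, HahnSeries.C b, fun h => hb0 ?_, ?_⟩
    · have := congrArg (fun x => HahnSeries.coeff x 0) h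
      simpa using this
    · rw [emb_C, emb_C, algebraMap_laurentSeries_eq_single, ← HahnSeries.C_apply, ← map_mul,
        div_mul_cancel₀]
      exact fun h => hb0 ((map_eq_zero_iff _ (IsFractionRing.injective R L)).1 h)
  inv_mem' := by
    rintro x ⟨f, g, hg, h⟩
    by_cases hx : x = 0
    · subst hx
      exact ⟨0, 1, one_ne_zero, by rw [inv_zero, map_zero, zero_mul]⟩
    · have hg' : emb R L g ≠ 0 := fun h0 => hg (emb_eq_zero_iff.1 h0)
      refine ⟨g, f, fun hf => ?_, ?_⟩
      · rw [hf, map_zero] at h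
        exact (mul_ne_zero hx hg') h
      · rw [← h]
        field_simp

/-- the Gauss valuation ring `𝒲 = R((t))_{(ϖ)}` inside `L((t))` -/
def gaussInt : Subring (LaurentSeries L) where
  carrier := {x | ∃ f g : LaurentSeries R, red R g ≠ 0 ∧ x * emb R L g = emb R L f}
  mul_mem' := by
    rintro x y ⟨f, g, hg, h⟩ ⟨f', g', hg', h'⟩
    refine ⟨f * f', g * g', by rw [map_mul]; exact mul_ne_zero hg hg', ?_⟩
    rw [map_mul, map_mul, ← h, ← h']
    ring
  one_mem' := ⟨1, 1, by rw [map_one]; exact one_ne_zero, by rw [map_one, mul_one]⟩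
  add_mem' := by
    rintro x y ⟨f, g, hg, h⟩ ⟨f', g', hg', h'⟩
    refine ⟨f * g' + f' * g, g * g', by rw [map_mul]; exact mul_ne_zero hg hg', ?_⟩
    rw [map_add, map_mul, map_mul, map_mul, ← h, ← h']
    ring
  zero_mem' := ⟨0, 1, by rw [map_one]; exact one_ne_zero, by rw [map_zero, zero_mul]⟩
  neg_mem' := by
    rintro x ⟨f, g, hg, h⟩
    exact ⟨-f, g, hg, by rw [map_neg, ← h, neg_mul]⟩

variable {R L}

theorem mem_gaussField_iff {x : LaurentSeries L} : x ∈ gaussField R L ↔
    ∃ f g : LaurentSeries R, g ≠ 0 ∧ x * emb R L g = emb R L f := Iff.rfl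

theorem mem_gaussInt_iff {x : LaurentSeries L} : x ∈ gaussInt R L ↔
    ∃ f g : LaurentSeries R, red R g ≠ 0 ∧ x * emb R L g = emb R L f := Iff.rfl

theorem ne_zero_of_red_ne_zero {g : LaurentSeries R} (hg : red R g ≠ 0) : g ≠ 0 := by
  rintro rfl
  exact hg (map_zero _)

theorem emb_ne_zero_of_red_ne_zero {g : LaurentSeries R} (hg : red R g ≠ 0) : emb R L g ≠ 0 :=
  fun h => ne_zero_of_red_ne_zero hg (emb_eq_zero_iff.1 h)

theorem gaussInt_le_gaussField {x : LaurentSeries L} (hx : x ∈ gaussInt R L) :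
    x ∈ gaussField R L := by
  obtain ⟨f, g, hg, h⟩ := hx
  exact ⟨f, g, ne_zero_of_red_ne_zero hg, h⟩

variable (R L) in
theorem emb_mem_gaussInt (f : LaurentSeries R) : emb R L f ∈ gaussInt R L :=
  ⟨f, 1, by rw [map_one]; exact one_ne_zero, by rw [map_one, mul_one]⟩

variable (R L) in
theorem emb_mem_gaussField (f : LaurentSeries R) : emb R L f ∈ gaussField R L :=
  gaussInt_le_gaussField (emb_mem_gaussInt R L f)


theorem coeffV_zero_C {A : Type*} [CommRing A] (a : A) :
    (HahnSeries.C a : LaurentSeries A).coeff 0 = a := by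
  rw [HahnSeries.C_apply, HahnSeries.coeff_single_same]

/-- the constant `ϖ ∈ L((t))` is nonzero -/
theorem C_algebraMap_ne_zero {ϖ : R} (hϖ : ϖ ≠ 0) :
    (HahnSeries.C (algebraMap R L ϖ) : LaurentSeries L) ≠ 0 := by
  intro h
  have := congrArg (fun x => HahnSeries.coeff x 0) h
  simp only [coeffV_zero_C, HahnSeries.coeff_zero] at this
  exact hϖ ((map_eq_zero_iff _ (IsFractionRing.injective R L)).1 this)

theorem C_algebraMap_mem_gaussInt (c : R) :
    (HahnSeries.C (algebraMap R L c) : LaurentSeries L) ∈ gaussInt R L := by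
  rw [← emb_C]
  exact emb_mem_gaussInt R L _

/-- normal form of a fraction: cancel the powers of `ϖ` -/
theorem exists_normal_form {ϖ : R} (hϖ : Irreducible ϖ) {x : LaurentSeries L}
    (hx : x ∈ gaussField R L) (hx0 : x ≠ 0) :
    ∃ (a b : ℕ) (f g : LaurentSeries R), red R f ≠ 0 ∧ red R g ≠ 0 ∧
      x * (HahnSeries.C (algebraMap R L ϖ) ^ b * emb R L g) =
        HahnSeries.C (algebraMap R L ϖ) ^ a * emb R L f := by
  obtain ⟨f, g, hg, h⟩ := hx
  have hf : f ≠ 0 := by
    rintro rfl
    rw [map_zero] at h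
    exact (mul_ne_zero hx0 (fun h0 => hg (emb_eq_zero_iff.1 h0))) h
  obtain ⟨a, f₀, rfl, hf₀⟩ := exists_pow_mul_red_ne_zero hϖ hf
  obtain ⟨b, g₀, rfl, hg₀⟩ := exists_pow_mul_red_ne_zero hϖ hg
  refine ⟨a, b, f₀, g₀, hf₀, hg₀, ?_⟩
  rw [map_mul, map_mul, map_pow, map_pow, emb_C] at h
  exact h

theorem mem_gaussInt_or_inv_mem {x : LaurentSeries L} (hx : x ∈ gaussField R L) :
    x ∈ gaussInt R L ∨ x⁻¹ ∈ gaussInt R L := by
  by_cases hx0 : x = 0
  · left; rw [hx0]; exact (gaussInt R L).zero_mem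
  obtain ⟨ϖ, hϖ⟩ := IsDiscreteValuationRing.exists_irreducible R
  obtain ⟨a, b, f, g, hf, hg, h⟩ := exists_normal_form hϖ hx hx0
  have hC := C_algebraMap_ne_zero (L := L) hϖ.ne_zero
  rcases le_total b a with hab | hab
  · left
    obtain ⟨c, rfl⟩ := Nat.exists_eq_add_of_le hab
    refine ⟨HahnSeries.C ϖ ^ c * f, g, hg, ?_⟩
    rw [map_mul, map_pow, emb_C]
    have h2 : HahnSeries.C (algebraMap R L ϖ) ^ b * (x * emb R L g) =
        HahnSeries.C (algebraMap R L ϖ) ^ b *
          (HahnSeries.C (algebraMap R L ϖ) ^ c * emb R L f) := by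
      rw [← mul_assoc _ _ (emb R L f), ← pow_add, ← h]; ring
    exact mul_left_cancel₀ (pow_ne_zero b hC) h2
  · right
    obtain ⟨c, rfl⟩ := Nat.exists_eq_add_of_le hab
    refine ⟨HahnSeries.C ϖ ^ c * g, f, hf, ?_⟩
    rw [map_mul, map_pow, emb_C]
    have h2 : HahnSeries.C (algebraMap R L ϖ) ^ a * (x * (x⁻¹ * emb R L f)) =
        HahnSeries.C (algebraMap R L ϖ) ^ a *
          (x * (HahnSeries.C (algebraMap R L ϖ) ^ c * emb R L g)) := by
      rw [mul_inv_cancel_left₀ hx0, ← h, pow_add]; ring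
    exact mul_left_cancel₀ hx0 (mul_left_cancel₀ (pow_ne_zero a hC) h2)

/-- two representations of an element of `𝒲` give the same reduction -/
theorem red_div_red_eq {x : LaurentSeries L} {f g f' g' : LaurentSeries R}
    (hg : red R g ≠ 0) (hg' : red R g' ≠ 0)
    (h : x * emb R L g = emb R L f) (h' : x * emb R L g' = emb R L f') :
    red R f / red R g = red R f' / red R g' := by
  have h1 : emb R L (f * g') = emb R L (f' * g) := by
    rw [map_mul, map_mul, ← h, ← h']; ring
  have h2 := emb_injective R L h1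
  rw [div_eq_div_iff hg hg', ← map_mul, ← map_mul, h2]

/-- a chosen numerator -/
def gNum (x : gaussInt R L) : LaurentSeries R := Classical.choose x.2

/-- a chosen denominator -/
def gDen (x : gaussInt R L) : LaurentSeries R := Classical.choose (Classical.choose_spec x.2)

theorem gDen_ne (x : gaussInt R L) : red R (gDen x) ≠ 0 :=
  (Classical.choose_spec (Classical.choose_spec x.2)).1

theorem gNum_spec (x : gaussInt R L) :
    (x : LaurentSeries L) * emb R L (gDen x) = emb R L (gNum x) :=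
  (Classical.choose_spec (Classical.choose_spec x.2)).2

/-- the underlying function of `gaussRed` -/
def gaussRedFun (x : gaussInt R L) : LaurentSeries (IsLocalRing.ResidueField R) :=
  red R (gNum x) / red R (gDen x)

theorem gaussRedFun_eq (x : gaussInt R L) (f g : LaurentSeries R) (hg : red R g ≠ 0)
    (h : (x : LaurentSeries L) * emb R L g = emb R L f) :
    gaussRedFun x = red R f / red R g :=
  red_div_red_eq (gDen_ne x) hg (gNum_spec x) h

variable (R L) in
/-- the residue map `𝒲 → k((t))`, `f/g ↦ red f / red g` -/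
def gaussRed : gaussInt R L →+* LaurentSeries (IsLocalRing.ResidueField R) where
  toFun := gaussRedFun
  map_one' := by
    rw [gaussRedFun_eq 1 1 1 (by rw [map_one]; exact one_ne_zero)
      (by rw [map_one, mul_one, Subring.coe_one]), map_one, div_one]
  map_zero' := by
    rw [gaussRedFun_eq 0 0 1 (by rw [map_one]; exact one_ne_zero)
      (by rw [map_zero, Subring.coe_zero, zero_mul]), map_zero, zero_div]
  map_mul' x y := by
    rw [gaussRedFun_eq (x * y) (gNum x * gNum y) (gDen x * gDen y)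
      (by rw [map_mul]; exact mul_ne_zero (gDen_ne x) (gDen_ne y))
      (by rw [map_mul, map_mul, ← gNum_spec x, ← gNum_spec y, Subring.coe_mul]; ring),
      map_mul, map_mul, gaussRedFun, gaussRedFun, div_mul_div_comm]
  map_add' x y := by
    rw [gaussRedFun_eq (x + y) (gNum x * gDen y + gNum y * gDen x) (gDen x * gDen y)
      (by rw [map_mul]; exact mul_ne_zero (gDen_ne x) (gDen_ne y))
      (by rw [map_add, map_mul, map_mul, map_mul, ← gNum_spec x, ← gNum_spec y,
        Subring.coe_add]; ring),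
      map_add, map_mul, map_mul, map_mul, gaussRedFun, gaussRedFun,
      div_add_div _ _ (gDen_ne x) (gDen_ne y), mul_comm (red R (gDen x)) (red R (gNum y))]

theorem gaussRed_eq (x : gaussInt R L) (f g : LaurentSeries R) (hg : red R g ≠ 0)
    (h : (x : LaurentSeries L) * emb R L g = emb R L f) :
    gaussRed R L x = red R f / red R g :=
  gaussRedFun_eq x f g hg h

variable (R L) in
theorem gaussRed_emb (f : LaurentSeries R) :
    gaussRed R L ⟨emb R L f, emb_mem_gaussInt R L f⟩ = red R f := by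
  rw [gaussRed_eq _ f 1 (by rw [map_one]; exact one_ne_zero) (by rw [map_one, mul_one]), map_one,
    div_one]

/-- kernel of `gaussRed` is `ϖ 𝒲` -/
theorem gaussRed_eq_zero_iff {ϖ : R} (hϖ : Irreducible ϖ) (x : gaussInt R L) :
    gaussRed R L x = 0 ↔
      ∃ y : gaussInt R L,
        (x : LaurentSeries L) = HahnSeries.C (algebraMap R L ϖ) * (y : LaurentSeries L) := by
  have hC := C_algebraMap_ne_zero (L := L) hϖ.ne_zero
  constructor
  · intro h0
    obtain ⟨f, g, hg, h⟩ := x.2
    rw [gaussRed_eq x f g hg h, div_eq_zero_iff, or_iff_left hg] at h0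
    obtain ⟨f', rfl⟩ := (red_eq_zero_iff hϖ f).1 h0
    refine ⟨⟨(HahnSeries.C (algebraMap R L ϖ))⁻¹ * (x : LaurentSeries L), f', g, hg, ?_⟩, ?_⟩
    · rw [mul_assoc, h, map_mul, emb_C, inv_mul_cancel_left₀ hC]
    · show _ = _ * ((HahnSeries.C (algebraMap R L ϖ))⁻¹ * (x : LaurentSeries L))
      rw [mul_inv_cancel_left₀ hC]
  · rintro ⟨y, hy⟩
    obtain ⟨f, g, hg, h⟩ := y.2
    rw [gaussRed_eq x (HahnSeries.C ϖ * f) g hg
      (by rw [hy, mul_assoc, h, map_mul, emb_C]), map_mul, red_C, residue_irreducible hϖ,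
      map_zero, zero_mul, zero_div]

theorem inv_mem_gaussInt_of_gaussRed_ne_zero (x : gaussInt R L) (hx : gaussRed R L x ≠ 0) :
    (x : LaurentSeries L)⁻¹ ∈ gaussInt R L := by
  obtain ⟨f, g, hg, h⟩ := x.2
  rw [gaussRed_eq x f g hg h] at hx
  have hf : red R f ≠ 0 := fun h0 => hx (by rw [h0, zero_div])
  have hx0 : (x : LaurentSeries L) ≠ 0 := by
    intro h0
    rw [h0, zero_mul] at h
    exact emb_ne_zero_of_red_ne_zero hf h.symm
  refine ⟨g, f, hf, ?_⟩
  rw [← h, inv_mul_cancel_left₀ hx0]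

theorem isUnit_gaussInt_iff (x : gaussInt R L) : IsUnit x ↔ gaussRed R L x ≠ 0 := by
  constructor
  · intro h
    exact (h.map (gaussRed R L)).ne_zero
  · intro h
    have hx0 : (x : LaurentSeries L) ≠ 0 := by
      intro h0
      apply h
      have : x = 0 := Subtype.ext h0
      rw [this, map_zero]
    refine IsUnit.of_mul_eq_one ⟨(x : LaurentSeries L)⁻¹, inv_mem_gaussInt_of_gaussRed_ne_zero x h⟩
      (Subtype.ext ?_)
    show (x : LaurentSeries L) * (x : LaurentSeries L)⁻¹ = 1
    exact mul_inv_cancel₀ hx0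

/-- every nonzero element of `Frac(R((t)))` is `ϖ^n · unit of 𝒲` -/
theorem exists_zpow_mul_unit {ϖ : R} (hϖ : Irreducible ϖ) {x : LaurentSeries L}
    (hx : x ∈ gaussField R L) (hx0 : x ≠ 0) :
    ∃ (n : ℤ) (u : LaurentSeries L), u ∈ gaussInt R L ∧ u⁻¹ ∈ gaussInt R L ∧
      x = HahnSeries.C (algebraMap R L ϖ) ^ n * u := by
  obtain ⟨a, b, f, g, hf, hg, h⟩ := exists_normal_form hϖ hx hx0
  have hC := C_algebraMap_ne_zero (L := L) hϖ.ne_zero
  have hf' := emb_ne_zero_of_red_ne_zero (L := L) hf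
  have hg' := emb_ne_zero_of_red_ne_zero (L := L) hg
  refine ⟨(a : ℤ) - b, emb R L f / emb R L g, ⟨f, g, hg, div_mul_cancel₀ _ hg'⟩,
    ⟨g, f, hf, by rw [inv_div, div_mul_cancel₀ _ hf']⟩, ?_⟩
  rw [zpow_sub₀ hC, zpow_natCast, zpow_natCast]
  field_simp
  rw [← h]
  ring

/-- an element of `𝒲` which is `ϖ^n · unit` has `n ≥ 0` -/
theorem zpow_nonneg_of_mem {ϖ : R} (hϖ : Irreducible ϖ) {n : ℤ} {u : LaurentSeries L}
    (hu : u ∈ gaussInt R L) (hu' : u⁻¹ ∈ gaussInt R L) (hu0 : u ≠ 0)
    (hx : HahnSeries.C (algebraMap R L ϖ) ^ n * u ∈ gaussInt R L) : 0 ≤ n := by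
  by_contra hn
  obtain ⟨m, hm⟩ : ∃ m : ℕ, n = -((m : ℤ) + 1) := ⟨(-n - 1).toNat, by omega⟩
  have hC := C_algebraMap_ne_zero (L := L) hϖ.ne_zero
  have hunit : IsUnit (⟨u, hu⟩ : gaussInt R L) :=
    IsUnit.of_mul_eq_one ⟨u⁻¹, hu'⟩ (Subtype.ext (mul_inv_cancel₀ hu0))
  have h1 := (isUnit_gaussInt_iff _).1 hunit
  apply h1
  rw [gaussRed_eq_zero_iff hϖ]
  refine ⟨⟨HahnSeries.C (algebraMap R L ϖ) ^ m * (HahnSeries.C (algebraMap R L ϖ) ^ n * u),
    (gaussInt R L).mul_mem ((gaussInt R L).pow_mem (C_algebraMap_mem_gaussInt ϖ) m) hx⟩, ?_⟩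
  show u = HahnSeries.C (algebraMap R L ϖ) *
    (HahnSeries.C (algebraMap R L ϖ) ^ m * (HahnSeries.C (algebraMap R L ϖ) ^ n * u))
  rw [← mul_assoc, ← mul_assoc, ← pow_succ', ← zpow_natCast, ← zpow_add₀ hC, hm]
  simp

end

end Fermat.Agent.Igusa
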