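/-
S28 (Igusa) — package (V), helper5.
(V2) The Gauss valuation subring `𝒪_M = M ∩ 𝒲` of an intermediate field `M ≤ Frac R((t))` of
`L((t))`: it is a discrete valuation ring with uniformiser `ϖ`, and its residue field embeds into
`k((t))`.
-/
import Fermat.Agent.Igusa.V_helper5_Gauss

set_option autoImplicit false
set_option linter.unusedSectionVars false

open ModularCurve

namespace Fermat.Agent.Igusa

noncomputable section

variable (R : Type*) [CommRing R] [IsDomain R] [IsDiscreteValuationRing R]
variable (L : Type*) [Field L] [Algebra R L] [IsFractionRing R L]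

/-- the Gauss valuation subring `𝒪_M = M ∩ 𝒲` of an intermediate field `M ≤ Frac(R((t)))` -/
def gaussValSub (M : IntermediateField L (LaurentSeries L)) (hM : M ≤ gaussField R L) :
    ValuationSubring M where
  carrier := {x | (x : LaurentSeries L) ∈ gaussInt R L}
  mul_mem' := fun {a b} ha hb => by
    show ((a * b : M) : LaurentSeries L) ∈ gaussInt R L
    rw [IntermediateField.coe_mul]
    exact (gaussInt R L).mul_mem ha hb
  one_mem' := by
    show ((1 : M) : LaurentSeries L) ∈ gaussInt R L
    rw [IntermediateField.coe_one]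
    exact (gaussInt R L).one_mem
  add_mem' := fun {a b} ha hb => by
    show ((a + b : M) : LaurentSeries L) ∈ gaussInt R L
    rw [IntermediateField.coe_add]
    exact (gaussInt R L).add_mem ha hb
  zero_mem' := by
    show ((0 : M) : LaurentSeries L) ∈ gaussInt R L
    rw [IntermediateField.coe_zero]
    exact (gaussInt R L).zero_mem
  neg_mem' := fun {a} ha => by
    show ((-a : M) : LaurentSeries L) ∈ gaussInt R L
    rw [IntermediateField.coe_neg]
    exact (gaussInt R L).neg_mem ha
  mem_or_inv_mem' := fun a => by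
    show (a : LaurentSeries L) ∈ gaussInt R L ∨ ((a⁻¹ : M) : LaurentSeries L) ∈ gaussInt R L
    rw [IntermediateField.coe_inv]
    exact mem_gaussInt_or_inv_mem (hM a.2)

variable {R L}

theorem mem_gaussValSub_iff {M : IntermediateField L (LaurentSeries L)} {hM : M ≤ gaussField R L}
    {x : M} : x ∈ gaussValSub R L M hM ↔ (x : LaurentSeries L) ∈ gaussInt R L := Iff.rfl

variable (R L) in
/-- the inclusion `𝒪_M → 𝒲` -/
def gaussValIncl (M : IntermediateField L (LaurentSeries L)) (hM : M ≤ gaussField R L) :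
    gaussValSub R L M hM →+* gaussInt R L where
  toFun x := ⟨((x : M) : LaurentSeries L), x.2⟩
  map_one' := rfl
  map_mul' _ _ := rfl
  map_zero' := rfl
  map_add' _ _ := rfl

variable (R L) in
/-- the residue map of `𝒪_M` into `k((t))` -/
def gaussValRed (M : IntermediateField L (LaurentSeries L)) (hM : M ≤ gaussField R L) :
    gaussValSub R L M hM →+* LaurentSeries (IsLocalRing.ResidueField R) :=
  (gaussRed R L).comp (gaussValIncl R L M hM)

theorem gaussValRed_apply {M : IntermediateField L (LaurentSeries L)} {hM : M ≤ gaussField R L}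
    (x : gaussValSub R L M hM) :
    gaussValRed R L M hM x = gaussRed R L ⟨((x : M) : LaurentSeries L), x.2⟩ := rfl

theorem isUnit_gaussValSub_iff {M : IntermediateField L (LaurentSeries L)}
    {hM : M ≤ gaussField R L} (x : gaussValSub R L M hM) :
    IsUnit x ↔ gaussValRed R L M hM x ≠ 0 := by
  constructor
  · intro h
    exact (h.map (gaussValRed R L M hM)).ne_zero
  · intro h
    have hinv := inv_mem_gaussInt_of_gaussRed_ne_zero _ h
    have hx0 : (x : M) ≠ 0 := by
      intro h0
      apply h
      have : x = 0 := Subtype.ext h0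
      rw [this, map_zero]
    refine IsUnit.of_mul_eq_one ⟨(x : M)⁻¹, ?_⟩ (Subtype.ext ?_)
    · show (((x : M)⁻¹ : M) : LaurentSeries L) ∈ gaussInt R L
      rw [IntermediateField.coe_inv]
      exact hinv
    · show (x : M) * (x : M)⁻¹ = 1
      exact mul_inv_cancel₀ hx0

theorem mem_maximalIdeal_gaussValSub_iff {M : IntermediateField L (LaurentSeries L)}
    {hM : M ≤ gaussField R L} (x : gaussValSub R L M hM) :
    x ∈ IsLocalRing.maximalIdeal (gaussValSub R L M hM) ↔ gaussValRed R L M hM x = 0 := by
  rw [IsLocalRing.mem_maximalIdeal, mem_nonunits_iff, isUnit_gaussValSub_iff, not_not]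

theorem ker_gaussValRed {M : IntermediateField L (LaurentSeries L)} {hM : M ≤ gaussField R L} :
    RingHom.ker (gaussValRed R L M hM) = IsLocalRing.maximalIdeal (gaussValSub R L M hM) := by
  ext x
  rw [RingHom.mem_ker, mem_maximalIdeal_gaussValSub_iff]

instance isLocalHom_gaussValRed {M : IntermediateField L (LaurentSeries L)}
    {hM : M ≤ gaussField R L} : IsLocalHom (gaussValRed R L M hM) :=
  ⟨fun x hx => (isUnit_gaussValSub_iff x).2 hx.ne_zero⟩

variable (R L) in
/-- the residue field of `𝒪_M` embeds into `k((t))` -/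
def gaussResidueEmb (M : IntermediateField L (LaurentSeries L)) (hM : M ≤ gaussField R L) :
    IsLocalRing.ResidueField (gaussValSub R L M hM) →+*
      LaurentSeries (IsLocalRing.ResidueField R) :=
  IsLocalRing.ResidueField.lift (gaussValRed R L M hM)

theorem gaussResidueEmb_residue {M : IntermediateField L (LaurentSeries L)}
    {hM : M ≤ gaussField R L} (x : gaussValSub R L M hM) :
    gaussResidueEmb R L M hM (IsLocalRing.residue _ x) = gaussValRed R L M hM x :=
  IsLocalRing.ResidueField.lift_residue_apply _ x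

theorem gaussResidueEmb_injective {M : IntermediateField L (LaurentSeries L)}
    {hM : M ≤ gaussField R L} : Function.Injective (gaussResidueEmb R L M hM) :=
  (gaussResidueEmb R L M hM).injective

/-- a constant `c ∈ R` as an element of `𝒪_M` -/
def gaussValSubC (M : IntermediateField L (LaurentSeries L)) (hM : M ≤ gaussField R L) (c : R) :
    gaussValSub R L M hM :=
  ⟨algebraMap L M (algebraMap R L c), by
    show ((algebraMap L M (algebraMap R L c) : M) : LaurentSeries L) ∈ gaussInt R L
    rw [IntermediateField.coe_algebraMap_apply, algebraMap_laurentSeries_eq_single,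
      ← HahnSeries.C_apply]
    exact C_algebraMap_mem_gaussInt c⟩

theorem coe_gaussValSubC (M : IntermediateField L (LaurentSeries L)) (hM : M ≤ gaussField R L)
    (c : R) : (((gaussValSubC M hM c : gaussValSub R L M hM) : M) : LaurentSeries L) =
      HahnSeries.C (algebraMap R L c) := by
  show ((algebraMap L M (algebraMap R L c) : M) : LaurentSeries L) = _
  rw [IntermediateField.coe_algebraMap_apply, algebraMap_laurentSeries_eq_single,
    ← HahnSeries.C_apply]

theorem maximalIdeal_gaussValSub {ϖ : R} (hϖ : Irreducible ϖ)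
    (M : IntermediateField L (LaurentSeries L)) (hM : M ≤ gaussField R L) :
    IsLocalRing.maximalIdeal (gaussValSub R L M hM) = Ideal.span {gaussValSubC M hM ϖ} := by
  have hC := C_algebraMap_ne_zero (L := L) hϖ.ne_zero
  ext x
  rw [mem_maximalIdeal_gaussValSub_iff, gaussValRed_apply, gaussRed_eq_zero_iff hϖ,
    Ideal.mem_span_singleton]
  constructor
  · rintro ⟨y, hy⟩
    have hcne : ((gaussValSubC M hM ϖ : gaussValSub R L M hM) : M) ≠ 0 := by
      intro h0
      apply hC
      rw [← coe_gaussValSubC M hM ϖ, h0, IntermediateField.coe_zero]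
    refine ⟨⟨((gaussValSubC M hM ϖ : gaussValSub R L M hM) : M)⁻¹ * (x : M), ?_⟩, Subtype.ext ?_⟩
    · show ((((gaussValSubC M hM ϖ : gaussValSub R L M hM) : M)⁻¹ * (x : M) : M) :
        LaurentSeries L) ∈ gaussInt R L
      rw [IntermediateField.coe_mul, IntermediateField.coe_inv, coe_gaussValSubC]
      have : (HahnSeries.C (algebraMap R L ϖ) : LaurentSeries L)⁻¹ * ((x : M) : LaurentSeries L) =
          (y : LaurentSeries L) := by
        have hy' : ((x : M) : LaurentSeries L) =
            HahnSeries.C (algebraMap R L ϖ) * (y : LaurentSeries L) := hy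
        rw [hy', inv_mul_cancel_left₀ hC]
      rw [this]
      exact y.2
    · show (x : M) = ((gaussValSubC M hM ϖ : gaussValSub R L M hM) : M) *
        (((gaussValSubC M hM ϖ : gaussValSub R L M hM) : M)⁻¹ * (x : M))
      rw [mul_inv_cancel_left₀ hcne]
  · rintro ⟨y, rfl⟩
    refine ⟨gaussValIncl R L M hM y, ?_⟩
    show (((gaussValSubC M hM ϖ * y : gaussValSub R L M hM) : M) : LaurentSeries L) = _
    rw [← coe_gaussValSubC M hM ϖ]
    rfl


theorem gaussValSubC_ne_zero {ϖ : R} (hϖ : ϖ ≠ 0) (M : IntermediateField L (LaurentSeries L))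
    (hM : M ≤ gaussField R L) : gaussValSubC M hM ϖ ≠ 0 := by
  intro h0
  apply C_algebraMap_ne_zero (L := L) hϖ
  rw [← coe_gaussValSubC M hM ϖ, h0]
  rfl

theorem irreducible_gaussValSubC {ϖ : R} (hϖ : Irreducible ϖ)
    (M : IntermediateField L (LaurentSeries L)) (hM : M ≤ gaussField R L) :
    Irreducible (gaussValSubC M hM ϖ) := by
  have hmax := maximalIdeal_gaussValSub hϖ M hM
  have hne := gaussValSubC_ne_zero hϖ.ne_zero M hM
  have hnu : ¬ IsUnit (gaussValSubC M hM ϖ) := by
    rw [← mem_nonunits_iff, ← IsLocalRing.mem_maximalIdeal, hmax]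
    exact Ideal.subset_span rfl
  refine ⟨hnu, fun a b hab => ?_⟩
  by_contra hcon
  rw [not_or] at hcon
  have ha : a ∈ IsLocalRing.maximalIdeal (gaussValSub R L M hM) :=
    (IsLocalRing.mem_maximalIdeal a).2 hcon.1
  rw [hmax, Ideal.mem_span_singleton] at ha
  obtain ⟨a', rfl⟩ := ha
  have h1 : gaussValSubC M hM ϖ * 1 = gaussValSubC M hM ϖ * (a' * b) := by
    rw [mul_one, ← mul_assoc]; exact hab
  have h2 := mul_left_cancel₀ hne h1
  exact hcon.2 (IsUnit.of_mul_eq_one a' (by rw [mul_comm]; exact h2.symm))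

theorem hasUnitMulPowIrreducibleFactorization_gaussValSub
    (M : IntermediateField L (LaurentSeries L)) (hM : M ≤ gaussField R L) :
    IsDiscreteValuationRing.HasUnitMulPowIrreducibleFactorization (gaussValSub R L M hM) := by
  obtain ⟨ϖ, hϖ⟩ := IsDiscreteValuationRing.exists_irreducible R
  refine ⟨gaussValSubC M hM ϖ, irreducible_gaussValSubC hϖ M hM, fun {x} hx => ?_⟩
  have hC := C_algebraMap_ne_zero (L := L) hϖ.ne_zero
  have hx0 : ((x : M) : LaurentSeries L) ≠ 0 := by
    intro h0
    apply hx
    apply Subtype.ext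
    apply Subtype.ext
    exact h0
  obtain ⟨n, u, hu, hu', hxu⟩ := exists_zpow_mul_unit hϖ (hM (x : M).2) hx0
  have hu0 : u ≠ 0 := by
    rintro rfl
    rw [mul_zero] at hxu
    exact hx0 hxu
  have hn : 0 ≤ n := zpow_nonneg_of_mem hϖ hu hu' hu0 (hxu ▸ x.2)
  obtain ⟨m, rfl⟩ := Int.eq_ofNat_of_zero_le hn
  rw [zpow_natCast] at hxu
  -- `u` lies in `M`
  have hcM : (HahnSeries.C (algebraMap R L ϖ) : LaurentSeries L) ∈ M := by
    rw [← coe_gaussValSubC M hM ϖ]
    exact (gaussValSubC M hM ϖ : M).2
  have huM : u ∈ M := by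
    have : u = (HahnSeries.C (algebraMap R L ϖ) ^ m)⁻¹ * ((x : M) : LaurentSeries L) := by
      rw [hxu, inv_mul_cancel_left₀ (pow_ne_zero m hC)]
    rw [this]
    exact M.mul_mem (M.inv_mem (M.pow_mem hcM m)) (x : M).2
  refine ⟨m, ?_⟩
  have hunit : IsUnit (⟨⟨u, huM⟩, hu⟩ : gaussValSub R L M hM) := by
    refine IsUnit.of_mul_eq_one ⟨(⟨u, huM⟩ : M)⁻¹, ?_⟩ (Subtype.ext ?_)
    · show (((⟨u, huM⟩ : M)⁻¹ : M) : LaurentSeries L) ∈ gaussInt R L
      rw [IntermediateField.coe_inv]
      exact hu'
    · show (⟨u, huM⟩ : M) * (⟨u, huM⟩ : M)⁻¹ = 1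
      exact mul_inv_cancel₀ (fun h0 => hu0 (congrArg Subtype.val h0))
  refine ⟨hunit.unit, ?_⟩
  apply Subtype.ext
  apply Subtype.ext
  show (((gaussValSubC M hM ϖ ^ m * (⟨⟨u, huM⟩, hu⟩ : gaussValSub R L M hM) :
    gaussValSub R L M hM) : M) : LaurentSeries L) = _
  rw [hxu, ← coe_gaussValSubC M hM ϖ]
  rfl

instance isDiscreteValuationRing_gaussValSub (M : IntermediateField L (LaurentSeries L))
    (hM : M ≤ gaussField R L) : IsDiscreteValuationRing (gaussValSub R L M hM) :=
  IsDiscreteValuationRing.ofHasUnitMulPowIrreducibleFactorization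
    (hasUnitMulPowIrreducibleFactorization_gaussValSub M hM)

end

end Fermat.Agent.Igusa
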