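/-
S28 (Igusa) — package (V), helper5.
(V3) Functoriality of the Gauss valuation ring: morphisms of Gauss data (`GaussHom`), the twist
`t ↦ ζ t`, the substitution `t ↦ t^N`, and base change along a local homomorphism of discrete
valuation rings.
-/
import Fermat.Agent.Igusa.V_helper5_Val
import Fermat.Agent.Igusa.A_helper2_Twist

set_option autoImplicit false
set_option linter.unusedSectionVars false

open ModularCurve

namespace Fermat.Agent.Igusa

noncomputable section

variable (R : Type*) [CommRing R] [IsDomain R] [IsDiscreteValuationRing R]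
variable (L : Type*) [Field L] [Algebra R L] [IsFractionRing R L]
variable (R' : Type*) [CommRing R'] [IsDomain R'] [IsDiscreteValuationRing R']
variable (L' : Type*) [Field L'] [Algebra R' L'] [IsFractionRing R' L']

/-- A morphism of Gauss data: compatible ring homs on `R((t))`, `L((t))`, `k((t))`. -/
structure GaussHom where
  /-- on `R((t))` -/
  σW : LaurentSeries R →+* LaurentSeries R'
  /-- on `L((t))` -/
  σL : LaurentSeries L →+* LaurentSeries L'
  /-- on `k((t))` -/
  σk : LaurentSeries (IsLocalRing.ResidueField R) →+* LaurentSeries (IsLocalRing.ResidueField R')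
  emb_comm : ∀ f, emb R' L' (σW f) = σL (emb R L f)
  red_comm : ∀ f, red R' (σW f) = σk (red R f)

variable {R L R' L'}

namespace GaussHom

variable (σ : GaussHom R L R' L')

theorem red_ne_zero {g : LaurentSeries R} (hg : red R g ≠ 0) : red R' (σ.σW g) ≠ 0 := by
  rw [σ.red_comm]
  exact (map_ne_zero_iff _ σ.σk.injective).2 hg

theorem ne_zero {g : LaurentSeries R} (hg : g ≠ 0) : σ.σW g ≠ 0 := by
  intro h
  have h1 : σ.σL (emb R L g) = 0 := by rw [← σ.emb_comm, h, map_zero]
  exact hg (emb_eq_zero_iff.1 ((map_eq_zero_iff _ σ.σL.injective).1 h1))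

theorem map_mem_gaussField {x : LaurentSeries L} (hx : x ∈ gaussField R L) :
    σ.σL x ∈ gaussField R' L' := by
  obtain ⟨f, g, hg, h⟩ := hx
  exact ⟨σ.σW f, σ.σW g, σ.ne_zero hg, by rw [σ.emb_comm, σ.emb_comm, ← h, map_mul]⟩

theorem map_mem_gaussInt {x : LaurentSeries L} (hx : x ∈ gaussInt R L) :
    σ.σL x ∈ gaussInt R' L' := by
  obtain ⟨f, g, hg, h⟩ := hx
  exact ⟨σ.σW f, σ.σW g, σ.red_ne_zero hg, by rw [σ.emb_comm, σ.emb_comm, ← h, map_mul]⟩

theorem gaussRed_map {x : LaurentSeries L} (hx : x ∈ gaussInt R L) :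
    gaussRed R' L' ⟨σ.σL x, σ.map_mem_gaussInt hx⟩ = σ.σk (gaussRed R L ⟨x, hx⟩) := by
  have hx' := hx
  obtain ⟨f, g, hg, h⟩ := hx'
  have h' : ((⟨σ.σL x, σ.map_mem_gaussInt hx⟩ : gaussInt R' L') : LaurentSeries L') *
      emb R' L' (σ.σW g) = emb R' L' (σ.σW f) := by
    show σ.σL x * _ = _
    rw [σ.emb_comm, σ.emb_comm, ← h, map_mul]
  rw [gaussRed_eq ⟨x, hx⟩ f g hg h,
    gaussRed_eq ⟨σ.σL x, _⟩ (σ.σW f) (σ.σW g) (σ.red_ne_zero hg) h',
    σ.red_comm, σ.red_comm, map_div₀]

/-- integrality is reflected -/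
theorem mem_gaussInt_of_map_mem {x : LaurentSeries L} (hx : x ∈ gaussField R L)
    (h : σ.σL x ∈ gaussInt R' L') : x ∈ gaussInt R L := by
  rcases mem_gaussInt_or_inv_mem hx with h1 | h1
  · exact h1
  · by_cases hx0 : x = 0
    · rw [hx0]; exact (gaussInt R L).zero_mem
    -- `x⁻¹ ∈ 𝒲`; if `x⁻¹` is a unit of `𝒲` we are done, otherwise its reduction vanishes
    by_cases hred : gaussRed R L ⟨x⁻¹, h1⟩ = 0
    · exfalso
      have h2 : gaussRed R' L' ⟨σ.σL x⁻¹, σ.map_mem_gaussInt h1⟩ = 0 := by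
        rw [σ.gaussRed_map h1, hred, map_zero]
      have h3 : (⟨σ.σL x, h⟩ : gaussInt R' L') * ⟨σ.σL x⁻¹, σ.map_mem_gaussInt h1⟩ = 1 := by
        apply Subtype.ext
        show σ.σL x * σ.σL x⁻¹ = 1
        rw [← map_mul, mul_inv_cancel₀ hx0, map_one]
      have h4 := congrArg (gaussRed R' L') h3
      rw [map_mul, h2, mul_zero, map_one] at h4
      exact zero_ne_one h4
    · have := inv_mem_gaussInt_of_gaussRed_ne_zero ⟨x⁻¹, h1⟩ hred
      simpa using this

end GaussHom

variable (L) in
/-- the twist `t ↦ ζ t`, `ζ ∈ Rˣ`, as a morphism of Gauss data -/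
def gaussHomTwist (ζ : Rˣ) : GaussHom R L R L where
  σW := (twist ζ).toRingHom
  σL := (twist (Units.map (algebraMap R L : R →* L) ζ)).toRingHom
  σk := (twist (Units.map (IsLocalRing.residue R : R →* IsLocalRing.ResidueField R) ζ)).toRingHom
  emb_comm f := coeffMap_twist (algebraMap R L) ζ f
  red_comm f := coeffMap_twist (IsLocalRing.residue R) ζ f

variable (R L) in
/-- `t ↦ t^N` as a morphism of Gauss data -/
def gaussHomQExpand (N : ℕ) [NeZero N] : GaussHom R L R L where
  σW := qExpand R N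
  σL := qExpand L N
  σk := qExpand _ N
  emb_comm f := coeffMap_qExpand (algebraMap R L) N f
  red_comm f := coeffMap_qExpand (IsLocalRing.residue R) N f

/-- base change along a local homomorphism of discrete valuation rings -/
def gaussHomBaseChange (φ : R →+* R') [IsLocalHom φ] (ψ : L →+* L')
    (h : ∀ r, ψ (algebraMap R L r) = algebraMap R' L' (φ r)) : GaussHom R L R' L' where
  σW := coeffMap φ
  σL := coeffMap ψ
  σk := coeffMap (IsLocalRing.ResidueField.map φ)
  emb_comm f := by
    rw [emb, emb, coeffMap_coeffMap, coeffMap_coeffMap]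
    exact coeffMap_congr (RingHom.ext fun r => (h r).symm) f
  red_comm f := by
    rw [red, red, coeffMap_coeffMap, coeffMap_coeffMap]
    exact coeffMap_congr (RingHom.ext fun r => rfl) f

/-- composition of morphisms of Gauss data -/
def GaussHom.comp {R'' : Type*} [CommRing R''] [IsDomain R''] [IsDiscreteValuationRing R'']
    {L'' : Type*} [Field L''] [Algebra R'' L''] [IsFractionRing R'' L'']
    (τ : GaussHom R' L' R'' L'') (σ : GaussHom R L R' L') : GaussHom R L R'' L'' where
  σW := τ.σW.comp σ.σW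
  σL := τ.σL.comp σ.σL
  σk := τ.σk.comp σ.σk
  emb_comm f := by
    rw [RingHom.comp_apply, τ.emb_comm, σ.emb_comm, RingHom.comp_apply]
  red_comm f := by
    rw [RingHom.comp_apply, τ.red_comm, σ.red_comm, RingHom.comp_apply]

/-! ### consequences in the language of `gaussValSub` -/

/-- the twist by `ζ ∈ Rˣ` preserves `𝒲` -/
theorem gaussInt_twist_mem (ζ : Rˣ) {x : LaurentSeries L} (hx : x ∈ gaussInt R L) :
    twist (Units.map (algebraMap R L : R →* L) ζ) x ∈ gaussInt R L :=
  (gaussHomTwist L ζ).map_mem_gaussInt hx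

theorem twist_mem_gaussInt_iff (ζ : Rˣ) {x : LaurentSeries L} :
    twist (Units.map (algebraMap R L : R →* L) ζ) x ∈ gaussInt R L ↔ x ∈ gaussInt R L := by
  refine ⟨fun h => ?_, gaussInt_twist_mem ζ⟩
  have := gaussInt_twist_mem ζ⁻¹ h
  rwa [← twist_mul, ← map_mul, inv_mul_cancel, map_one, twist_one] at this

theorem twist_mem_gaussField (ζ : Rˣ) {x : LaurentSeries L} (hx : x ∈ gaussField R L) :
    twist (Units.map (algebraMap R L : R →* L) ζ) x ∈ gaussField R L :=
  (gaussHomTwist L ζ).map_mem_gaussField hx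

theorem gaussRed_twist (ζ : Rˣ) {x : LaurentSeries L} (hx : x ∈ gaussInt R L) :
    gaussRed R L ⟨twist (Units.map (algebraMap R L : R →* L) ζ) x, gaussInt_twist_mem ζ hx⟩ =
      twist (Units.map (IsLocalRing.residue R : R →* IsLocalRing.ResidueField R) ζ)
        (gaussRed R L ⟨x, hx⟩) :=
  (gaussHomTwist L ζ).gaussRed_map hx

end

end Fermat.Agent.Igusa
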