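import Mathlib
import Fermat.Agent.RatStr.UpperTri
import Fermat.Agent.Igusa.A_helper2_Twist

/-!
# S28 package (A), part 3: Hermite normal form and conjugation of `Γ(N)`

* `exists_hnf` : for an upper triangular integer matrix `α = (a b; 0 d)` with `a, d > 0` and
  `γ ∈ SL(2,ℤ)`, `α γ = δ α'` with `δ ∈ SL(2,ℤ)` and `α' = (a' b'; 0 d')`, `a' d' = a d`,
  `0 ≤ b' < d'`.
* `Idx.exists_act` : the same for `α : Idx N`, as an identity in `GL (Fin 2) ℝ`.
* `Idx.exists_conj_of_mem_Gamma` : for `γ ∈ Γ(N)`, `α γ = δ α` with `δ ∈ SL(2,ℤ)`.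
-/

set_option autoImplicit false

namespace Fermat.Agent.Igusa

open scoped MatrixGroups
open Fermat.Agent.RatStr

/-- Hermite normal form, entrywise. -/
theorem exists_hnf (a b d : ℤ) (ha : 0 < a) (hd : 0 < d) (γ : SL(2, ℤ)) :
    ∃ (δ : SL(2, ℤ)) (a' b' d' : ℤ), 0 < a' ∧ 0 < d' ∧ a' * d' = a * d ∧ 0 ≤ b' ∧ b' < d' ∧
      a * γ 0 0 + b * γ 1 0 = δ 0 0 * a' ∧
      a * γ 0 1 + b * γ 1 1 = δ 0 0 * b' + δ 0 1 * d' ∧
      d * γ 1 0 = δ 1 0 * a' ∧
      d * γ 1 1 = δ 1 0 * b' + δ 1 1 * d' := by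
  have hdet : γ 0 0 * γ 1 1 - γ 0 1 * γ 1 0 = 1 := by
    have := γ.det_coe
    rwa [Matrix.det_fin_two] at this
  set A := γ 0 0
  set B := γ 0 1
  set C := γ 1 0
  set D := γ 1 1
  set u := a * A + b * C with hu
  set w := d * C with hw
  set v := a * B + b * D with hv
  set x := d * D with hx
  have hdetM : u * x - v * w = a * d := by
    rw [hu, hx, hv, hw]
    linear_combination (a * d) * hdet
  have hg0 : 0 < Int.gcd u w := by
    rw [Nat.pos_iff_ne_zero, Ne, Int.gcd_eq_zero_iff]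
    rintro ⟨h1, h2⟩
    rw [h1, h2] at hdetM
    have : a * d = 0 := by linarith
    have := mul_pos ha hd
    omega
  obtain ⟨g, p, r, hg, hpr, hp, hr⟩ := Int.exists_gcd_one' hg0
  have hcop : IsCoprime p r := Int.isCoprime_iff_gcd_eq_one.mpr hpr
  obtain ⟨xx, yy, hxy⟩ := hcop
  have hgz : (0 : ℤ) < g := by exact_mod_cast hg
  -- first decomposition with arbitrary `b''`
  set d'' := -r * v + p * x with hd''
  set b'' := xx * v + yy * x with hb''
  have hgd : (g : ℤ) * d'' = a * d := by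
    rw [hd'']
    have : (g : ℤ) * (-r * v + p * x) = -(r * g) * v + (p * g) * x := by ring
    rw [this, ← hp, ← hr]
    linarith
  have hd''pos : 0 < d'' := by
    by_contra hneg
    push Not at hneg
    have h1 : (g : ℤ) * d'' ≤ 0 := mul_nonpos_of_nonneg_of_nonpos hgz.le hneg
    have h2 := mul_pos ha hd
    linarith
  set k := b'' / d'' with hk
  set b' := b'' % d'' with hb'
  have hbk : b'' = b' + k * d'' := by
    rw [hb', hk]
    have := Int.emod_add_mul_ediv b'' d''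
    linarith
  refine ⟨⟨!![p, p * k - yy; r, r * k + xx], by
      rw [Matrix.det_fin_two_of]; linear_combination hxy⟩,
    g, b', d'', hgz, hd''pos, hgd, Int.emod_nonneg _ hd''pos.ne', Int.emod_lt_of_pos _ hd''pos,
    ?_, ?_, ?_, ?_⟩
  · simp only [Matrix.of_apply, Matrix.cons_val', Matrix.cons_val_zero, Matrix.cons_val_fin_one]
    exact hp
  · simp only [Matrix.of_apply, Matrix.cons_val', Matrix.cons_val_zero, Matrix.cons_val_fin_one,
      Matrix.cons_val_one]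
    have h1 : p * b'' - yy * d'' = v := by
      rw [hb'', hd'']
      linear_combination v * hxy
    show v = p * b' + (p * k - yy) * d''
    linear_combination (-1) * h1 + p * hbk
  · simp only [Matrix.of_apply, Matrix.cons_val', Matrix.cons_val_zero, Matrix.cons_val_fin_one,
      Matrix.cons_val_one]
    exact hr
  · simp only [Matrix.of_apply, Matrix.cons_val', Matrix.cons_val_zero, Matrix.cons_val_fin_one,
      Matrix.cons_val_one]
    have h1 : r * b'' + xx * d'' = x := by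
      rw [hb'', hd'']
      linear_combination x * hxy
    show x = r * b' + (r * k + xx) * d''
    linear_combination (-1) * h1 + r * hbk

namespace Idx

variable {N : ℕ}

/-- the matrix `(a b; 0 d)` in `GL (Fin 2) ℝ`. -/
noncomputable def toGL (α : Idx N) : GL (Fin 2) ℝ :=
  utGL (α.a : ℝ) (α.b : ℝ) (α.d : ℝ) (by exact_mod_cast α.ha) (by exact_mod_cast α.hd)

theorem val_toGL (α : Idx N) :
    ((α.toGL : GL (Fin 2) ℝ) : Matrix (Fin 2) (Fin 2) ℝ) = !![(α.a : ℝ), α.b; 0, α.d] := rfl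

theorem det_toGL_pos (α : Idx N) : 0 < ((α.toGL).det : ℝ) := det_utGL_pos _ _

/-- **The action of `SL(2,ℤ)` on the index set** (existence form). -/
theorem exists_act (α : Idx N) (γ : SL(2, ℤ)) :
    ∃ (δ : SL(2, ℤ)) (α' : Idx N), α'.a * α'.d = α.a * α.d ∧
      α.toGL * (γ : GL (Fin 2) ℝ) = (δ : GL (Fin 2) ℝ) * α'.toGL := by
  obtain ⟨δ, a', b', d', ha', hd', had, hb0, hbd, h00, h01, h10, h11⟩ :=
    exists_hnf (α.a : ℤ) (α.b : ℤ) (α.d : ℤ) (by exact_mod_cast α.ha) (by exact_mod_cast α.hd) γ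
  lift a' to ℕ using ha'.le
  lift b' to ℕ using hb0
  lift d' to ℕ using hd'.le
  have had' : a' * d' = α.a * α.d := by exact_mod_cast had
  refine ⟨δ, ⟨a', b', d', by exact_mod_cast ha', by exact_mod_cast hd', ?_, by exact_mod_cast hbd⟩,
    had', ?_⟩
  · rw [had']; exact α.hdvd
  apply Units.ext
  rw [Units.val_mul, Units.val_mul]
  have e1 : ((γ : GL (Fin 2) ℝ) : Matrix (Fin 2) (Fin 2) ℝ) =
      (γ : Matrix (Fin 2) (Fin 2) ℤ).map (algebraMap ℤ ℝ) :=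
    Matrix.SpecialLinearGroup.mapGL_coe_matrix γ
  have e2 : ((δ : GL (Fin 2) ℝ) : Matrix (Fin 2) (Fin 2) ℝ) =
      (δ : Matrix (Fin 2) (Fin 2) ℤ).map (algebraMap ℤ ℝ) :=
    Matrix.SpecialLinearGroup.mapGL_coe_matrix δ
  rw [e1, e2, val_toGL, val_toGL]
  have h00' : (α.a : ℝ) * (γ 0 0 : ℝ) + (α.b : ℝ) * (γ 1 0 : ℝ) = (δ 0 0 : ℝ) * a' := by
    exact_mod_cast h00
  have h01' : (α.a : ℝ) * (γ 0 1 : ℝ) + (α.b : ℝ) * (γ 1 1 : ℝ) =
      (δ 0 0 : ℝ) * b' + (δ 0 1 : ℝ) * d' := by exact_mod_cast h01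
  have h10' : (α.d : ℝ) * (γ 1 0 : ℝ) = (δ 1 0 : ℝ) * a' := by exact_mod_cast h10
  have h11' : (α.d : ℝ) * (γ 1 1 : ℝ) = (δ 1 0 : ℝ) * b' + (δ 1 1 : ℝ) * d' := by
    exact_mod_cast h11
  ext i j
  fin_cases i <;> fin_cases j <;>
    simp [Matrix.mul_apply, Fin.sum_univ_two, h00', h01', h10', h11']

/-- **Conjugation of `Γ(N)`**: for `γ ∈ Γ(N)` and `α` of determinant dividing `N`,
`α γ α⁻¹ ∈ SL(2,ℤ)`. -/
theorem exists_conj_of_mem_Gamma (α : Idx N) {γ : SL(2, ℤ)}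
    (hγ : γ ∈ CongruenceSubgroup.Gamma N) :
    ∃ δ : SL(2, ℤ), α.toGL * (γ : GL (Fin 2) ℝ) = (δ : GL (Fin 2) ℝ) * α.toGL := by
  rw [CongruenceSubgroup.Gamma_mem] at hγ
  obtain ⟨h00, h01, h10, h11⟩ := hγ
  obtain ⟨c, hc⟩ := α.hdvd
  have hdet : γ 0 0 * γ 1 1 - γ 0 1 * γ 1 0 = 1 := by
    have := γ.det_coe
    rwa [Matrix.det_fin_two] at this
  have hN : (N : ℤ) = (α.a : ℤ) * α.d * c := by exact_mod_cast hc
  have k00 : (N : ℤ) ∣ γ 0 0 - 1 := by
    rw [← ZMod.intCast_zmod_eq_zero_iff_dvd]; push_cast; rw [h00]; ring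
  have k01 : (N : ℤ) ∣ γ 0 1 := by
    rw [← ZMod.intCast_zmod_eq_zero_iff_dvd]; exact h01
  have k10 : (N : ℤ) ∣ γ 1 0 := by
    rw [← ZMod.intCast_zmod_eq_zero_iff_dvd]; exact h10
  have k11 : (N : ℤ) ∣ γ 1 1 - 1 := by
    rw [← ZMod.intCast_zmod_eq_zero_iff_dvd]; push_cast; rw [h11]; ring
  obtain ⟨m00, hm00⟩ := k00
  obtain ⟨m01, hm01⟩ := k01
  obtain ⟨m10, hm10⟩ := k10
  obtain ⟨m11, hm11⟩ := k11
  set a : ℤ := (α.a : ℤ)
  set b : ℤ := (α.b : ℤ)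
  set d : ℤ := (α.d : ℤ)
  have hA : γ 0 0 = 1 + a * d * c * m00 := by rw [← hN]; linarith
  have hB : γ 0 1 = a * d * c * m01 := by rw [← hN]; linarith
  have hC : γ 1 0 = a * d * c * m10 := by rw [← hN]; linarith
  have hD : γ 1 1 = 1 + a * d * c * m11 := by rw [← hN]; linarith
  have hdet' : (1 + a * d * c * m00) * (1 + a * d * c * m11) -
      (a * d * c * m01) * (a * d * c * m10) = 1 := by
    rw [← hA, ← hB, ← hC, ← hD]; exact hdet
  let δ : SL(2, ℤ) := ⟨!![γ 0 0 + b * d * c * m10,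
      a ^ 2 * c * m01 + b * a * c * (m11 - m00) - b ^ 2 * c * m10;
      d ^ 2 * c * m10, γ 1 1 - b * d * c * m10], by
    rw [Matrix.det_fin_two_of, hA, hD]
    linear_combination hdet'⟩
  refine ⟨δ, ?_⟩
  apply Units.ext
  rw [Units.val_mul, Units.val_mul]
  have e1 : ((γ : GL (Fin 2) ℝ) : Matrix (Fin 2) (Fin 2) ℝ) =
      (γ : Matrix (Fin 2) (Fin 2) ℤ).map (algebraMap ℤ ℝ) :=
    Matrix.SpecialLinearGroup.mapGL_coe_matrix γ
  have e2 : ((δ : GL (Fin 2) ℝ) : Matrix (Fin 2) (Fin 2) ℝ) =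
      (δ : Matrix (Fin 2) (Fin 2) ℤ).map (algebraMap ℤ ℝ) :=
    Matrix.SpecialLinearGroup.mapGL_coe_matrix δ
  rw [e1, e2, val_toGL]
  have hAr : (γ 0 0 : ℝ) = 1 + (a : ℝ) * d * c * m00 := by exact_mod_cast hA
  have hBr : (γ 0 1 : ℝ) = (a : ℝ) * d * c * m01 := by exact_mod_cast hB
  have hCr : (γ 1 0 : ℝ) = (a : ℝ) * d * c * m10 := by exact_mod_cast hC
  have hDr : (γ 1 1 : ℝ) = 1 + (a : ℝ) * d * c * m11 := by exact_mod_cast hD
  have ea : ((α.a : ℕ) : ℝ) = (a : ℝ) := by simp [a]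
  have eb : ((α.b : ℕ) : ℝ) = (b : ℝ) := by simp [b]
  have ed : ((α.d : ℕ) : ℝ) = (d : ℝ) := by simp [d]
  rw [ea, eb, ed]
  ext i j
  fin_cases i <;> fin_cases j
  · simp [Matrix.mul_apply, Fin.sum_univ_two, δ, hAr, hCr]
    ring
  · simp [Matrix.mul_apply, Fin.sum_univ_two, δ, hAr, hBr, hCr, hDr]
    ring
  · simp [Matrix.mul_apply, Fin.sum_univ_two, δ, hCr]
    ring
  · simp [Matrix.mul_apply, Fin.sum_univ_two, δ, hCr, hDr]
    ring

end Idx

end Fermat.Agent.Igusa
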