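import Mathlib
import Fermat.Agent.X0N.Mer_helper6_Real
import Fermat.Agent.X0N.Mer_helper6_LinDisj
import Fermat.Agent.X0N.LaurentPeriod_helper1

/-!
# S28 package (A), part 2: realising formal Laurent series in `t = q^{1/N}` as meromorphic
functions on `ℍ`

Period-`N` version of helper6's `convSeries`, `merSeries`, `merSeries.real` (same proofs with
helper1's `IsMeroInfty (N : ℝ)`, `laurent (N : ℝ)`), plus the linear disjointness of the
realisation.
-/

set_option autoImplicit false

namespace Fermat.Agent.Igusa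

open UpperHalfPlane Complex Filter Topology ModularCurve
open Fermat.Agent.RatStr Fermat.Agent.X0N
open scoped MatrixGroups Manifold

theorem natCast_pos_real (N : ℕ) [NeZero N] : (0 : ℝ) < (N : ℝ) := by
  exact_mod_cast Nat.pos_of_ne_zero (NeZero.ne N)

variable {k : Type*} [Field k] (ι : k →+* ℂ) (N : ℕ) [NeZero N]

/-- The subring of `k((q))` of series that converge to a holomorphic function on `ℍ`
(meromorphic at `i∞`). -/
noncomputable def convSeriesN : Subring (LaurentSeries k) :=
  (laurentHom (N : ℝ) (natCast_pos_real N)).range.comap (coeffMap ι)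

theorem mem_convSeriesN {x : LaurentSeries k} :
    x ∈ convSeriesN ι N ↔ ∃ F : ℍ → ℂ, IsMeroInfty (N : ℝ) F ∧ laurent (N : ℝ) F = coeffMap ι x := by
  rw [convSeriesN, Subring.mem_comap, RingHom.mem_range]
  constructor
  · rintro ⟨F, hF⟩
    exact ⟨F.1, F.2, hF⟩
  · rintro ⟨F, hF, h⟩
    exact ⟨⟨F, hF⟩, h⟩

namespace convSeriesN

/-- The holomorphic function on `ℍ` attached to a convergent series. -/
noncomputable def fn (x : convSeriesN ι N) : ℍ → ℂ := Classical.choose ((mem_convSeriesN ι N).mp x.2)

theorem isMeroInfty_fn (x : convSeriesN ι N) : IsMeroInfty (N : ℝ) (fn ι N x) :=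
  (Classical.choose_spec ((mem_convSeriesN ι N).mp x.2)).1

theorem laurent_fn (x : convSeriesN ι N) : laurent (N : ℝ) (fn ι N x) = coeffMap ι (x : LaurentSeries k) :=
  (Classical.choose_spec ((mem_convSeriesN ι N).mp x.2)).2

theorem fn_eq_of_laurent_eq (x : convSeriesN ι N) {F : ℍ → ℂ} (hF : IsMeroInfty (N : ℝ) F)
    (h : laurent (N : ℝ) F = coeffMap ι (x : LaurentSeries k)) : fn ι N x = F :=
  laurent_injective (natCast_pos_real N) (isMeroInfty_fn ι N x) hF (by rw [laurent_fn, h])

theorem fn_one : fn ι N 1 = 1 :=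
  fn_eq_of_laurent_eq ι N 1 (IsMeroInfty.one (N : ℝ)) (by
    rw [laurent_one (natCast_pos_real N)]
    show (1 : LaurentSeries ℂ) = coeffMap ι 1
    rw [map_one])

theorem fn_zero : fn ι N 0 = 0 :=
  fn_eq_of_laurent_eq ι N 0 (IsMeroInfty.zero (N : ℝ)) (by
    rw [laurent_zero]
    show (0 : LaurentSeries ℂ) = coeffMap ι 0
    rw [map_zero])

theorem fn_mul (x y : convSeriesN ι N) : fn ι N (x * y) = fn ι N x * fn ι N y :=
  fn_eq_of_laurent_eq ι N (x * y) ((isMeroInfty_fn ι N x).mul (isMeroInfty_fn ι N y)) (by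
    rw [laurent_mul (natCast_pos_real N) (isMeroInfty_fn ι N x) (isMeroInfty_fn ι N y), laurent_fn, laurent_fn]
    show _ = coeffMap ι ((x : LaurentSeries k) * (y : LaurentSeries k))
    rw [map_mul])

theorem fn_add (x y : convSeriesN ι N) : fn ι N (x + y) = fn ι N x + fn ι N y :=
  fn_eq_of_laurent_eq ι N (x + y) ((isMeroInfty_fn ι N x).add (natCast_pos_real N) (isMeroInfty_fn ι N y)) (by
    rw [laurent_add (natCast_pos_real N) (isMeroInfty_fn ι N x) (isMeroInfty_fn ι N y), laurent_fn, laurent_fn]
    show _ = coeffMap ι ((x : LaurentSeries k) + (y : LaurentSeries k))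
    rw [map_add])

/-- The ring homomorphism from convergent series to holomorphic functions on `ℍ`. -/
noncomputable def toHol : convSeriesN ι N →+* HolH where
  toFun x := ⟨fn ι N x, (isMeroInfty_fn ι N x).hol⟩
  map_one' := Subtype.ext (fn_one ι N)
  map_mul' x y := Subtype.ext (fn_mul ι N x y)
  map_zero' := Subtype.ext (fn_zero ι N)
  map_add' x y := Subtype.ext (fn_add ι N x y)

@[simp] theorem coe_toHol (x : convSeriesN ι N) : (toHol ι N x : ℍ → ℂ) = fn ι N x := rfl

theorem toHol_injective : Function.Injective (toHol ι N) := by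
  rw [injective_iff_map_eq_zero]
  intro x hx
  have h1 : fn ι N x = 0 := congrArg Subtype.val hx
  have h2 := laurent_fn ι N x
  rw [h1, laurent_zero] at h2
  apply Subtype.ext
  apply coeffMap_injective ι
  rw [← h2]
  simp

/-- If `F` is holomorphic on `ℍ`, meromorphic at `i∞`, with expansion `coeffMap ι x`, then
`x` is a convergent series with function `F`. -/
theorem toHol_mk {x : LaurentSeries k} {F : ℍ → ℂ} (hF : IsMeroInfty (N : ℝ) F)
    (h : laurent (N : ℝ) F = coeffMap ι x) :
    (toHol ι N ⟨x, (mem_convSeriesN ι N).mpr ⟨F, hF, h⟩⟩ : ℍ → ℂ) = F :=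
  fn_eq_of_laurent_eq ι N _ hF h

theorem algebraMap_mem (c : k) : algebraMap k (LaurentSeries k) c ∈ convSeriesN ι N := by
  rw [mem_convSeriesN]
  refine ⟨fun _ => ι c, IsMeroInfty.const (N : ℝ) _, ?_⟩
  rw [laurent_const (natCast_pos_real N), algebraMap_laurentSeries_eq_single, coeffMap_single]
  rfl

theorem toHol_algebraMap (c : k) :
    toHol ι N ⟨algebraMap k (LaurentSeries k) c, algebraMap_mem ι N c⟩ = HolH.const (ι c) := by
  apply Subtype.ext
  apply fn_eq_of_laurent_eq ι N _ (IsMeroInfty.const (N : ℝ) _)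
  show laurent (N : ℝ) (fun _ => ι c) = coeffMap ι (algebraMap k (LaurentSeries k) c)
  rw [laurent_const (natCast_pos_real N), algebraMap_laurentSeries_eq_single, coeffMap_single]
  rfl

end convSeriesN


/-- The field of fractions of `convSeriesN ι N` inside `k((q))`: formal series that are expansions of
ratios of holomorphic functions on `ℍ` (`1`-periodic, meromorphic at `i∞`). -/
noncomputable def merSeriesN : Subfield (LaurentSeries k) :=
  Subfield.closure (convSeriesN ι N : Set (LaurentSeries k))

theorem convSeriesN_le_merSeriesN : (convSeriesN ι N : Set (LaurentSeries k)) ⊆ merSeriesN ι N :=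
  Subfield.subset_closure

theorem mem_merSeriesN {x : LaurentSeries k} :
    x ∈ merSeriesN ι N ↔ ∃ a ∈ convSeriesN ι N, ∃ b ∈ convSeriesN ι N, a / b = x := by
  rw [merSeriesN, Subfield.mem_closure_iff, Subring.closure_eq]

noncomputable instance : Algebra (convSeriesN ι N) (merSeriesN ι N) :=
  (Subring.inclusion (S := convSeriesN ι N) (T := (merSeriesN ι N).toSubring)
    (convSeriesN_le_merSeriesN ι N)).toAlgebra

theorem coe_algebraMap_convSeriesN (x : convSeriesN ι N) :
    ((algebraMap (convSeriesN ι N) (merSeriesN ι N) x : merSeriesN ι N) : LaurentSeries k) = x := rfl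

instance : FaithfulSMul (convSeriesN ι N) (merSeriesN ι N) := by
  rw [faithfulSMul_iff_algebraMap_injective]
  intro x y h
  apply Subtype.ext
  have := congrArg (fun z : merSeriesN ι N => (z : LaurentSeries k)) h
  simpa [coe_algebraMap_convSeriesN] using this

instance : IsFractionRing (convSeriesN ι N) (merSeriesN ι N) :=
  IsFractionRing.of_field _ _ fun ⟨z, hz⟩ => by
    obtain ⟨a, ha, b, hb, hab⟩ := (mem_merSeriesN ι N).mp hz
    exact ⟨⟨a, ha⟩, ⟨b, hb⟩, Subtype.ext hab.symm⟩

/-- **Realisation**: the field homomorphism `merSeriesN ι N → MerH`. -/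
noncomputable def merSeriesN.real : merSeriesN ι N →+* MerH :=
  IsFractionRing.lift (A := convSeriesN ι N) (K := merSeriesN ι N) (g := MerH.ofHol.comp (convSeriesN.toHol ι N))
    (MerH.ofHol_injective.comp (convSeriesN.toHol_injective ι N))

theorem merSeriesN.real_algebraMap (x : convSeriesN ι N) :
    merSeriesN.real ι N (algebraMap (convSeriesN ι N) (merSeriesN ι N) x) =
      MerH.ofHol (convSeriesN.toHol ι N x) := by
  rw [merSeriesN.real, IsFractionRing.lift_algebraMap]
  rfl

theorem merSeriesN.real_of_mem_convSeriesN {x : LaurentSeries k} (hx : x ∈ convSeriesN ι N) :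
    merSeriesN.real ι N ⟨x, convSeriesN_le_merSeriesN ι N hx⟩ = MerH.ofHol (convSeriesN.toHol ι N ⟨x, hx⟩) :=
  merSeriesN.real_algebraMap ι N ⟨x, hx⟩

theorem merSeriesN.real_injective : Function.Injective (merSeriesN.real ι N) :=
  (merSeriesN.real ι N).injective

theorem algebraMap_mem_merSeriesN (c : k) : algebraMap k (LaurentSeries k) c ∈ merSeriesN ι N :=
  convSeriesN_le_merSeriesN ι N (convSeriesN.algebraMap_mem ι N c)

theorem merSeriesN.real_const (c : k) :
    merSeriesN.real ι N ⟨algebraMap k (LaurentSeries k) c, algebraMap_mem_merSeriesN ι N c⟩ =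
      MerH.const (ι c) := by
  rw [merSeriesN.real_of_mem_convSeriesN ι N (convSeriesN.algebraMap_mem ι N c),
    convSeriesN.toHol_algebraMap]
  rfl

/-- The realisation of a series given as the expansion of a holomorphic function. -/
theorem merSeriesN.real_of_laurent_eq {x : LaurentSeries k} {F : ℍ → ℂ} (hF : IsMeroInfty (N : ℝ) F)
    (h : laurent (N : ℝ) F = coeffMap ι x) :
    ∃ (hx : x ∈ merSeriesN ι N), merSeriesN.real ι N ⟨x, hx⟩ = MerH.ofHol ⟨F, hF.hol⟩ := by
  have hx : x ∈ convSeriesN ι N := (mem_convSeriesN ι N).mpr ⟨F, hF, h⟩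
  refine ⟨convSeriesN_le_merSeriesN ι N hx, ?_⟩
  rw [merSeriesN.real_of_mem_convSeriesN ι N hx]
  congr 1
  apply Subtype.ext
  exact convSeriesN.toHol_mk ι N hF h


/-! ### base change of coefficients and linear disjointness -/

section Factor

variable {k : Type*} [Field k] (ι : k →+* ℂ) (N : ℕ) [NeZero N]

theorem coeffMap_mem_convSeriesN {x : LaurentSeries k} (hx : x ∈ convSeriesN ι N) :
    coeffMap ι x ∈ convSeriesN (RingHom.id ℂ) N := by
  rw [mem_convSeriesN] at hx ⊢
  obtain ⟨F, hF, h⟩ := hx
  exact ⟨F, hF, by rw [h, coeffMap_id]⟩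

theorem coeffMap_mem_merSeriesN {x : LaurentSeries k} (hx : x ∈ merSeriesN ι N) :
    coeffMap ι x ∈ merSeriesN (RingHom.id ℂ) N := by
  rw [mem_merSeriesN] at hx ⊢
  obtain ⟨a, ha, b, hb, rfl⟩ := hx
  exact ⟨coeffMap ι a, coeffMap_mem_convSeriesN ι N ha, coeffMap ι b,
    coeffMap_mem_convSeriesN ι N hb, (map_div₀ (coeffMap ι) a b).symm⟩

/-- Base change of coefficients `merSeriesN ι N → merSeriesN id N`. -/
noncomputable def merSeriesN.baseChange : merSeriesN ι N →+* merSeriesN (RingHom.id ℂ) N where
  toFun x := ⟨coeffMap ι x.1, coeffMap_mem_merSeriesN ι N x.2⟩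
  map_one' := Subtype.ext (map_one (coeffMap ι))
  map_mul' x y := Subtype.ext (map_mul (coeffMap ι) x.1 y.1)
  map_zero' := Subtype.ext (map_zero (coeffMap ι))
  map_add' x y := Subtype.ext (map_add (coeffMap ι) x.1 y.1)

theorem convSeriesN.toHol_coeffMap (a : convSeriesN ι N) :
    convSeriesN.toHol (RingHom.id ℂ) N ⟨coeffMap ι a.1, coeffMap_mem_convSeriesN ι N a.2⟩ =
      convSeriesN.toHol ι N a := by
  apply Subtype.ext
  apply convSeriesN.fn_eq_of_laurent_eq (RingHom.id ℂ) N _ (convSeriesN.isMeroInfty_fn ι N a)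
  rw [convSeriesN.laurent_fn, coeffMap_id]

/-- **Factorisation** of the realisation through base change to `ℂ`. -/
theorem merSeriesN.real_eq_real_id (x : merSeriesN ι N) :
    merSeriesN.real ι N x =
      merSeriesN.real (RingHom.id ℂ) N (merSeriesN.baseChange ι N x) := by
  have h : merSeriesN.real ι N =
      (merSeriesN.real (RingHom.id ℂ) N).comp (merSeriesN.baseChange ι N) := by
    apply IsLocalization.ringHom_ext (nonZeroDivisors (convSeriesN ι N))
    ext a
    rw [RingHom.comp_apply, RingHom.comp_apply, RingHom.comp_apply, merSeriesN.real_algebraMap]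
    have h1 : merSeriesN.baseChange ι N (algebraMap (convSeriesN ι N) (merSeriesN ι N) a) =
        algebraMap (convSeriesN (RingHom.id ℂ) N) (merSeriesN (RingHom.id ℂ) N)
          ⟨coeffMap ι a.1, coeffMap_mem_convSeriesN ι N a.2⟩ := rfl
    rw [h1, merSeriesN.real_algebraMap, convSeriesN.toHol_coeffMap]
  rw [h]
  rfl

/-- `merSeriesN ι N` as an intermediate field of `k((t))/k`. -/
noncomputable def merSeriesNI : IntermediateField k (LaurentSeries k) where
  toSubalgebra :=
    { (merSeriesN ι N).toSubring.toSubsemiring with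
      algebraMap_mem' := fun c => algebraMap_mem_merSeriesN ι N c }
  inv_mem' := fun _ hx => (merSeriesN ι N).inv_mem hx

theorem mem_merSeriesNI {x : LaurentSeries k} : x ∈ merSeriesNI ι N ↔ x ∈ merSeriesN ι N :=
  Iff.rfl

/-- `merSeriesNI ι N` and `merSeriesN ι N` have the same elements. -/
noncomputable def merSeriesNI.toSeries : ↥(merSeriesNI ι N) →+* merSeriesN ι N where
  toFun x := ⟨x.1, x.2⟩
  map_one' := rfl
  map_mul' _ _ := rfl
  map_zero' := rfl
  map_add' _ _ := rfl

end Factor

/-- The realisation over `ℂ` as a `ℂ`-algebra homomorphism on all meromorphic series. -/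
noncomputable def realIN (N : ℕ) [NeZero N] : ↥(merSeriesNI (RingHom.id ℂ) N) →ₐ[ℂ] MerH :=
  { (merSeriesN.real (RingHom.id ℂ) N).comp (merSeriesNI.toSeries (RingHom.id ℂ) N) with
    commutes' := fun c => by
      show merSeriesN.real (RingHom.id ℂ) N ⟨algebraMap ℂ (LaurentSeries ℂ) c, _⟩ =
        algebraMap ℂ MerH c
      rw [merSeriesN.real_const, MerH.algebraMap_eq_const]
      rfl }

theorem realIN_apply (N : ℕ) [NeZero N] (x : ↥(merSeriesNI (RingHom.id ℂ) N)) :
    realIN N x = merSeriesN.real (RingHom.id ℂ) N ⟨x.1, x.2⟩ := rfl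

theorem realIN_injective (N : ℕ) [NeZero N] : Function.Injective (realIN N) := (realIN N).injective

/-! ### the realisation of an intermediate field of meromorphic series -/

section RealOn

variable {L : Type*} [Field L] [Algebra L ℂ] (N : ℕ) [NeZero N]
  (M₀ : IntermediateField L (LaurentSeries L))
  (hM : M₀ ≤ merSeriesNI (algebraMap L ℂ) N)

/-- the realisation restricted to an intermediate field consisting of meromorphic series. -/
noncomputable def realOn : ↥M₀ →+* MerH :=
  (merSeriesN.real (algebraMap L ℂ) N).comp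
    { toFun := fun x => (⟨x.1, hM x.2⟩ : merSeriesN (algebraMap L ℂ) N)
      map_one' := rfl
      map_mul' := fun _ _ => rfl
      map_zero' := rfl
      map_add' := fun _ _ => rfl }

theorem realOn_apply (x : ↥M₀) :
    realOn N M₀ hM x = merSeriesN.real (algebraMap L ℂ) N ⟨x.1, hM x.2⟩ := rfl

theorem realOn_injective : Function.Injective (realOn N M₀ hM) := (realOn N M₀ hM).injective

theorem realOn_algebraMap (c : L) :
    realOn N M₀ hM (algebraMap L _ c) = MerH.const (algebraMap L ℂ c) :=
  merSeriesN.real_const (algebraMap L ℂ) N c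

/-- the realisation of a series which is the expansion of a holomorphic function. -/
theorem realOn_of_laurent_eq (x : ↥M₀) {F : ℍ → ℂ} (hF : IsMeroInfty (N : ℝ) F)
    (h : laurent (N : ℝ) F = coeffMap (algebraMap L ℂ) (x : LaurentSeries L)) :
    realOn N M₀ hM x = MerH.ofHol ⟨F, hF.hol⟩ := by
  obtain ⟨hx, h'⟩ := merSeriesN.real_of_laurent_eq (algebraMap L ℂ) N hF h
  rw [realOn_apply]
  exact h'

/-- `realOn` factors through base change of coefficients to `ℂ` followed by `realIN`. -/
theorem realOn_eq_realIN (x : ↥M₀) :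
    realOn N M₀ hM x =
      realIN N ⟨coeffMap (algebraMap L ℂ) x.1,
        coeffMap_mem_merSeriesN (algebraMap L ℂ) N (hM x.2)⟩ :=
  merSeriesN.real_eq_real_id (algebraMap L ℂ) N ⟨x.1, hM x.2⟩

attribute [-instance] HahnSeries.instModule in
/-- **The realisation is a linearly disjoint homomorphism** over `L → ℂ`. -/
theorem isLinDisjHom_realOn : IsLinDisjHom L ℂ (realOn N M₀ hM) where
  map_algebraMap a := by
    rw [realOn_algebraMap, MerH.algebraMap_eq_const]
  linIndep := by
    intro ι' f hf
    have h1 : LinIndep L (fun i => ((f i : ↥M₀) : LaurentSeries L)) :=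
      @LinearIndependent.map' ι' L _ (LaurentSeries L) f _ _ _ _ Algebra.toModule hf
        M₀.val.toLinearMap (LinearMap.ker_eq_bot.mpr Subtype.val_injective)
    have h2 : LinIndep ℂ (fun i => iota L ℂ (f i).1) :=
      (isLinDisjHom_iota (k := L) (L := ℂ)).linIndep h1
    have hmem : ∀ i, iota L ℂ (f i).1 ∈ merSeriesNI (RingHom.id ℂ) N := fun i =>
      coeffMap_mem_merSeriesN (algebraMap L ℂ) N (hM (f i).2)
    have h3 : LinearIndependent ℂ (fun i => (⟨iota L ℂ (f i).1, hmem i⟩ :
        ↥(merSeriesNI (RingHom.id ℂ) N))) :=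
      @LinearIndependent.of_comp ι' ℂ _ (LaurentSeries ℂ) _ _ _ _ _ Algebra.toModule
        (merSeriesNI (RingHom.id ℂ) N).val.toLinearMap h2
    have h4 := h3.map' (realIN N).toLinearMap (LinearMap.ker_eq_bot.mpr (realIN_injective N))
    have h5 : (fun i => realOn N M₀ hM (f i)) =
        (⇑(realIN N).toLinearMap ∘ fun i => (⟨iota L ℂ (f i).1, hmem i⟩ :
          ↥(merSeriesNI (RingHom.id ℂ) N))) := by
      ext i
      exact realOn_eq_realIN N M₀ hM (f i)
    rw [h5]
    exact h4

end RealOn

end Fermat.Agent.Igusa
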