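import Mathlib
import Fermat.Agent.Igusa.A_helper2_Hermite
import Fermat.Agent.Igusa.A_helper2_MerN

/-!
# S28 package (A), part 4: the `t`-expansion of `F((a z + b)/d)`

For `F` of period `1`, meromorphic at `i∞`, and `α = (a b; 0 d) : Idx N`, the function
`z ↦ F (α z)` has period `N`, is meromorphic at `i∞`, and its expansion in `t = e^{2πiz/N}` is
obtained from the `q`-expansion of `F` by `q ↦ ξ t^e`, `ξ = e^{2πi b/d}`, `e = N a / d`.
-/

set_option autoImplicit false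

namespace Fermat.Agent.Igusa

open UpperHalfPlane hiding I
open Complex Filter Function Topology ModularCurve
open Fermat.Agent.RatStr Fermat.Agent.X0N
open scoped Manifold MatrixGroups Real

local notation "𝕢" => Periodic.qParam

variable {N : ℕ} [NeZero N]

/-- `exp (2πi/N)` as a unit of `ℂ`. -/
noncomputable def zetaC (N : ℕ) : ℂˣ := Units.mk0 (zetaH (N : ℝ)) (zetaH_ne_zero _)

@[simp] theorem coe_zetaC (N : ℕ) : ((zetaC N : ℂˣ) : ℂ) = zetaH (N : ℝ) := rfl

/-- the function `z ↦ F (α z)`. -/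
noncomputable def substFn (α : Idx N) (F : ℍ → ℂ) : ℍ → ℂ := fun z => F (α.toGL • z)

theorem substFn_apply (α : Idx N) (F : ℍ → ℂ) (z : ℍ) : substFn α F z = F (α.toGL • z) := rfl

theorem substFn_mul (α : Idx N) (F G : ℍ → ℂ) :
    substFn α (F * G) = substFn α F * substFn α G := rfl

theorem substFn_pow (α : Idx N) (F : ℍ → ℂ) (n : ℕ) : substFn α (F ^ n) = substFn α F ^ n := rfl

theorem Idx.coe_toGL_smul (α : Idx N) (z : ℍ) :
    ((α.toGL • z : ℍ) : ℂ) = ((α.a : ℂ) * z + α.b) / α.d := by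
  have := coe_utGL_smul (a := (α.a : ℝ)) (b := (α.b : ℝ)) (d := (α.d : ℝ))
    (by exact_mod_cast α.ha) (by exact_mod_cast α.hd) z
  simpa [Idx.toGL] using this

theorem Idx.im_toGL_smul (α : Idx N) (z : ℍ) :
    (α.toGL • z : ℍ).im = (α.a : ℝ) / α.d * z.im :=
  im_utGL_smul _ _ z

theorem Idx.natCast_div (α : Idx N) : (((N / α.d : ℕ) : ℂ)) = (N : ℂ) / α.d := by
  have hd : (α.d : ℂ) ≠ 0 := by exact_mod_cast α.hd.ne'
  rw [Nat.cast_div α.d_dvd hd]

/-- the key identity `q(α z) = ξ t^e`. -/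
theorem qParam_toGL_smul (α : Idx N) (z : ℍ) :
    𝕢 1 ((α.toGL • z : ℍ) : ℂ) = zetaH (N : ℝ) ^ α.c * 𝕢 (N : ℝ) (z : ℂ) ^ α.e := by
  have hd : (α.d : ℂ) ≠ 0 := by exact_mod_cast α.hd.ne'
  have hN : (N : ℂ) ≠ 0 := by exact_mod_cast NeZero.ne N
  rw [Idx.coe_toGL_smul, zetaH, Periodic.qParam, Periodic.qParam, ← Complex.exp_nat_mul,
    ← Complex.exp_nat_mul, ← Complex.exp_add]
  congr 1
  rw [Idx.c, Idx.e]
  push_cast
  rw [Idx.natCast_div]
  field_simp
  ring

theorem substFn_qf (α : Idx N) :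
    substFn α (qf 1) = (zetaH (N : ℝ) ^ α.c) • qf (N : ℝ) ^ α.e := by
  funext z
  simp only [substFn_apply, qf_apply, Pi.smul_apply, Pi.pow_apply, smul_eq_mul]
  exact qParam_toGL_smul α z

/-- `K(z) = H(α z)` is holomorphic, `N`-periodic and bounded when `H` is (period `1`). -/
theorem isHolBdd_substFn (α : Idx N) {H : ℍ → ℂ} (hH : IsHolBdd 1 H) :
    IsHolBdd (N : ℝ) (substFn α H) where
  per := by
    apply periodic_comp_ofComplex_of_vadd
    intro τ
    simp only [substFn_apply]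
    have h1 : ∀ (n : ℕ) (w : ℍ), H ((n : ℝ) +ᵥ w) = H w := by
      intro n
      induction n with
      | zero => intro w; simp
      | succ n ih =>
        intro w
        have : (((n + 1 : ℕ) : ℝ) +ᵥ w) = (1 : ℝ) +ᵥ ((n : ℝ) +ᵥ w) := by
          ext
          simp only [UpperHalfPlane.coe_vadd]
          push_cast
          ring
        rw [this, vadd_of_periodic_comp_ofComplex hH.per, ih]
    have h2 : α.toGL • ((N : ℝ) +ᵥ τ) = ((α.e : ℕ) : ℝ) +ᵥ (α.toGL • τ) := by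
      ext
      rw [Idx.coe_toGL_smul, UpperHalfPlane.coe_vadd, UpperHalfPlane.coe_vadd,
        Idx.coe_toGL_smul, Idx.e]
      have hd : (α.d : ℂ) ≠ 0 := by exact_mod_cast α.hd.ne'
      push_cast
      rw [Idx.natCast_div]
      field_simp
      ring
    rw [h2, h1]
  hol := by
    have h1 : MDiff (fun z : ℍ => α.toGL • z) :=
      UpperHalfPlane.mdifferentiable_smul α.det_toGL_pos
    exact hH.hol.comp h1
  bdd := by
    have hb := hH.bdd
    rw [UpperHalfPlane.isBoundedAtImInfty_iff] at hb ⊢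
    obtain ⟨M, A, h⟩ := hb
    have ha : (0 : ℝ) < α.a := by exact_mod_cast α.ha
    have hd : (0 : ℝ) < α.d := by exact_mod_cast α.hd
    refine ⟨M, A * α.d / α.a, fun z hz => ?_⟩
    apply h
    rw [Idx.im_toGL_smul]
    rw [div_le_iff₀ ha] at hz
    rw [div_mul_eq_mul_div, le_div_iff₀ hd]
    linarith

/-- the power series `p(ξ X^e)`. -/
noncomputable def substPS (ξ : ℂ) (e : ℕ) (p : PowerSeries ℂ) : PowerSeries ℂ :=
  PowerSeries.mk fun n => if e ∣ n then p.coeff (n / e) * ξ ^ (n / e) else 0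

theorem qExpansion_substFn (α : Idx N) {H : ℍ → ℂ} (hH : IsHolBdd 1 H) :
    qExpansion (N : ℝ) (substFn α H) =
      substPS (zetaH (N : ℝ) ^ α.c) α.e (qExpansion 1 H) := by
  have he : α.e ≠ 0 := NeZero.ne _
  ext n
  set ξ := zetaH (N : ℝ) ^ α.c with hξ
  set c : ℕ → ℂ := fun n =>
    if α.e ∣ n then (qExpansion 1 H).coeff (n / α.e) * ξ ^ (n / α.e) else 0 with hc
  have key : ∀ τ : ℍ, HasSum (fun m => c m • 𝕢 (N : ℝ) (τ : ℂ) ^ m) (substFn α H τ) := by
    intro τ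
    have h1 := hasSum_qExpansion one_pos hH.per hH.hol hH.bdd (α.toGL • τ)
    rw [qParam_toGL_smul] at h1
    have hinj : Function.Injective (fun m : ℕ => α.e * m) :=
      fun a b hab => Nat.eq_of_mul_eq_mul_left (Nat.pos_of_ne_zero he) hab
    rw [← hinj.hasSum_iff]
    · refine (show substFn α H τ = H (α.toGL • τ) from rfl) ▸ ?_
      convert h1 using 2 with m
      simp only [comp_apply, hc, dvd_mul_right, if_true,
        Nat.mul_div_cancel_left _ (Nat.pos_of_ne_zero he)]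
      rw [mul_pow, pow_mul, smul_eq_mul, smul_eq_mul]
      ring
    · intro x hx
      have : ¬ α.e ∣ x := by
        rintro ⟨k, rfl⟩
        exact hx ⟨k, rfl⟩
      simp [hc, this]
  have := qExpansion_coeff_unique_of_period (natCast_pos_real N)
    ((isHolBdd_substFn α hH).analyticAt (natCast_pos_real N)) key n
  rw [← this, substPS, PowerSeries.coeff_mk]

theorem substFn_mul_qf_pow (α : Idx N) (F : ℍ → ℂ) (m : ℕ) :
    substFn α F * qf (N : ℝ) ^ (α.e * m) =
      ((zetaH (N : ℝ) ^ α.c) ^ m)⁻¹ • substFn α (F * qf 1 ^ m) := by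
  rw [substFn_mul, substFn_pow, substFn_qf, smul_pow, mul_smul_comm, smul_smul,
    inv_mul_cancel₀ (pow_ne_zero _ (pow_ne_zero _ (zetaH_ne_zero _))), one_smul, pow_mul]

/-- **(SUB), meromorphy.** -/
theorem isMeroInfty_substFn (α : Idx N) {F : ℍ → ℂ} (hF : IsMeroInfty 1 F) :
    IsMeroInfty (N : ℝ) (substFn α F) := by
  obtain ⟨m, hm⟩ := hF
  refine ⟨α.e * m, ?_⟩
  rw [substFn_mul_qf_pow]
  exact (isHolBdd_substFn α hm).smul _

theorem twist_qExpand_ofPowerSeries_coeff (ξ : ℂˣ) (e : ℕ) [NeZero e] (p : PowerSeries ℂ)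
    (n : ℤ) :
    (qExpand ℂ e (twist ξ (HahnSeries.ofPowerSeries ℤ ℂ p))).coeff n =
      (HahnSeries.ofPowerSeries ℤ ℂ (substPS (ξ : ℂ) e p)).coeff n := by
  have he : e ≠ 0 := NeZero.ne e
  have hepos : (0 : ℤ) < e := by exact_mod_cast Nat.pos_of_ne_zero he
  by_cases hn : 0 ≤ n
  · obtain ⟨k, rfl⟩ := Int.eq_ofNat_of_zero_le hn
    rw [HahnSeries.ofPowerSeries_apply_coeff, substPS, PowerSeries.coeff_mk]
    by_cases hk : e ∣ k
    · obtain ⟨j, rfl⟩ := hk
      rw [if_pos (dvd_mul_right _ _), Nat.mul_div_cancel_left _ (Nat.pos_of_ne_zero he)]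
      have : ((e * j : ℕ) : ℤ) = (e : ℤ) * (j : ℤ) := by push_cast; ring
      rw [this, qExpand_coeff_mul, twist_coeff, HahnSeries.ofPowerSeries_apply_coeff, zpow_natCast,
        Units.val_pow_eq_pow_val]
      ring
    · rw [if_neg hk]
      apply qExpand_coeff_of_not_dvd
      intro h
      exact hk (by exact_mod_cast h)
  · rw [not_le] at hn
    rw [ofPowerSeries_coeff_of_neg _ hn]
    by_cases hk : (e : ℤ) ∣ n
    · obtain ⟨j, rfl⟩ := hk
      rw [qExpand_coeff_mul, twist_coeff, ofPowerSeries_coeff_of_neg, mul_zero]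
      by_contra hj
      push Not at hj
      nlinarith
    · exact qExpand_coeff_of_not_dvd _ _ hk

/-- **(SUB), expansion**: the `t`-expansion of `F(α z)` is `(q-expansion of F)(ξ t^e)`. -/
theorem laurent_substFn (α : Idx N) {F : ℍ → ℂ} (hF : IsMeroInfty 1 F) :
    laurent (N : ℝ) (substFn α F) =
      qExpand ℂ α.e (twist (zetaC N ^ α.c) (laurent 1 F)) := by
  obtain ⟨m, hm⟩ := hF
  have hm' : IsHolBdd (N : ℝ) (substFn α F * qf (N : ℝ) ^ (α.e * m)) := by
    rw [substFn_mul_qf_pow]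
    exact (isHolBdd_substFn α hm).smul _
  rw [laurent_eq (natCast_pos_real N) hm', laurent_eq one_pos hm, twist_single_mul,
    qExpand_single_mul, substFn_mul_qf_pow]
  set ξ : ℂ := zetaH (N : ℝ) ^ α.c with hξ
  have hξ0 : ξ ≠ 0 := pow_ne_zero _ (zetaH_ne_zero _)
  have hξu : (((zetaC N ^ α.c : ℂˣ)) : ℂ) = ξ := by
    rw [Units.val_pow_eq_pow_val, coe_zetaC]
  have hq : qExpansion (N : ℝ) ((ξ ^ m)⁻¹ • substFn α (F * qf 1 ^ m)) =
      (ξ ^ m)⁻¹ • substPS ξ α.e (qExpansion 1 (F * qf 1 ^ m)) := by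
    rw [qExpansion_smul ((isHolBdd_substFn α hm).analyticAt (natCast_pos_real N)),
      qExpansion_substFn α hm]
  rw [hq]
  ext n
  have e1 : (-((α.e * m : ℕ) : ℤ)) = (α.e : ℤ) * (-(m : ℤ)) := by push_cast; ring
  rw [e1]
  obtain ⟨k, rfl⟩ : ∃ k : ℤ, n = k + (α.e : ℤ) * (-(m : ℤ)) :=
    ⟨n - (α.e : ℤ) * (-(m : ℤ)), by ring⟩
  rw [HahnSeries.coeff_single_mul_add, HahnSeries.coeff_single_mul_add,
    twist_qExpand_ofPowerSeries_coeff, hξu, one_mul, mul_one]
  have hzp : (((zetaC N ^ α.c : ℂˣ) ^ (-(m : ℤ)) : ℂˣ) : ℂ) = (ξ ^ m)⁻¹ := by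
    rw [zpow_neg, zpow_natCast, Units.val_inv_eq_inv_val, Units.val_pow_eq_pow_val, hξu]
  rw [hzp]
  by_cases hk0 : 0 ≤ k
  · obtain ⟨j, hj⟩ := Int.eq_ofNat_of_zero_le hk0
    rw [hj, HahnSeries.ofPowerSeries_apply_coeff, HahnSeries.ofPowerSeries_apply_coeff,
      PowerSeries.coeff_smul, smul_eq_mul]
  · rw [not_le] at hk0
    rw [ofPowerSeries_coeff_of_neg _ hk0, ofPowerSeries_coeff_of_neg _ hk0, mul_zero]

end Fermat.Agent.Igusa
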