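import Mathlib
import Fermat.Agent.Igusa.A_helper2_Subst
import Fermat.Agent.X0N.SYM_helper2_Dilate

/-!
# S28 package (A), part 5: the analytic generators `j(αz)` and `a^12 Δ(αz)/Δ(z)`

* `jA α : HolH`, `phiA α : MerH` for `α : Idx N`;
* they are modular functions for `Γ(N)`;
* `MerH.comp γ` permutes them (`comp_jA`, `comp_phiA`);
* their `t`-expansions are `xSer ℂ (zetaC N) N α`, `phiSer ℂ (zetaC N) N α`.
-/

set_option autoImplicit false

namespace Fermat.Agent.Igusa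

open UpperHalfPlane hiding I
open Complex Filter Function Topology ModularCurve ModularForm
open Fermat.Agent.RatStr Fermat.Agent.X0N CongruenceSubgroup
open scoped Manifold MatrixGroups Real ModularForm

local notation "Δ" => ModularForm.discriminant

noncomputable section

variable {N : ℕ} [NeZero N]

/-! ### slashing level one forms by `α` -/

theorem slash_toGL_apply (α : Idx N) (k : ℤ) (F : ℍ → ℂ) (z : ℍ) :
    (F ∣[k] α.toGL) z =
      F (α.toGL • z) * ((((α.a : ℝ) * (α.d : ℝ) : ℝ)) : ℂ) ^ (k - 1) * ((α.d : ℝ) : ℂ) ^ (-k) :=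
  slash_utGL_apply _ _ k F z

theorem slash_toGL_slash_of_decomp (α : Idx N) {k : ℤ} {F : ℍ → ℂ} (hF : IsMF ⊤ k F)
    {γ δ : SL(2, ℤ)} {β : GL (Fin 2) ℝ}
    (h : α.toGL * (γ : GL (Fin 2) ℝ) = (δ : GL (Fin 2) ℝ) * β) :
    (F ∣[k] α.toGL) ∣[k] γ = F ∣[k] β := by
  rw [SL_slash, ← SlashAction.slash_mul, h, SlashAction.slash_mul, ← SL_slash,
    hF.inv δ (Subgroup.mem_top δ)]

/-- **Level raising**: `F ∣[k] α` is a modular form for `Γ(N)` when `F` has level one. -/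
theorem isMF_slash_toGL (α : Idx N) {k : ℤ} {F : ℍ → ℂ} (hF : IsMF ⊤ k F) :
    IsMF (Gamma N) k (F ∣[k] α.toGL) := by
  refine ⟨hF.holo.slash k _, fun γ hγ => ?_, fun γ => ?_⟩
  · obtain ⟨δ, h⟩ := α.exists_conj_of_mem_Gamma hγ
    exact slash_toGL_slash_of_decomp α hF h
  · obtain ⟨δ, α', -, h⟩ := α.exists_act γ
    rw [slash_toGL_slash_of_decomp α hF h]
    have ha : (0 : ℝ) < α'.a := by exact_mod_cast α'.ha
    have hd : (0 : ℝ) < α'.d := by exact_mod_cast α'.hd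
    have h1 : IsBoundedAtImInfty (fun τ : ℍ => F (α'.toGL • τ)) :=
      hF.bdd_one.comp_tendsto (tendsto_utGL_smul_atImInfty ha hd)
    have h2 : F ∣[k] α'.toGL =
        fun τ : ℍ => F (α'.toGL • τ) *
          (((((α'.a : ℝ) * (α'.d : ℝ) : ℝ)) : ℂ) ^ (k - 1) * ((α'.d : ℝ) : ℂ) ^ (-k)) := by
      funext τ
      rw [slash_toGL_apply]
      ring
    rw [h2]
    exact h1.mul (Asymptotics.isBigO_const_const _ one_ne_zero _)

/-! ### the functions -/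

theorem SL_smul_eq_GL_smul (γ : SL(2, ℤ)) (z : ℍ) : γ • z = (γ : GL (Fin 2) ℝ) • z :=
  ModularGroup.sl_moeb γ z

theorem toGL_smul_smul_of_decomp {α α' : Idx N} {γ δ : SL(2, ℤ)}
    (h : α.toGL * (γ : GL (Fin 2) ℝ) = (δ : GL (Fin 2) ℝ) * α'.toGL) (z : ℍ) :
    α.toGL • (γ • z) = δ • (α'.toGL • z) := by
  rw [SL_smul_eq_GL_smul, SL_smul_eq_GL_smul, ← mul_smul, ← mul_smul, h]

theorem mdiff_substFn (α : Idx N) {F : ℍ → ℂ} (hF : MDiff F) : MDiff (substFn α F) :=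
  hF.comp (UpperHalfPlane.mdifferentiable_smul α.det_toGL_pos)

/-- `z ↦ j(α z)` as a holomorphic function. -/
def jA (α : Idx N) : HolH := ⟨substFn α jFun, mdiff_substFn α mdiff_jFun⟩

@[simp] theorem jA_apply (α : Idx N) (z : ℍ) : (jA α : ℍ → ℂ) z = jFun (α.toGL • z) := rfl

theorem comp_jA_of_decomp {α α' : Idx N} {γ δ : SL(2, ℤ)}
    (h : α.toGL * (γ : GL (Fin 2) ℝ) = (δ : GL (Fin 2) ℝ) * α'.toGL) :
    HolH.comp γ (jA α) = jA α' := by
  ext z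
  rw [HolH.comp_apply, jA_apply, jA_apply, toGL_smul_smul_of_decomp h, jFun_smul]

/-- `Δ` as a holomorphic function. -/
def deltaHol : HolH := ⟨(Δ : ℍ → ℂ), isMF_discriminant.holo⟩

theorem deltaHol_ne_zero : deltaHol ≠ 0 := by
  intro h0
  exact discriminant_ne_zero UpperHalfPlane.I
    (congrFun (congrArg Subtype.val h0) UpperHalfPlane.I)

/-- the numerator `(a d) · (Δ ∣[12] α)` of `φ_α`. -/
def phiNum (α : Idx N) : HolH :=
  ⟨((α.a * α.d : ℕ) : ℂ) • ((Δ : ℍ → ℂ) ∣[(12 : ℤ)] α.toGL),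
    ((isMF_slash_toGL α isMF_discriminant).smul _).holo⟩

/-- `φ_α = a^12 Δ(α z)/Δ(z)` as an element of `MerH`. -/
def phiA (α : Idx N) : MerH := MerH.ofHol (phiNum α) / MerH.ofHol deltaHol

theorem phiNum_apply (α : Idx N) (z : ℍ) :
    (phiNum α : ℍ → ℂ) z = (α.a : ℂ) ^ 12 * Δ (α.toGL • z) := by
  show ((α.a * α.d : ℕ) : ℂ) * ((Δ : ℍ → ℂ) ∣[(12 : ℤ)] α.toGL) z = _
  rw [slash_toGL_apply]
  have hd : (α.d : ℂ) ≠ 0 := by exact_mod_cast α.hd.ne'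
  have e1 : (12 : ℤ) - 1 = 11 := by norm_num
  rw [e1, zpow_neg]
  push_cast
  have e2 : ((α.a : ℂ) * (α.d : ℂ)) ^ (11 : ℤ) = ((α.a : ℂ) * (α.d : ℂ)) ^ 11 := by norm_cast
  have e3 : (α.d : ℂ) ^ (12 : ℤ) = (α.d : ℂ) ^ 12 := by norm_cast
  rw [e2, e3]
  field_simp

/-- the function `z ↦ a^12 Δ(α z)/Δ(z)`. -/
def phiFn (α : Idx N) : ℍ → ℂ := fun z => (α.a : ℂ) ^ 12 * Δ (α.toGL • z) * (Δ z)⁻¹

theorem mdiff_phiFn (α : Idx N) : MDiff (phiFn α) := by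
  have h1 : MDiff (fun z : ℍ => (α.a : ℂ) ^ 12 * Δ (α.toGL • z)) := by
    have := (phiNum α).2
    have e : (phiNum α : ℍ → ℂ) = fun z : ℍ => (α.a : ℂ) ^ 12 * Δ (α.toGL • z) := by
      funext z; exact phiNum_apply α z
    rwa [e] at this
  have h2 : MDiff (fun z : ℍ => (Δ z)⁻¹) := by
    have hΔ : MDiff (Δ : ℍ → ℂ) := isMF_discriminant.holo
    rw [UpperHalfPlane.mdifferentiable_iff] at hΔ ⊢
    have : DifferentiableOn ℂ (fun z => (((Δ : ℍ → ℂ) ∘ ofComplex) z)⁻¹) {z : ℂ | 0 < z.im} := by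
      refine hΔ.inv ?_
      intro z _
      exact discriminant_ne_zero _
    exact this
  exact h1.mul h2

/-- `φ_α` as a holomorphic function. -/
def phiHol (α : Idx N) : HolH := ⟨phiFn α, mdiff_phiFn α⟩

theorem phiA_eq_ofHol (α : Idx N) : phiA α = MerH.ofHol (phiHol α) := by
  rw [phiA, div_eq_iff (MerH.ofHol_ne_zero deltaHol_ne_zero), ← map_mul]
  congr 1
  ext z
  show (phiNum α : ℍ → ℂ) z = phiFn α z * Δ z
  rw [phiNum_apply, phiFn, inv_mul_cancel_right₀ (discriminant_ne_zero z)]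

theorem comp_phiA_of_decomp {α α' : Idx N} {γ δ : SL(2, ℤ)}
    (had : α'.a * α'.d = α.a * α.d)
    (h : α.toGL * (γ : GL (Fin 2) ℝ) = (δ : GL (Fin 2) ℝ) * α'.toGL) :
    MerH.comp γ (phiA α) = phiA α' := by
  rw [phiA, MerH.comp_div_eq_slash 12 γ (phiNum α) deltaHol_ne_zero, phiA]
  congr 2
  · apply Subtype.ext
    show (((α.a * α.d : ℕ) : ℂ) • ((Δ : ℍ → ℂ) ∣[(12 : ℤ)] α.toGL)) ∣[(12 : ℤ)] γ =
      ((α'.a * α'.d : ℕ) : ℂ) • ((Δ : ℍ → ℂ) ∣[(12 : ℤ)] α'.toGL)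
    rw [SL_smul_slash, slash_toGL_slash_of_decomp α isMF_discriminant h, had]
  · exact Subtype.ext (isMF_discriminant.inv γ (Subgroup.mem_top γ))

/-! ### the generators are modular functions for `Γ(N)` -/

theorem isModFun_phiA (α : Idx N) : IsModFun (Gamma N) (phiA α) :=
  ⟨12, phiNum α, deltaHol, (isMF_slash_toGL α isMF_discriminant).smul _,
    isMF_discriminant.mono le_top, deltaHol_ne_zero, rfl⟩

theorem isModFun_jA (α : Idx N) : IsModFun (Gamma N) (MerH.ofHol (jA α)) := by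
  have h4 : IsMF (Gamma N) 4 ((E₄ : ℍ → ℂ) ∣[(4 : ℤ)] α.toGL) := isMF_slash_toGL α isMF_E4
  have h12 : IsMF (Gamma N) 12 ((Δ : ℍ → ℂ) ∣[(12 : ℤ)] α.toGL) :=
    isMF_slash_toGL α isMF_discriminant
  have hg : IsMF (Gamma N) 12
      ((((α.a * α.d : ℕ) : ℂ) ^ 2) • ((E₄ : ℍ → ℂ) ∣[(4 : ℤ)] α.toGL) ^ 3) :=
    ((h4.pow 3).weight_cast (by norm_num)).smul _
  have ha : (α.a : ℂ) ≠ 0 := by exact_mod_cast α.ha.ne'
  have hd : (α.d : ℂ) ≠ 0 := by exact_mod_cast α.hd.ne'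
  have hval : ∀ z, ((Δ : ℍ → ℂ) ∣[(12 : ℤ)] α.toGL) z =
      Δ (α.toGL • z) * ((α.a : ℂ) * α.d) ^ 11 * ((α.d : ℂ) ^ 12)⁻¹ := by
    intro z
    rw [slash_toGL_apply]
    have e1 : (12 : ℤ) - 1 = 11 := by norm_num
    rw [e1, zpow_neg]
    push_cast
    norm_cast
  have hval4 : ∀ z, ((E₄ : ℍ → ℂ) ∣[(4 : ℤ)] α.toGL) z =
      E₄ (α.toGL • z) * ((α.a : ℂ) * α.d) ^ 3 * ((α.d : ℂ) ^ 4)⁻¹ := by
    intro z
    rw [slash_toGL_apply]
    have e1 : (4 : ℤ) - 1 = 3 := by norm_num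
    rw [e1, zpow_neg]
    push_cast
    norm_cast
  have hne : ∀ z, ((Δ : ℍ → ℂ) ∣[(12 : ℤ)] α.toGL) z ≠ 0 := by
    intro z
    rw [hval]
    exact mul_ne_zero (mul_ne_zero (discriminant_ne_zero _) (pow_ne_zero _ (mul_ne_zero ha hd)))
      (inv_ne_zero (pow_ne_zero _ hd))
  have hh0 : (⟨_, h12.holo⟩ : HolH) ≠ 0 := by
    intro h0
    exact hne UpperHalfPlane.I (congrFun (congrArg Subtype.val h0) UpperHalfPlane.I)
  refine ⟨12, ⟨_, hg.holo⟩, ⟨_, h12.holo⟩, hg, h12, hh0, ?_⟩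
  rw [eq_div_iff (MerH.ofHol_ne_zero hh0), ← map_mul]
  congr 1
  ext z
  simp only [Subring.coe_mul, Pi.mul_apply, jA_apply, Pi.smul_apply, Pi.pow_apply, smul_eq_mul]
  rw [hval, hval4]
  have hD : Δ (α.toGL • z) ≠ 0 := discriminant_ne_zero _
  have : jFun (α.toGL • z) = E₄ (α.toGL • z) ^ 3 / Δ (α.toGL • z) := rfl
  rw [this]
  push_cast
  field_simp

/-! ### the `t`-expansions -/

theorem coeffEmb_jq_eq : coeffEmb ℂ jq = jqModC ℂ := by
  rw [coeffEmb, ← jqModC_rat, coeffMap_jqModC]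

/-- **The `t`-expansion of `j(α z)`.** -/
theorem laurent_jA (α : Idx N) :
    IsMeroInfty (N : ℝ) (substFn α jFun) ∧
      laurent (N : ℝ) (substFn α jFun) = xSer ℂ (zetaC N) N α := by
  refine ⟨isMeroInfty_substFn α isMeroInfty_jFun, ?_⟩
  rw [laurent_substFn α isMeroInfty_jFun, laurent_jFun, coeffEmb_jq_eq, xSer]

theorem discriminant_eq_fn : (Δ : ℍ → ℂ) = qf 1 * etaProdFun ^ 24 := by
  funext z
  exact discriminant_eq_qf_mul z

theorem isMeroInfty_discriminant : IsMeroInfty 1 (Δ : ℍ → ℂ) := by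
  rw [discriminant_eq_fn]
  exact (IsMeroInfty.qf one_pos).mul (isHolBdd_etaProdFun.pow 24).isMeroInfty

theorem laurent_discriminant : laurent 1 (Δ : ℍ → ℂ) = deltaSer ℂ := by
  rw [discriminant_eq_fn, laurent_mul one_pos (IsMeroInfty.qf one_pos)
    (isHolBdd_etaProdFun.pow 24).isMeroInfty, laurent_qf one_pos,
    laurent_pow one_pos isHolBdd_etaProdFun.isMeroInfty,
    laurent_of_isHolBdd one_pos isHolBdd_etaProdFun, qExpansion_etaProdFun, deltaSer, etaUnitSer,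
    dedekindEtaUnit, map_pow, map_pow]

/-- `z ↦ Δ(z)⁻¹`. -/
def deltaInvFn : ℍ → ℂ := fun z => (Δ z)⁻¹

theorem deltaInvFn_mul_qf : deltaInvFn * qf 1 ^ 1 = etaInv24 := by
  funext z
  simp only [Pi.mul_apply, Pi.pow_apply, pow_one, deltaInvFn, etaInv24]
  rw [discriminant_eq_qf_mul, mul_inv, mul_comm ((qf 1 z)⁻¹), mul_assoc,
    inv_mul_cancel₀ (qf_ne_zero 1 z), mul_one]

theorem isMeroInfty_deltaInvFn : IsMeroInfty 1 deltaInvFn :=
  ⟨1, by rw [deltaInvFn_mul_qf]; exact isHolBdd_etaInv24⟩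

theorem laurent_deltaInvFn : laurent 1 deltaInvFn = deltaInvSer ℂ := by
  have h : IsHolBdd 1 (deltaInvFn * qf 1 ^ 1) := by
    rw [deltaInvFn_mul_qf]; exact isHolBdd_etaInv24
  rw [laurent_eq one_pos h, deltaInvFn_mul_qf, qExpansion_etaInv24, deltaInvSer, etaUnitInvSer]
  rfl

theorem phiFn_eq (α : Idx N) :
    phiFn α = ((α.a : ℂ) ^ 12) • (substFn α (Δ : ℍ → ℂ) * deltaInvFn) := by
  funext z
  simp only [phiFn, Pi.smul_apply, Pi.mul_apply, substFn_apply, deltaInvFn, smul_eq_mul]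
  ring

/-- **The `t`-expansion of `a^12 Δ(α z)/Δ(z)`.** -/
theorem laurent_phiFn (α : Idx N) :
    IsMeroInfty (N : ℝ) (phiFn α) ∧
      laurent (N : ℝ) (phiFn α) = phiSer ℂ (zetaC N) N α := by
  have h1 : IsMeroInfty (N : ℝ) (substFn α (Δ : ℍ → ℂ)) :=
    isMeroInfty_substFn α isMeroInfty_discriminant
  have h2 : IsMeroInfty (N : ℝ) deltaInvFn := isMeroInfty_of_one N isMeroInfty_deltaInvFn
  refine ⟨by rw [phiFn_eq]; exact (h1.mul h2).smul _, ?_⟩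
  rw [phiFn_eq, laurent_smul (natCast_pos_real N) _ (h1.mul h2),
    laurent_mul (natCast_pos_real N) h1 h2, laurent_substFn α isMeroInfty_discriminant,
    laurent_discriminant, laurent_of_one N isMeroInfty_deltaInvFn, laurent_deltaInvFn, phiSer,
    deltaSubSer, mul_assoc]

end

end Fermat.Agent.Igusa
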