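import Mathlib
import Fermat.Agent.Igusa.A_helper2_Gens
import Fermat.Agent.X0N.SYM_helper2_CharPoly

/-!
# S28 package (A), part 6: the field `M = L(x_α, φ_α) ⊆ L((t))`, its realisation and the
`SL(2,ℤ)`-action `ρ`
-/

set_option autoImplicit false

namespace Fermat.Agent.Igusa

open UpperHalfPlane hiding I
open Complex Filter Function Topology ModularCurve ModularForm IntermediateField
open Fermat.Agent.RatStr Fermat.Agent.X0N CongruenceSubgroup
open scoped Manifold MatrixGroups Real ModularForm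

noncomputable section

/-! ### translation `z ↦ z + 1` on series -/

section Shift

variable {k : Type*} [Field k] (ι : k →+* ℂ) (N : ℕ) [NeZero N] (ζ : kˣ)

theorem laurent_shiftOne {F : ℍ → ℂ} (hF : IsMeroInfty (N : ℝ) F) :
    laurent (N : ℝ) (shiftOne F) = twist (zetaC N) (laurent (N : ℝ) F) := by
  ext n
  rw [laurent_shiftOne_coeff (natCast_pos_real N) hF, twist_coeff, Units.val_zpow_eq_zpow_val,
    coe_zetaC]

theorem HolH.comp_T_apply (f : HolH) (z : ℍ) :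
    (HolH.comp ModularGroup.T f : ℍ → ℂ) z = shiftOne (f : ℍ → ℂ) z := by
  rw [HolH.comp_apply, shiftOne_apply, UpperHalfPlane.modular_T_smul]

variable {ι N ζ}

theorem units_map_eq_zetaC (hζ : ι (ζ : k) = zetaH (N : ℝ)) :
    Units.map (ι : k →* ℂ) ζ = zetaC N := by
  apply Units.ext
  simpa using hζ

theorem twist_mem_convSeriesN (hζ : ι (ζ : k) = zetaH (N : ℝ)) {x : LaurentSeries k}
    (hx : x ∈ convSeriesN ι N) :
    ∃ h : twist ζ x ∈ convSeriesN ι N,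
      convSeriesN.toHol ι N ⟨twist ζ x, h⟩ =
        HolH.comp ModularGroup.T (convSeriesN.toHol ι N ⟨x, hx⟩) := by
  have hF := convSeriesN.isMeroInfty_fn ι N ⟨x, hx⟩
  have hl := convSeriesN.laurent_fn ι N ⟨x, hx⟩
  have hS : IsMeroInfty (N : ℝ) (shiftOne (convSeriesN.fn ι N ⟨x, hx⟩)) := isMeroInfty_shiftOne hF
  have hSl : laurent (N : ℝ) (shiftOne (convSeriesN.fn ι N ⟨x, hx⟩)) = coeffMap ι (twist ζ x) := by
    rw [laurent_shiftOne N hF, hl, coeffMap_twist, units_map_eq_zetaC hζ]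
  have hmem : twist ζ x ∈ convSeriesN ι N := (mem_convSeriesN ι N).mpr ⟨_, hS, hSl⟩
  refine ⟨hmem, ?_⟩
  apply Subtype.ext
  rw [convSeriesN.coe_toHol, convSeriesN.fn_eq_of_laurent_eq ι N ⟨twist ζ x, hmem⟩ hS hSl]
  funext z
  rw [HolH.comp_T_apply]
  rfl

/-- **Translation by one is the twist `t ↦ ζ t`**, on meromorphic series. -/
theorem twist_mem_merSeriesN (hζ : ι (ζ : k) = zetaH (N : ℝ)) (x : merSeriesN ι N) :
    ∃ h : twist ζ (x : LaurentSeries k) ∈ merSeriesN ι N,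
      merSeriesN.real ι N ⟨twist ζ (x : LaurentSeries k), h⟩ =
        MerH.comp ModularGroup.T (merSeriesN.real ι N x) := by
  obtain ⟨x, hx⟩ := x
  obtain ⟨a, ha, b, hb, rfl⟩ := (mem_merSeriesN ι N).mp hx
  obtain ⟨ha', hae⟩ := twist_mem_convSeriesN hζ ha
  obtain ⟨hb', hbe⟩ := twist_mem_convSeriesN hζ hb
  have hmem : twist ζ (a / b) ∈ merSeriesN ι N := by
    rw [map_div₀]
    exact (merSeriesN ι N).div_mem (convSeriesN_le_merSeriesN ι N ha')
      (convSeriesN_le_merSeriesN ι N hb')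
  refine ⟨hmem, ?_⟩
  have e1 : (⟨twist ζ (a / b), hmem⟩ : merSeriesN ι N) =
      ⟨twist ζ a, convSeriesN_le_merSeriesN ι N ha'⟩ /
        ⟨twist ζ b, convSeriesN_le_merSeriesN ι N hb'⟩ := by
    apply Subtype.ext
    show twist ζ (a / b) = twist ζ a / twist ζ b
    rw [map_div₀]
  have e2 : (⟨a / b, hx⟩ : merSeriesN ι N) =
      ⟨a, convSeriesN_le_merSeriesN ι N ha⟩ / ⟨b, convSeriesN_le_merSeriesN ι N hb⟩ := by
    apply Subtype.ext
    rfl
  rw [e1, e2, map_div₀, map_div₀, map_div₀,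
    merSeriesN.real_of_mem_convSeriesN ι N ha', merSeriesN.real_of_mem_convSeriesN ι N hb',
    merSeriesN.real_of_mem_convSeriesN ι N ha, merSeriesN.real_of_mem_convSeriesN ι N hb,
    hae, hbe, MerH.comp_algebraMap, MerH.comp_algebraMap]

end Shift

/-! ### the field `M` -/

section FieldM

variable (L : Type*) [Field L] [Algebra L ℂ] (ζ : Lˣ) (N : ℕ) [NeZero N]

/-- **The field `M = L(x_α, φ_α : α) ⊆ L((t))`.** -/
def fieldM : IntermediateField L (LaurentSeries L) :=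
  IntermediateField.adjoin L (Set.range (xSer L ζ N) ∪ Set.range (phiSer L ζ N))

variable {L ζ N}

theorem xSer_mem_fieldM (α : Idx N) : xSer L ζ N α ∈ fieldM L ζ N :=
  IntermediateField.subset_adjoin L _ (Or.inl ⟨α, rfl⟩)

theorem phiSer_mem_fieldM (α : Idx N) : phiSer L ζ N α ∈ fieldM L ζ N :=
  IntermediateField.subset_adjoin L _ (Or.inr ⟨α, rfl⟩)

/-- `x_α` as an element of `M`. -/
def xM (α : Idx N) : fieldM L ζ N := ⟨xSer L ζ N α, xSer_mem_fieldM α⟩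

/-- `φ_α` as an element of `M`. -/
def phiM (α : Idx N) : fieldM L ζ N := ⟨phiSer L ζ N α, phiSer_mem_fieldM α⟩

@[simp] theorem coe_xM (α : Idx N) : ((xM α : fieldM L ζ N) : LaurentSeries L) = xSer L ζ N α := rfl

@[simp] theorem coe_phiM (α : Idx N) :
    ((phiM α : fieldM L ζ N) : LaurentSeries L) = phiSer L ζ N α := rfl

/-- induction principle for `M`. -/
theorem fieldM_induction {p : ↥(fieldM L ζ N) → Prop}
    (hconst : ∀ c : L, p (algebraMap L _ c))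
    (hx : ∀ α : Idx N, p (xM α)) (hphi : ∀ α : Idx N, p (phiM α))
    (hadd : ∀ x y, p x → p y → p (x + y))
    (hmul : ∀ x y, p x → p y → p (x * y))
    (hinv : ∀ x, p x → p x⁻¹)
    (x : ↥(fieldM L ζ N)) : p x := by
  obtain ⟨x, hx'⟩ := x
  have hx'' : x ∈ IntermediateField.adjoin L
      (Set.range (xSer L ζ N) ∪ Set.range (phiSer L ζ N)) := hx'
  refine IntermediateField.adjoin_induction L
    (p := fun x hx => p ⟨x, hx⟩) ?_ ?_ ?_ ?_ ?_ hx''
  · rintro x (⟨α, rfl⟩ | ⟨α, rfl⟩)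
    · exact hx α
    · exact hphi α
  · intro c
    exact hconst c
  · intro x y hx hy h1 h2
    exact hadd ⟨x, hx⟩ ⟨y, hy⟩ h1 h2
  · intro x hx h1
    exact hinv ⟨x, hx⟩ h1
  · intro x y hx hy h1 h2
    exact hmul ⟨x, hx⟩ ⟨y, hy⟩ h1 h2

variable (hζ : algebraMap L ℂ (ζ : L) = zetaH (N : ℝ))

include hζ

theorem coeffMap_xSer_eq (α : Idx N) :
    coeffMap (algebraMap L ℂ) (xSer L ζ N α) = xSer ℂ (zetaC N) N α := by
  rw [coeffMap_xSer, units_map_eq_zetaC hζ]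

theorem coeffMap_phiSer_eq (α : Idx N) :
    coeffMap (algebraMap L ℂ) (phiSer L ζ N α) = phiSer ℂ (zetaC N) N α := by
  rw [coeffMap_phiSer, units_map_eq_zetaC hζ]

theorem fieldM_le_merSeriesNI : fieldM L ζ N ≤ merSeriesNI (algebraMap L ℂ) N := by
  rw [fieldM, IntermediateField.adjoin_le_iff]
  rintro x (⟨α, rfl⟩ | ⟨α, rfl⟩)
  · exact convSeriesN_le_merSeriesN _ N ((mem_convSeriesN _ N).mpr
      ⟨_, (laurent_jA α).1, by rw [(laurent_jA α).2, coeffMap_xSer_eq hζ]⟩)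
  · exact convSeriesN_le_merSeriesN _ N ((mem_convSeriesN _ N).mpr
      ⟨_, (laurent_phiFn α).1, by rw [(laurent_phiFn α).2, coeffMap_phiSer_eq hζ]⟩)

/-- **The realisation** `M → MerH`. -/
def realM : ↥(fieldM L ζ N) →+* MerH := realOn N (fieldM L ζ N) (fieldM_le_merSeriesNI hζ)

theorem realM_injective : Function.Injective (realM hζ) := (realM hζ).injective

theorem realM_algebraMap (c : L) :
    realM hζ (algebraMap L _ c) = MerH.const (algebraMap L ℂ c) :=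
  realOn_algebraMap N _ _ c

theorem realM_xM (α : Idx N) : realM hζ (xM α) = MerH.ofHol (jA α) :=
  realOn_of_laurent_eq N _ (fieldM_le_merSeriesNI hζ) (xM α) (laurent_jA α).1
    (by rw [(laurent_jA α).2, coe_xM, coeffMap_xSer_eq hζ])

theorem realM_phiM (α : Idx N) : realM hζ (phiM α) = phiA α := by
  rw [phiA_eq_ofHol]
  exact realOn_of_laurent_eq N _ (fieldM_le_merSeriesNI hζ) (phiM α) (laurent_phiFn α).1
    (by rw [(laurent_phiFn α).2, coe_phiM, coeffMap_phiSer_eq hζ])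

theorem isLinDisjHom_realM : IsLinDisjHom L ℂ (realM hζ) :=
  isLinDisjHom_realOn N _ _

/-- the realisation lands in the modular functions for `Γ(N)`. -/
theorem isModFun_realM (x : ↥(fieldM L ζ N)) : IsModFun (CongruenceSubgroup.Gamma N) (realM hζ x) := by
  induction x using fieldM_induction with
  | hconst c =>
    rw [realM_algebraMap, ← MerH.algebraMap_eq_const]
    exact isModFun_algebraMap _
  | hx α => rw [realM_xM]; exact isModFun_jA α
  | hphi α => rw [realM_phiM]; exact isModFun_phiA α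
  | hadd x y h1 h2 => rw [map_add]; exact h1.add h2
  | hmul x y h1 h2 => rw [map_mul]; exact h1.mul h2
  | hinv x h1 => rw [map_inv₀]; exact h1.inv

/-- `real(M)` is stable under precomposition with `γ ∈ SL(2,ℤ)`. -/
theorem exists_realM_eq_comp (γ : SL(2, ℤ)) (x : ↥(fieldM L ζ N)) :
    ∃ y : ↥(fieldM L ζ N), realM hζ y = MerH.comp γ (realM hζ x) := by
  induction x using fieldM_induction with
  | hconst c =>
    exact ⟨algebraMap L _ c, by rw [realM_algebraMap, MerH.comp_const]⟩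
  | hx α =>
    obtain ⟨δ, α', -, h⟩ := α.exists_act γ
    exact ⟨xM α', by rw [realM_xM, realM_xM, MerH.comp_algebraMap, comp_jA_of_decomp h]⟩
  | hphi α =>
    obtain ⟨δ, α', had, h⟩ := α.exists_act γ
    exact ⟨phiM α', by rw [realM_phiM, realM_phiM, comp_phiA_of_decomp had h]⟩
  | hadd x y h1 h2 =>
    obtain ⟨x', hx'⟩ := h1
    obtain ⟨y', hy'⟩ := h2
    exact ⟨x' + y', by rw [map_add, map_add, map_add, hx', hy']⟩
  | hmul x y h1 h2 =>
    obtain ⟨x', hx'⟩ := h1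
    obtain ⟨y', hy'⟩ := h2
    exact ⟨x' * y', by rw [map_mul, map_mul, map_mul, hx', hy']⟩
  | hinv x h1 =>
    obtain ⟨x', hx'⟩ := h1
    exact ⟨x'⁻¹, by rw [map_inv₀, map_inv₀, map_inv₀, hx']⟩

/-- the underlying function of `ρ(γ)`. -/
def rhoFun (γ : SL(2, ℤ)) (x : ↥(fieldM L ζ N)) : ↥(fieldM L ζ N) :=
  Classical.choose (exists_realM_eq_comp hζ γ⁻¹ x)

theorem realM_rhoFun (γ : SL(2, ℤ)) (x : ↥(fieldM L ζ N)) :
    realM hζ (rhoFun hζ γ x) = MerH.comp γ⁻¹ (realM hζ x) :=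
  Classical.choose_spec (exists_realM_eq_comp hζ γ⁻¹ x)

/-- `ρ(γ)` as an `L`-algebra endomorphism of `M`. -/
def rhoHom (γ : SL(2, ℤ)) : ↥(fieldM L ζ N) →ₐ[L] ↥(fieldM L ζ N) where
  toFun := rhoFun hζ γ
  map_one' := realM_injective hζ (by rw [realM_rhoFun, map_one, map_one])
  map_mul' x y := realM_injective hζ (by
    rw [realM_rhoFun, map_mul, map_mul, map_mul, realM_rhoFun, realM_rhoFun])
  map_zero' := realM_injective hζ (by rw [realM_rhoFun, map_zero, map_zero])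
  map_add' x y := realM_injective hζ (by
    rw [realM_rhoFun, map_add, map_add, map_add, realM_rhoFun, realM_rhoFun])
  commutes' c := realM_injective hζ (by rw [realM_rhoFun, realM_algebraMap, MerH.comp_const])

theorem realM_rhoHom (γ : SL(2, ℤ)) (x : ↥(fieldM L ζ N)) :
    realM hζ (rhoHom hζ γ x) = MerH.comp γ⁻¹ (realM hζ x) := realM_rhoFun hζ γ x

theorem rhoHom_one (x : ↥(fieldM L ζ N)) : rhoHom hζ 1 x = x :=
  realM_injective hζ (by rw [realM_rhoHom, inv_one, MerH.comp_one])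

theorem rhoHom_mul (γ₁ γ₂ : SL(2, ℤ)) (x : ↥(fieldM L ζ N)) :
    rhoHom hζ (γ₁ * γ₂) x = rhoHom hζ γ₁ (rhoHom hζ γ₂ x) :=
  realM_injective hζ (by
    rw [realM_rhoHom, realM_rhoHom, realM_rhoHom, mul_inv_rev, MerH.comp_mul])

/-- `ρ(γ)` as an `L`-algebra automorphism of `M`. -/
def rhoEquiv (γ : SL(2, ℤ)) : ↥(fieldM L ζ N) ≃ₐ[L] ↥(fieldM L ζ N) :=
  AlgEquiv.ofAlgHom (rhoHom hζ γ) (rhoHom hζ γ⁻¹)
    (AlgHom.ext fun x => by
      rw [AlgHom.comp_apply, ← rhoHom_mul, mul_inv_cancel, rhoHom_one]; rfl)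
    (AlgHom.ext fun x => by
      rw [AlgHom.comp_apply, ← rhoHom_mul, inv_mul_cancel, rhoHom_one]; rfl)

/-- **The action `ρ : SL(2,ℤ) → Aut(M/L)`.** -/
def rho : SL(2, ℤ) →* (↥(fieldM L ζ N) ≃ₐ[L] ↥(fieldM L ζ N)) where
  toFun := rhoEquiv hζ
  map_one' := AlgEquiv.ext fun x => rhoHom_one hζ x
  map_mul' γ₁ γ₂ := AlgEquiv.ext fun x => rhoHom_mul hζ γ₁ γ₂ x

/-- **(f)**: the realisation intertwines `ρ(γ)` with precomposition by `γ⁻¹`. -/
theorem realM_rho (γ : SL(2, ℤ)) (x : ↥(fieldM L ζ N)) :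
    realM hζ (rho hζ γ x) = MerH.comp γ⁻¹ (realM hζ x) := realM_rhoFun hζ γ x

/-- `ρ(γ) x = y` iff the realisations correspond. -/
theorem rho_eq_iff (γ : SL(2, ℤ)) (x y : ↥(fieldM L ζ N)) :
    rho hζ γ x = y ↔ MerH.comp γ⁻¹ (realM hζ x) = realM hζ y := by
  rw [← realM_rho]
  exact ⟨fun h => by rw [h], fun h => realM_injective hζ h⟩

/-- `ρ` permutes the generators. -/
theorem rho_xM (γ : SL(2, ℤ)) (α : Idx N) :
    ∃ α' : Idx N, α'.a * α'.d = α.a * α.d ∧ rho hζ γ (xM α) = xM α' ∧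
      rho hζ γ (phiM α) = phiM α' := by
  obtain ⟨δ, α', had, h⟩ := α.exists_act γ⁻¹
  refine ⟨α', had, ?_, ?_⟩
  · rw [rho_eq_iff, realM_xM, realM_xM, MerH.comp_algebraMap, comp_jA_of_decomp h]
  · rw [rho_eq_iff, realM_phiM, realM_phiM, comp_phiA_of_decomp had h]

/-- **(c)**: `Γ(N)` acts trivially. -/
theorem Gamma_le_ker_rho : CongruenceSubgroup.Gamma N ≤ (rho hζ).ker := by
  intro γ hγ
  rw [MonoidHom.mem_ker]
  apply AlgEquiv.ext
  intro x
  rw [AlgEquiv.one_apply, rho_eq_iff]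
  exact (isModFun_realM hζ x).comp_of_mem ((CongruenceSubgroup.Gamma N).inv_mem hγ)

/-- the conjugates in the sense of `X0N.conjM` are realisations of `ρ`-translates. -/
theorem conjM_realM (Γ : Subgroup SL(2, ℤ)) (x : ↥(fieldM L ζ N)) (q : SL(2, ℤ) ⧸ Γ) :
    conjM Γ (realM hζ x) q = realM hζ (rho hζ q.out x) := by
  rw [realM_rho]
  rfl

/-- **(b)**: `ρ(T⁻¹)` is the twist `t ↦ ζ t`. -/
theorem rho_T_inv (x : ↥(fieldM L ζ N)) :
    ((rho hζ ModularGroup.T⁻¹ x : ↥(fieldM L ζ N)) : LaurentSeries L) =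
      twist ζ (x : LaurentSeries L) := by
  obtain ⟨hmem, h⟩ := twist_mem_merSeriesN (ι := algebraMap L ℂ) hζ
    ⟨(x : LaurentSeries L), fieldM_le_merSeriesNI hζ x.2⟩
  have h1 := realM_rho hζ ModularGroup.T⁻¹ x
  rw [inv_inv] at h1
  have h2 : realM hζ (rho hζ ModularGroup.T⁻¹ x) =
      merSeriesN.real (algebraMap L ℂ) N
        ⟨((rho hζ ModularGroup.T⁻¹ x : ↥(fieldM L ζ N)) : LaurentSeries L),
          fieldM_le_merSeriesNI hζ (rho hζ ModularGroup.T⁻¹ x).2⟩ := rfl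
  have h3 : realM hζ x = merSeriesN.real (algebraMap L ℂ) N
      ⟨(x : LaurentSeries L), fieldM_le_merSeriesNI hζ x.2⟩ := rfl
  rw [h2, h3, ← h] at h1
  exact congrArg Subtype.val ((merSeriesN.real (algebraMap L ℂ) N).injective h1)

/-- **(b)**: `ρ(T)` is the twist `t ↦ ζ⁻¹ t`. -/
theorem rho_T (x : ↥(fieldM L ζ N)) :
    ((rho hζ ModularGroup.T x : ↥(fieldM L ζ N)) : LaurentSeries L) =
      twist ζ⁻¹ (x : LaurentSeries L) := by
  have h := rho_T_inv hζ (rho hζ ModularGroup.T x)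
  rw [← AlgEquiv.mul_apply, ← map_mul, inv_mul_cancel, map_one, AlgEquiv.one_apply] at h
  rw [h, ← twist_mul, inv_mul_cancel, twist_one]

/-! ### (d): invariance of the diagonal generators under `Γ₀(d0)` -/

omit hζ in
theorem diag_toGL_eq_alphaN (d0 : ℕ) [NeZero d0] (h : d0 ∣ N) (h0 : 0 < d0) :
    (Idx.diag N d0 h h0).toGL = alphaN d0 := by
  apply Units.ext
  rw [Idx.val_toGL]
  unfold alphaN
  rw [val_utGL]
  simp

omit hζ in
theorem exists_diag_conj {d0 : ℕ} (h : d0 ∣ N) (h0 : 0 < d0) {γ : SL(2, ℤ)}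
    (hγ : γ ∈ Gamma0 d0) :
    ∃ δ : SL(2, ℤ), (Idx.diag N d0 h h0).toGL * (γ : GL (Fin 2) ℝ) =
      (δ : GL (Fin 2) ℝ) * (Idx.diag N d0 h h0).toGL := by
  haveI : NeZero d0 := ⟨h0.ne'⟩
  rw [diag_toGL_eq_alphaN d0 h h0]
  exact exists_alphaN_mul_eq d0 hγ

/-- **(d)**: `Γ₀(d0)` fixes `x_{(d0 0; 0 1)} = ι j(q^{d0})`. -/
theorem rho_xM_diag {d0 : ℕ} (h : d0 ∣ N) (h0 : 0 < d0) {γ : SL(2, ℤ)}
    (hγ : γ ∈ Gamma0 d0) :
    rho hζ γ (xM (Idx.diag N d0 h h0)) = xM (Idx.diag N d0 h h0) := by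
  obtain ⟨δ, hδ⟩ := exists_diag_conj h h0 ((Gamma0 d0).inv_mem hγ)
  rw [rho_eq_iff, realM_xM, MerH.comp_algebraMap, comp_jA_of_decomp hδ]

/-- **(d)**: `Γ₀(r)` fixes `φ_{(r 0; 0 1)} = r^12 Δ(r z)/Δ(z)`. -/
theorem rho_phiM_diag {d0 : ℕ} (h : d0 ∣ N) (h0 : 0 < d0) {γ : SL(2, ℤ)}
    (hγ : γ ∈ Gamma0 d0) :
    rho hζ γ (phiM (Idx.diag N d0 h h0)) = phiM (Idx.diag N d0 h h0) := by
  obtain ⟨δ, hδ⟩ := exists_diag_conj h h0 ((Gamma0 d0).inv_mem hγ)
  rw [rho_eq_iff, realM_phiM, comp_phiA_of_decomp rfl hδ]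

end FieldM

end

end Fermat.Agent.Igusa
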