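import Mathlib
import Fermat.Agent.Igusa.A_helper2_FieldM
import Fermat.Agent.X0N.LD_helper1_Minpoly

/-!
# S28 package (A), part 7: the fixed field of `ρ` is `L(j)`; `M / L(j)` is finite Galois with
group `ρ(SL(2,ℤ))`
-/

set_option autoImplicit false

namespace Fermat.Agent.Igusa

open UpperHalfPlane hiding I
open Complex Filter Function Topology ModularCurve ModularForm IntermediateField
open Fermat.Agent.RatStr Fermat.Agent.X0N CongruenceSubgroup
open scoped Manifold MatrixGroups Real ModularForm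

noncomputable section

variable {L : Type*} [Field L] [Algebra L ℂ] {ζ : Lˣ} {N : ℕ} [NeZero N]

/-- `ι j = j(t^N)` as an element of `M`. -/
def jt : fieldM L ζ N := xM (Idx.diag N 1 (one_dvd N) one_pos)

theorem coe_jt : ((jt : fieldM L ζ N) : LaurentSeries L) = qExpand L N (jqModC L) := by
  haveI : NeZero (N * 1) := ⟨by simpa using NeZero.ne N⟩
  rw [jt, coe_xM, xSer_diag]
  exact qExpand_congr (mul_one N) _

theorem jA_diag_one : jA (Idx.diag N 1 (one_dvd N) one_pos) = jHol1 := by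
  ext z
  rw [jA_apply]
  show jFun _ = jH z
  rw [jH_eq_jFun]
  congr 1
  ext
  rw [Idx.coe_toGL_smul]
  simp

variable (hζ : algebraMap L ℂ (ζ : L) = zetaH (N : ℝ))

include hζ

theorem realM_jt : realM hζ (jt : fieldM L ζ N) = jM := by
  rw [jt, realM_xM, jA_diag_one]
  rfl

theorem realM_aeval (P : Polynomial L) (z : ↥(fieldM L ζ N)) :
    realM hζ (Polynomial.aeval z P) =
      Polynomial.aeval (realM hζ z) (P.map (algebraMap L ℂ)) := by
  refine Polynomial.map_aeval_eq_aeval_map ?_ P z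
  ext c
  exact ((isLinDisjHom_realM hζ).map_algebraMap c).symm

/-- `j` is transcendental over `L` in `M`. -/
theorem transcendental_jt : Transcendental L (jt : fieldM L ζ N) := by
  intro h
  obtain ⟨P, hP, hP0⟩ := h
  have h1 := realM_aeval hζ P jt
  rw [hP0, map_zero, realM_jt] at h1
  have h2 : P.map (algebraMap L ℂ) = 0 := by
    by_contra h3
    exact aeval_jM_ne_zero h3 h1.symm
  exact hP ((Polynomial.map_eq_zero_iff (algebraMap L ℂ).injective).mp h2)

/-- `ρ` fixes `j`. -/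
theorem rho_jt (γ : SL(2, ℤ)) : rho hζ γ (jt : fieldM L ζ N) = jt := by
  apply rho_xM_diag hζ (one_dvd N) one_pos
  rw [Gamma0_mem]
  exact Subsingleton.elim _ _

/-- `ρ` fixes `L(j)` pointwise. -/
theorem rho_of_mem_adjoin_jt (γ : SL(2, ℤ)) {x : ↥(fieldM L ζ N)}
    (hx : x ∈ L⟮(jt : fieldM L ζ N)⟯) : rho hζ γ x = x := by
  have hle : L⟮(jt : fieldM L ζ N)⟯ ≤
      IntermediateField.fixedField (Subgroup.zpowers (rho hζ γ)) := by
    rw [IntermediateField.adjoin_le_iff, Set.singleton_subset_iff, SetLike.mem_coe,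
      IntermediateField.mem_fixedField_iff]
    intro f hf
    obtain ⟨n, rfl⟩ := Subgroup.mem_zpowers_iff.mp hf
    rw [← map_zpow]
    exact rho_jt hζ _
  have := hle hx
  rw [IntermediateField.mem_fixedField_iff] at this
  exact this _ (Subgroup.mem_zpowers _)

/-- **(a)**: the fixed field of `ρ` is `L(j)`. -/
theorem mem_adjoin_jt_of_rho_fixed (x : ↥(fieldM L ζ N)) (h : ∀ γ, rho hζ γ x = x) :
    x ∈ L⟮(jt : fieldM L ζ N)⟯ := by
  by_contra hx
  -- the realisation of `x` is an invariant modular function, hence in `ℂ(j)`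
  have hinv : ∀ γ : SL(2, ℤ), MerH.comp γ (realM hζ x) = realM hζ x := by
    intro γ
    have h1 := realM_rho hζ γ⁻¹ x
    rw [h γ⁻¹, inv_inv] at h1
    exact h1.symm
  obtain ⟨P, Q, hQ, hPQ⟩ := (isModFun_realM hζ x).exists_rat_of_invariant hinv
  have hmem : realM hζ x ∈ ℂ⟮realM hζ (jt : fieldM L ζ N)⟯ := by
    rw [realM_jt]
    exact mem_CjM_of_mul_eq hQ hPQ
  -- `x, 1` are independent over `L(j)`
  have hli : LinearIndependent L⟮(jt : fieldM L ζ N)⟯ (![1, x] : Fin 2 → ↥(fieldM L ζ N)) := by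
    rw [LinearIndependent.pair_iff' one_ne_zero]
    intro a ha
    apply hx
    rw [← ha, IntermediateField.smul_def, smul_eq_mul, mul_one]
    exact a.2
  have h2 := (isLinDisjHom_realM hζ).linearIndependent_adjoin (transcendental_jt hζ) hli
  have h3 : (fun i => realM hζ ((![1, x] : Fin 2 → ↥(fieldM L ζ N)) i)) =
      ![1, realM hζ x] := by
    funext i
    fin_cases i
    · simp
    · simp
  rw [h3, LinearIndependent.pair_iff' one_ne_zero] at h2
  apply h2 ⟨realM hζ x, hmem⟩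
  rw [IntermediateField.smul_def, smul_eq_mul, mul_one]

/-! ### the Galois package -/

/-- the image `ρ(SL(2,ℤ))` is finite. -/
theorem finite_rho_range : Finite ↥(rho hζ).range := by
  haveI : (rho hζ).ker.FiniteIndex := Subgroup.finiteIndex_of_le (Gamma_le_ker_rho hζ)
  haveI : Finite (SL(2, ℤ) ⧸ (rho hζ).ker) := Subgroup.finite_quotient_of_finiteIndex
  exact Finite.of_equiv _ (QuotientGroup.quotientKerEquivRange (rho hζ)).toEquiv

theorem mem_fixedPoints_rho_range_iff (x : ↥(fieldM L ζ N)) :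
    x ∈ FixedPoints.subfield ↥(rho hζ).range ↥(fieldM L ζ N) ↔
      x ∈ L⟮(jt : fieldM L ζ N)⟯ := by
  constructor
  · intro hx
    apply mem_adjoin_jt_of_rho_fixed hζ
    intro γ
    exact hx ⟨rho hζ γ, ⟨γ, rfl⟩⟩
  · rintro hx ⟨g, γ, rfl⟩
    exact rho_of_mem_adjoin_jt hζ γ hx

/-- the identification of the fixed field of `ρ(SL(2,ℤ))` with `L(j)`. -/
def fixedEquiv : ↥(FixedPoints.subfield ↥(rho hζ).range ↥(fieldM L ζ N)) ≃+*
    ↥(L⟮(jt : fieldM L ζ N)⟯) where
  toFun x := ⟨x.1, (mem_fixedPoints_rho_range_iff hζ x.1).mp x.2⟩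
  invFun x := ⟨x.1, (mem_fixedPoints_rho_range_iff hζ x.1).mpr x.2⟩
  left_inv _ := rfl
  right_inv _ := rfl
  map_mul' _ _ := rfl
  map_add' _ _ := rfl

theorem fixedEquiv_comp :
    (algebraMap ↥(L⟮(jt : fieldM L ζ N)⟯) ↥(fieldM L ζ N)).comp
        (fixedEquiv hζ : _ →+* ↥(L⟮(jt : fieldM L ζ N)⟯)) =
      ((RingEquiv.refl ↥(fieldM L ζ N) : ↥(fieldM L ζ N) →+* ↥(fieldM L ζ N))).comp
        (algebraMap ↥(FixedPoints.subfield ↥(rho hζ).range ↥(fieldM L ζ N)) ↥(fieldM L ζ N)) := by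
  ext x
  rfl

/-- **`M / L(j)` is Galois.** -/
theorem isGalois_fieldM : IsGalois ↥(L⟮(jt : fieldM L ζ N)⟯) ↥(fieldM L ζ N) := by
  haveI := finite_rho_range hζ
  haveI : IsGalois ↥(FixedPoints.subfield ↥(rho hζ).range ↥(fieldM L ζ N)) ↥(fieldM L ζ N) :=
    isGalois_iff.mpr ⟨inferInstance, inferInstance⟩
  exact IsGalois.of_equiv_equiv (f := fixedEquiv hζ) (g := RingEquiv.refl _) (fixedEquiv_comp hζ)

/-- **`M / L(j)` is finite.** -/
theorem finiteDimensional_fieldM :
    FiniteDimensional ↥(L⟮(jt : fieldM L ζ N)⟯) ↥(fieldM L ζ N) := by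
  haveI := finite_rho_range hζ
  exact Module.Finite.of_equiv_equiv (fixedEquiv hζ) (RingEquiv.refl _) (fixedEquiv_comp hζ)

/-- **`ρ` as a homomorphism to `Aut(M / L(j))`.** -/
def rhoK : SL(2, ℤ) →* (↥(fieldM L ζ N) ≃ₐ[↥(L⟮(jt : fieldM L ζ N)⟯)] ↥(fieldM L ζ N)) where
  toFun γ := AlgEquiv.ofRingEquiv (f := (rho hζ γ).toRingEquiv)
    (fun k => rho_of_mem_adjoin_jt hζ γ k.2)
  map_one' := by
    apply AlgEquiv.ext
    intro x
    show rho hζ 1 x = x
    rw [map_one]
    rfl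
  map_mul' γ₁ γ₂ := by
    apply AlgEquiv.ext
    intro x
    show rho hζ (γ₁ * γ₂) x = rho hζ γ₁ (rho hζ γ₂ x)
    rw [map_mul]
    rfl

@[simp] theorem rhoK_apply (γ : SL(2, ℤ)) (x : ↥(fieldM L ζ N)) :
    rhoK hζ γ x = rho hζ γ x := rfl

/-- **Every automorphism of `M / L(j)` is a `ρ(γ)`.** -/
theorem rhoK_surjective : Function.Surjective (rhoK hζ) := by
  haveI := finite_rho_range hζ
  intro σ
  let σ' : ↥(fieldM L ζ N) ≃ₐ[↥(FixedPoints.subfield ↥(rho hζ).range ↥(fieldM L ζ N))]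
      ↥(fieldM L ζ N) :=
    AlgEquiv.ofRingEquiv (f := σ.toRingEquiv) (fun k => by
      have := σ.commutes (fixedEquiv hζ k)
      exact this)
  obtain ⟨⟨g, γ, rfl⟩, hg⟩ :=
    FixedPoints.toAlgAut_surjective ↥(rho hζ).range ↥(fieldM L ζ N) σ'
  refine ⟨γ, ?_⟩
  apply AlgEquiv.ext
  intro x
  have := AlgEquiv.congr_fun hg x
  exact this

theorem ker_rhoK : (rhoK hζ).ker = (rho hζ).ker := by
  ext γ
  rw [MonoidHom.mem_ker, MonoidHom.mem_ker]
  constructor
  · intro h
    apply AlgEquiv.ext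
    intro x
    have := AlgEquiv.congr_fun h x
    exact this
  · intro h
    apply AlgEquiv.ext
    intro x
    have := AlgEquiv.congr_fun h x
    exact this

theorem Gamma_le_ker_rhoK : CongruenceSubgroup.Gamma N ≤ (rhoK hζ).ker := by
  rw [ker_rhoK]
  exact Gamma_le_ker_rho hζ

end

end Fermat.Agent.Igusa
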