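import Mathlib
import Fermat.Agent.Igusa.A_helper2_Fixed
import Fermat.Agent.X0N.SYM_helper2_Integral
import Fermat.Agent.X0N.J_helper8_Surj
import Fermat.Prelude.Thm_ModularCurve_coeff_jqModC_pow_self
import Fermat.Prelude.Thm_ModularCurve_coeff_jqModC_pow_of_lt

/-!
# S28 package (A), part 8a: holomorphic rational functions of `j` are polynomials in `j`;
polynomials in `j(t^N)` with coefficients in a subring
-/

set_option autoImplicit false

namespace Fermat.Agent.Igusa

open UpperHalfPlane hiding I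
open Complex Filter Function Topology ModularCurve ModularForm IntermediateField Polynomial
open Fermat.Agent.RatStr Fermat.Agent.X0N CongruenceSubgroup
open scoped Manifold MatrixGroups Real ModularForm

noncomputable section

/-! ### (HOLPOLY) -/

/-- an element of `ℂ(j)` is a quotient of coprime polynomials in `j`. -/
theorem exists_coprime_rat_of_mem_CjM {y : MerH} (hy : y ∈ CjM) :
    ∃ P Q : ℂ[X], IsCoprime P Q ∧ Q ≠ 0 ∧ y * Polynomial.aeval jM Q = Polynomial.aeval jM P := by
  obtain ⟨P₀, Q₀, hQ₀, h⟩ := exists_rat_of_mem_CjM hy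
  classical
  set d := GCDMonoid.gcd P₀ Q₀ with hd
  have hd0 : d ≠ 0 := gcd_ne_zero_of_right hQ₀
  set P := P₀ / d with hPdef
  set Q := Q₀ / d with hQdef
  have hP : P₀ = d * P := (EuclideanDomain.mul_div_cancel' hd0 (gcd_dvd_left _ _)).symm
  have hQ : Q₀ = d * Q := (EuclideanDomain.mul_div_cancel' hd0 (gcd_dvd_right _ _)).symm
  have hcop : IsCoprime P Q := isCoprime_div_gcd_div_gcd hQ₀
  have hQ0 : Q ≠ 0 := by
    intro h0
    rw [h0, mul_zero] at hQ
    exact hQ₀ hQ
  refine ⟨P, Q, hcop, hQ0, ?_⟩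
  have hdM : Polynomial.aeval jM d ≠ 0 := aeval_jM_ne_zero hd0
  apply mul_right_cancel₀ hdM
  rw [mul_assoc, ← map_mul, ← map_mul, mul_comm Q d, mul_comm P d, ← hP, ← hQ, h]

/-- **(HOLPOLY)**: an element of `ℂ(j)` which is holomorphic on `ℍ` is a polynomial in `j`. -/
theorem exists_poly_of_mem_CjM_of_hol {y : MerH} (hy : y ∈ CjM) (f : HolH)
    (hf : y = MerH.ofHol f) : ∃ P : ℂ[X], y = Polynomial.aeval jM P := by
  obtain ⟨P, Q, hcop, hQ, h⟩ := exists_coprime_rat_of_mem_CjM hy
  have hroot : ∀ a : ℂ, Q.eval a ≠ 0 := by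
    intro a
    obtain ⟨τ, hτ⟩ := jFun_surjective a
    have hreg : 0 ≤ MerH.ordAt τ y := by
      rw [hf]
      exact ofHol_mem_regularAt τ f
    have := eval_ne_zero_of_regular hcop hQ h hreg
    rwa [jH_eq_jFun, hτ] at this
  have hdeg : Q.degree = 0 := by
    by_contra hne
    obtain ⟨a, ha⟩ := IsAlgClosed.exists_root Q hne
    exact hroot a ha
  obtain ⟨c, hc⟩ : ∃ c : ℂ, Q = C c := ⟨Q.coeff 0, Polynomial.eq_C_of_degree_eq_zero hdeg⟩
  have hc0 : c ≠ 0 := by
    rintro rfl
    rw [map_zero] at hc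
    exact hQ hc
  refine ⟨C c⁻¹ * P, ?_⟩
  rw [hc, Polynomial.aeval_C] at h
  rw [map_mul, Polynomial.aeval_C, ← h, mul_comm y, ← mul_assoc, ← map_mul, inv_mul_cancel₀ hc0,
    map_one, one_mul]

/-! ### (POLY) -/

section PolyJ

variable (A : Type*) [CommRing A] (N : ℕ) [NeZero N]

/-- `j(t^N)` over `A`. -/
def jtSer : LaurentSeries A := qExpand A N (jqModC A)

variable {A} {B : Type*} [CommRing B]

theorem coeffMap_jtSer (φ : A →+* B) : coeffMap φ (jtSer A N) = jtSer B N := by
  rw [jtSer, coeffMap_qExpand, coeffMap_jqModC, jtSer]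

theorem jtSer_pow_coeff_self (k : ℕ) : ((jtSer A N) ^ k).coeff (-((N : ℤ) * k)) = 1 := by
  rw [jtSer, ← map_pow]
  have : -((N : ℤ) * k) = (N : ℤ) * (-(k : ℤ)) := by ring
  rw [this, qExpand_coeff_mul, coeff_jqModC_pow_self]

theorem jtSer_pow_coeff_of_lt (k : ℕ) {n : ℤ} (hn : n < -((N : ℤ) * k)) :
    ((jtSer A N) ^ k).coeff n = 0 := by
  rw [jtSer, ← map_pow]
  by_cases hd : (N : ℤ) ∣ n
  · obtain ⟨m, rfl⟩ := hd
    rw [qExpand_coeff_mul]
    apply coeff_jqModC_pow_of_lt
    have hN : (0 : ℤ) < N := by exact_mod_cast Nat.pos_of_ne_zero (NeZero.ne N)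
    by_contra hm
    push Not at hm
    nlinarith
  · exact qExpand_coeff_of_not_dvd _ _ hd

/-- the coefficient of `t^{-N D}` in `P(j(t^N))` for `deg P ≤ D`. -/
theorem aeval_jtSer_coeff {K : Type*} [Field K] (P : K[X]) (D : ℕ) (hD : P.natDegree ≤ D) :
    (Polynomial.aeval (jtSer K N) P).coeff (-((N : ℤ) * D)) = P.coeff D := by
  rw [Polynomial.aeval_eq_sum_range' (Nat.lt_succ_of_le hD)]
  have hcoe : ∀ (s : Finset ℕ) (f : ℕ → LaurentSeries K) (n : ℤ),
      (∑ i ∈ s, f i).coeff n = ∑ i ∈ s, (f i).coeff n := by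
    intro s f n
    induction s using Finset.induction_on with
    | empty => simp
    | insert a s ha ih => rw [Finset.sum_insert ha, Finset.sum_insert ha, HahnSeries.coeff_add, ih]
  rw [hcoe, Finset.sum_eq_single D]
  · rw [Algebra.smul_def, algebraMap_laurentSeries_eq_single, HahnSeries.coeff_single_zero_mul,
      jtSer_pow_coeff_self, mul_one]
  · intro i hi hne
    have hi' : i < D := lt_of_le_of_ne (Nat.lt_succ_iff.mp (Finset.mem_range.mp hi)) hne
    rw [Algebra.smul_def, algebraMap_laurentSeries_eq_single, HahnSeries.coeff_single_zero_mul,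
      jtSer_pow_coeff_of_lt, mul_zero]
    have hN : (0 : ℤ) < N := by exact_mod_cast Nat.pos_of_ne_zero (NeZero.ne N)
    have : (i : ℤ) < D := by exact_mod_cast hi'
    nlinarith
  · intro h
    exact absurd (Finset.mem_range.mpr (Nat.lt_succ_self D)) h

/-- **(POLY)**: if `P(j(t^N))` has all its coefficients in a subring `S`, so has `P`. -/
theorem coeff_mem_of_aeval_jtSer_coeff_mem {K : Type*} [Field K] (S : Subring K) :
    ∀ (D : ℕ) (P : K[X]), P.natDegree ≤ D →
      (∀ n : ℤ, (Polynomial.aeval (jtSer K N) P).coeff n ∈ S) → ∀ i, P.coeff i ∈ S := by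
  intro D
  induction D with
  | zero =>
    intro P hP h i
    have h0 := h (-((N : ℤ) * (0 : ℕ)))
    rw [aeval_jtSer_coeff N P 0 hP] at h0
    rcases Nat.eq_zero_or_pos i with rfl | hi
    · exact h0
    · rw [Polynomial.coeff_eq_zero_of_natDegree_lt (by omega)]
      exact S.zero_mem
  | succ D ih =>
    intro P hP h i
    have hlc : P.coeff (D + 1) ∈ S := by
      have h0 := h (-((N : ℤ) * ((D + 1 : ℕ) : ℤ)))
      rwa [aeval_jtSer_coeff N P (D + 1) hP] at h0
    set P' := P - C (P.coeff (D + 1)) * X ^ (D + 1) with hP'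
    have hdeg : P'.natDegree ≤ D := by
      rw [Polynomial.natDegree_le_iff_coeff_eq_zero]
      intro n hn
      rw [hP', Polynomial.coeff_sub, Polynomial.coeff_C_mul, Polynomial.coeff_X_pow]
      by_cases hn' : n = D + 1
      · subst hn'; simp
      · rw [if_neg hn', mul_zero, sub_zero]
        apply Polynomial.coeff_eq_zero_of_natDegree_lt
        omega
    have hint : ∀ n : ℤ, ((jtSer K N) ^ (D + 1)).coeff n ∈ S := by
      intro n
      have e : jtSer K N = coeffMap (Int.castRingHom K) (jtSer ℤ N) := (coeffMap_jtSer N _).symm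
      rw [e, ← map_pow, coeffMap_coeff]
      exact intCast_mem S _
    have h' : ∀ n : ℤ, (Polynomial.aeval (jtSer K N) P').coeff n ∈ S := by
      intro n
      rw [hP', map_sub, map_mul, Polynomial.aeval_C, map_pow, Polynomial.aeval_X,
        HahnSeries.coeff_sub, algebraMap_laurentSeries_eq_single, HahnSeries.coeff_single_zero_mul]
      exact S.sub_mem (h n) (S.mul_mem hlc (hint n))
    have := ih P' hdeg h' i
    have e : P.coeff i = P'.coeff i + (C (P.coeff (D + 1)) * X ^ (D + 1)).coeff i := by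
      rw [hP', Polynomial.coeff_sub]; ring
    rw [e, Polynomial.coeff_C_mul, Polynomial.coeff_X_pow]
    apply S.add_mem this
    split_ifs
    · rw [mul_one]; exact hlc
    · rw [mul_zero]; exact S.zero_mem

end PolyJ

end

end Fermat.Agent.Igusa
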