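import Mathlib
import Fermat.Agent.Igusa.A_helper2_Poly

/-!
# S28 package (A), part 8b: (e) the generators `x_α`, `φ_α` are integral over `A[j(t^N)]`
for every subring `A ⊆ L` containing `ζ`
-/

set_option autoImplicit false

namespace Fermat.Agent.Igusa

open UpperHalfPlane hiding I
open Complex Filter Function Topology ModularCurve ModularForm IntermediateField Polynomial
open Fermat.Agent.RatStr Fermat.Agent.X0N CongruenceSubgroup
open scoped Manifold MatrixGroups Real ModularForm

noncomputable section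

/-- coefficients of `∏ (X - a_i)` lie in every subring containing the `a_i`. -/
theorem prod_X_sub_C_coeff_mem {R : Type*} [CommRing R] (S : Subring R) {ι : Type*}
    (s : Finset ι) (a : ι → R) (ha : ∀ i ∈ s, a i ∈ S) (n : ℕ) :
    (∏ i ∈ s, (X - C (a i))).coeff n ∈ S := by
  classical
  have : ∏ i ∈ s, (X - C (a i)) =
      (∏ i ∈ s.attach, (X - C (⟨a i.1, ha i.1 i.2⟩ : S))).map S.subtype := by
    rw [Polynomial.map_prod, ← Finset.prod_attach s (fun i => X - C (a i))]
    refine Finset.prod_congr rfl fun i _ => ?_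
    simp only [Polynomial.map_sub, Polynomial.map_X, Polynomial.map_C]
    rfl
  rw [this, coeff_map]
  exact ((∏ i ∈ s.attach, (X - C (⟨a i.1, ha i.1 i.2⟩ : S))).coeff n).2

theorem coeffMap_algebraMap' {K K' : Type*} [Field K] [Field K'] (φ : K →+* K') (c : K) :
    coeffMap φ (algebraMap K (LaurentSeries K) c) = algebraMap K' (LaurentSeries K') (φ c) := by
  rw [algebraMap_laurentSeries_eq_single, algebraMap_laurentSeries_eq_single, coeffMap_single]

theorem coeffMap_aeval {K K' : Type*} [Field K] [Field K'] (φ : K →+* K') (s : LaurentSeries K)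
    (Q : K[X]) :
    coeffMap φ (Polynomial.aeval s Q) = Polynomial.aeval (coeffMap φ s) (Q.map φ) := by
  refine Polynomial.map_aeval_eq_aeval_map ?_ Q s
  exact RingHom.ext fun c => (coeffMap_algebraMap' φ c).symm

variable {L : Type*} [Field L] [Algebra L ℂ] {ζ : Lˣ} {N : ℕ} [NeZero N]
  (hζ : algebraMap L ℂ (ζ : L) = zetaH (N : ℝ))

theorem coe_jt' : ((jt : fieldM L ζ N) : LaurentSeries L) = jtSer L N := coe_jt

include hζ

theorem jtSer_mem_merSeriesNI : jtSer ℂ N ∈ merSeriesNI (RingHom.id ℂ) N := by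
  have h := coeffMap_mem_merSeriesN (algebraMap L ℂ) N
    (fieldM_le_merSeriesNI hζ (jt : fieldM L ζ N).2)
  rwa [coe_jt', coeffMap_jtSer] at h

/-- `j(t^N)` over `ℂ` as a meromorphic series. -/
def jtI : ↥(merSeriesNI (RingHom.id ℂ) N) := ⟨jtSer ℂ N, jtSer_mem_merSeriesNI hζ⟩

theorem realM_eq_realIN (c : ↥(fieldM L ζ N)) :
    realM hζ c = realIN N ⟨coeffMap (algebraMap L ℂ) (c : LaurentSeries L),
      coeffMap_mem_merSeriesN (algebraMap L ℂ) N (fieldM_le_merSeriesNI hζ c.2)⟩ :=
  realOn_eq_realIN N _ _ c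

theorem realIN_jtI : realIN N (jtI hζ) = jM := by
  rw [← realM_jt hζ, realM_eq_realIN]
  congr 1
  apply Subtype.ext
  show jtSer ℂ N = coeffMap (algebraMap L ℂ) ((jt : fieldM L ζ N) : LaurentSeries L)
  rw [coe_jt', coeffMap_jtSer]

/-- the link between `realM c = P(j)` and the expansion of `c`. -/
theorem coeffMap_eq_aeval_of_realM_eq (c : ↥(fieldM L ζ N)) (P : ℂ[X])
    (h : realM hζ c = Polynomial.aeval jM P) :
    coeffMap (algebraMap L ℂ) (c : LaurentSeries L) = Polynomial.aeval (jtSer ℂ N) P := by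
  have h0 := realM_eq_realIN hζ c
  have h1 : Polynomial.aeval jM P = realIN N (Polynomial.aeval (jtI hζ) P) := by
    rw [← realIN_jtI hζ]
    exact Polynomial.aeval_algHom_apply (realIN N) (jtI hζ) P
  have h2 := congrArg (fun z : ↥(merSeriesNI (RingHom.id ℂ) N) => (z : LaurentSeries ℂ))
    (realIN_injective N (h0.symm.trans (h.trans h1)))
  simp only at h2
  rw [h2]
  have := Polynomial.aeval_algHom_apply (merSeriesNI (RingHom.id ℂ) N).val (jtI hζ) P
  exact this.symm

/-- descent of the polynomial to a subring `A ⊆ L`. -/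
theorem exists_poly_of_realM_eq (A : Subring L) (c : ↥(fieldM L ζ N))
    (hA : (c : LaurentSeries L) ∈ (coeffMap A.subtype).range) (P : ℂ[X])
    (h : realM hζ c = Polynomial.aeval jM P) :
    ∃ P' : Polynomial A,
      (c : LaurentSeries L) = Polynomial.aeval (jtSer L N) (P'.map A.subtype) := by
  have h1 := coeffMap_eq_aeval_of_realM_eq hζ c P h
  obtain ⟨cA, hcA⟩ := hA
  set S : Subring ℂ := A.map (algebraMap L ℂ) with hS
  have hmem : ∀ n : ℤ, (Polynomial.aeval (jtSer ℂ N) P).coeff n ∈ S := by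
    intro n
    rw [← h1, ← hcA, coeffMap_coeff, coeffMap_coeff]
    exact ⟨_, (cA.coeff n).2, rfl⟩
  have hcoef := coeff_mem_of_aeval_jtSer_coeff_mem N S P.natDegree P le_rfl hmem
  have hl : P ∈ Polynomial.lifts ((algebraMap L ℂ).comp A.subtype) := by
    rw [Polynomial.lifts_iff_coeff_lifts]
    intro i
    obtain ⟨a, ha, hai⟩ := hcoef i
    exact ⟨⟨a, ha⟩, hai⟩
  obtain ⟨P', hP'⟩ := hl
  refine ⟨P', ?_⟩
  apply coeffMap_injective (algebraMap L ℂ)
  rw [h1, coeffMap_aeval, coeffMap_jtSer, Polynomial.map_map]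
  congr 1
  exact hP'.symm

/-- the ring homomorphism `A[X] → L((t))`, `X ↦ j(t^N)`. -/
def jtHom (A : Subring L) (N : ℕ) [NeZero N] : Polynomial A →+* LaurentSeries L :=
  (Polynomial.aeval (jtSer L N)).toRingHom.comp (Polynomial.mapRingHom A.subtype)

omit hζ in
theorem jtHom_apply (A : Subring L) (P : Polynomial A) :
    jtHom A N P = Polynomial.aeval (jtSer L N) (P.map A.subtype) := rfl

/-- **(e), general form**: an element of `M` all of whose `ρ`-conjugates have coefficients in `A`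
and are holomorphic on `ℍ` satisfies a monic polynomial with coefficients in `A[j(t^N)]`. -/
theorem exists_monic_of_forall_rho (A : Subring L) (x : ↥(fieldM L ζ N))
    (hA : ∀ γ, ((rho hζ γ x : ↥(fieldM L ζ N)) : LaurentSeries L) ∈ (coeffMap A.subtype).range)
    (hhol : ∀ γ, realM hζ (rho hζ γ x) ∈ (MerH.ofHol).range) :
    ∃ p : Polynomial (Polynomial A), p.Monic ∧
      Polynomial.eval₂ (jtHom A N) (x : LaurentSeries L) p = 0 := by
  classical
  haveI hnorm : (CongruenceSubgroup.Gamma N).Normal := CongruenceSubgroup.Gamma_normal N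
  set Γ : Subgroup SL(2, ℤ) := CongruenceSubgroup.Gamma N with hΓ
  set PM : Polynomial ↥(fieldM L ζ N) := ∏ q : SL(2, ℤ) ⧸ Γ, (X - C (rho hζ q.out x)) with hPM
  have hmonic : PM.Monic := monic_prod_of_monic _ _ fun q _ => monic_X_sub_C _
  have hmap : PM.map (realM hζ) = charPolyM Γ (realM hζ x) := by
    rw [hPM, charPolyM, Polynomial.map_prod]
    refine Finset.prod_congr rfl fun q _ => ?_
    rw [Polynomial.map_sub, Polynomial.map_X, Polynomial.map_C, conjM_realM]
  have hroot : PM.eval x = 0 := by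
    rw [hPM, eval_prod]
    apply Finset.prod_eq_zero (Finset.mem_univ ((1 : SL(2, ℤ)) : SL(2, ℤ) ⧸ Γ))
    have hout : (((1 : SL(2, ℤ)) : SL(2, ℤ) ⧸ Γ).out) ∈ Γ := by
      rw [← QuotientGroup.eq_one_iff, QuotientGroup.out_eq']
      rfl
    have hker := Gamma_le_ker_rho hζ hout
    rw [MonoidHom.mem_ker] at hker
    rw [hker]
    simp
  -- the coefficients
  have hc1 : ∀ i, realM hζ (PM.coeff i) ∈ CjM := by
    intro i
    rw [← coeff_map, hmap]
    exact charPolyM_coeff_mem (isModFun_realM hζ x) i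
  have hc2 : ∀ i, realM hζ (PM.coeff i) ∈ (MerH.ofHol).range := by
    intro i
    rw [← coeff_map, hmap]
    apply charPolyM_coeff_mem_of_forall_mem (MerH.ofHol).range
    intro q
    rw [conjM_realM]
    exact hhol _
  have hc3 : ∀ i, ((PM.coeff i : ↥(fieldM L ζ N)) : LaurentSeries L) ∈
      (coeffMap A.subtype).range := by
    intro i
    have := prod_X_sub_C_coeff_mem
      (Subring.comap (fieldM L ζ N).val.toRingHom (coeffMap A.subtype).range)
      (Finset.univ : Finset (SL(2, ℤ) ⧸ Γ)) (fun q => rho hζ q.out x)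
      (fun q _ => hA q.out) i
    exact this
  have hex : ∀ i, ∃ P' : Polynomial A,
      ((PM.coeff i : ↥(fieldM L ζ N)) : LaurentSeries L) = jtHom A N P' := by
    intro i
    obtain ⟨f, hf⟩ := hc2 i
    obtain ⟨P, hP⟩ := exists_poly_of_mem_CjM_of_hol (hc1 i) f hf.symm
    exact exists_poly_of_realM_eq hζ A (PM.coeff i) (hc3 i) P hP
  choose P' hP' using hex
  set n := PM.natDegree with hn
  refine ⟨X ^ n + ∑ i ∈ Finset.range n, C (P' i) * X ^ i, ?_, ?_⟩
  · apply monic_X_pow_add
    refine lt_of_le_of_lt (degree_sum_le _ _) ((Finset.sup_lt_iff (WithBot.bot_lt_coe n)).mpr ?_)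
    intro i hi
    refine lt_of_le_of_lt (degree_C_mul_X_pow_le _ _) ?_
    exact WithBot.coe_lt_coe.mpr (Finset.mem_range.mp hi)
  · have h1 : ((PM.eval x : ↥(fieldM L ζ N)) : LaurentSeries L) = 0 := by rw [hroot]; rfl
    rw [hmonic.as_sum, eval_add, eval_pow, eval_X, eval_finsetSum] at h1
    rw [eval₂_add, eval₂_pow, eval₂_X, eval₂_finsetSum]
    rw [← h1]
    push_cast
    congr 1
    refine Finset.sum_congr rfl fun i _ => ?_
    rw [eval₂_mul, eval₂_C, eval₂_pow, eval₂_X, eval_mul, eval_C, eval_pow, eval_X, ← hP' i]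
    rfl

/-- `ζ^N = 1`. -/
theorem zeta_pow_N : ζ ^ N = 1 := by
  apply Units.ext
  apply (algebraMap L ℂ).injective
  rw [Units.val_pow_eq_pow_val, map_pow, hζ, zetaH_nat_pow_self, Units.val_one, map_one]

/-- `ζ` as a unit of a subring containing it. -/
def zetaSub (A : Subring L) (hA : (ζ : L) ∈ A) : (↥A)ˣ where
  val := ⟨(ζ : L), hA⟩
  inv := ⟨(ζ : L) ^ (N - 1), A.pow_mem hA _⟩
  val_inv := by
    apply Subtype.ext
    show (ζ : L) * (ζ : L) ^ (N - 1) = 1
    rw [← pow_succ', Nat.sub_add_cancel (NeZero.one_le), ← Units.val_pow_eq_pow_val,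
      zeta_pow_N hζ, Units.val_one]
  inv_val := by
    apply Subtype.ext
    show (ζ : L) ^ (N - 1) * (ζ : L) = 1
    rw [← pow_succ, Nat.sub_add_cancel (NeZero.one_le), ← Units.val_pow_eq_pow_val,
      zeta_pow_N hζ, Units.val_one]

theorem map_zetaSub (A : Subring L) (hA : (ζ : L) ∈ A) :
    Units.map (A.subtype : ↥A →* L) (zetaSub hζ A hA) = ζ := Units.ext rfl

/-- the generators `x_α` have coefficients in every subring containing `ζ`. -/
theorem xSer_mem_range (A : Subring L) (hA : (ζ : L) ∈ A) (α : Idx N) :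
    xSer L ζ N α ∈ (coeffMap A.subtype).range :=
  ⟨xSer ↥A (zetaSub hζ A hA) N α, by rw [coeffMap_xSer, map_zetaSub]⟩

/-- the generators `φ_α` have coefficients in every subring containing `ζ`. -/
theorem phiSer_mem_range (A : Subring L) (hA : (ζ : L) ∈ A) (α : Idx N) :
    phiSer L ζ N α ∈ (coeffMap A.subtype).range :=
  ⟨phiSer ↥A (zetaSub hζ A hA) N α, by rw [coeffMap_phiSer, map_zetaSub]⟩

/-- **(e)** for `x_α`. -/
theorem exists_monic_xSer (A : Subring L) (hA : (ζ : L) ∈ A) (α : Idx N) :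
    ∃ p : Polynomial (Polynomial A), p.Monic ∧
      Polynomial.eval₂ (jtHom A N) (xSer L ζ N α) p = 0 := by
  refine exists_monic_of_forall_rho hζ A (xM α) ?_ ?_
  · intro γ
    obtain ⟨α', -, h, -⟩ := rho_xM hζ γ α
    rw [h]
    exact xSer_mem_range hζ A hA α'
  · intro γ
    obtain ⟨α', -, h, -⟩ := rho_xM hζ γ α
    rw [h, realM_xM]
    exact ⟨_, rfl⟩

/-- **(e)** for `φ_α`. -/
theorem exists_monic_phiSer (A : Subring L) (hA : (ζ : L) ∈ A) (α : Idx N) :
    ∃ p : Polynomial (Polynomial A), p.Monic ∧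
      Polynomial.eval₂ (jtHom A N) (phiSer L ζ N α) p = 0 := by
  refine exists_monic_of_forall_rho hζ A (phiM α) ?_ ?_
  · intro γ
    obtain ⟨α', -, -, h⟩ := rho_xM hζ γ α
    rw [h]
    exact phiSer_mem_range hζ A hA α'
  · intro γ
    obtain ⟨α', -, -, h⟩ := rho_xM hζ γ α
    rw [h, realM_phiM, phiA_eq_ofHol]
    exact ⟨_, rfl⟩

end

end Fermat.Agent.Igusa
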