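/-
S28 (Igusa) — package (V), helper5.
(V4) Transcendence of Laurent series with a pole or a zero, the Gauss lemma
`R[s][1/ϖ] ∩ 𝒲 = R[s]` for `s ∈ 𝒲` with transcendental reduction, and the residue field
`k(s̃)` of `L(s) ∩ 𝒲`.
-/
import Fermat.Agent.Igusa.V_helper5_Funct

set_option autoImplicit false
set_option linter.unusedSectionVars false

open ModularCurve Polynomial

namespace Fermat.Agent.Igusa

noncomputable section

/-! ### transcendence -/
section Transc

variable {k : Type*} [Field k]

theorem coeff_aeval_eq_of_order {x : LaurentSeries k} (p : k[X]) (i₀ : ℕ)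
    (h : ∀ i ∈ p.support, i ≠ i₀ → (i₀ : ℤ) * x.order < i * x.order) :
    (aeval x p).coeff (i₀ * x.order) = p.coeff i₀ * (x ^ i₀).coeff (i₀ * x.order) := by
  rw [aeval_def, eval₂_eq_sum, Polynomial.sum, HahnSeries.coeff_sum]
  rw [Finset.sum_eq_single i₀]
  · rw [algebraMap_laurentSeries_eq_single, HahnSeries.coeff_single_zero_mul]
  · intro i hi hne
    rw [algebraMap_laurentSeries_eq_single, HahnSeries.coeff_single_zero_mul]
    have : (x ^ i).coeff (i₀ * x.order) = 0 := by
      apply HahnSeries.coeff_eq_zero_of_lt_order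
      rw [HahnSeries.order_pow, nsmul_eq_mul]
      exact h i hi hne
    rw [this, mul_zero]
  · intro hi
    rw [Polynomial.notMem_support_iff.1 hi, map_zero, zero_mul, HahnSeries.coeff_zero]

theorem coeff_pow_order_ne_zero {x : LaurentSeries k} (hx : x ≠ 0) (i : ℕ) :
    (x ^ i).coeff (i * x.order) ≠ 0 := by
  have h := HahnSeries.coeff_order_eq_zero.not.2 (pow_ne_zero i hx)
  rwa [HahnSeries.order_pow, nsmul_eq_mul] at h

/-- a Laurent series over a field with a pole (or a zero) at `t = 0` is transcendental over the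
constants -/
theorem transcendental_of_order_ne_zero {x : LaurentSeries k} (hx : x ≠ 0) (h : x.order ≠ 0) :
    Transcendental k x := by
  rw [transcendental_iff]
  intro p hp
  by_contra hp0
  rcases lt_or_gt_of_ne h with hneg | hpos
  · -- pole: look at the top coefficient
    have h1 := coeff_aeval_eq_of_order (x := x) p p.natDegree (fun i hi hne => by
      have hlt : i < p.natDegree := lt_of_le_of_ne (le_natDegree_of_mem_supp i hi) hne
      have : (i : ℤ) < p.natDegree := by exact_mod_cast hlt
      nlinarith)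
    rw [hp, HahnSeries.coeff_zero] at h1
    rcases mul_eq_zero.1 h1.symm with h2 | h2
    · exact hp0 (leadingCoeff_eq_zero.1 h2)
    · exact coeff_pow_order_ne_zero hx _ h2
  · -- zero: look at the bottom coefficient
    have h1 := coeff_aeval_eq_of_order (x := x) p p.natTrailingDegree (fun i hi hne => by
      have hlt : p.natTrailingDegree < i :=
        lt_of_le_of_ne (natTrailingDegree_le_of_mem_supp i hi) (Ne.symm hne)
      have : (p.natTrailingDegree : ℤ) < i := by exact_mod_cast hlt
      nlinarith)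
    rw [hp, HahnSeries.coeff_zero] at h1
    rcases mul_eq_zero.1 h1.symm with h2 | h2
    · exact hp0 (trailingCoeff_eq_zero.1 h2)
    · exact coeff_pow_order_ne_zero hx _ h2

theorem order_ne_zero_of_coeff_ne_zero {x : LaurentSeries k} {n : ℤ} (hn : n < 0)
    (h : x.coeff n ≠ 0) : x ≠ 0 ∧ x.order ≠ 0 := by
  have hx : x ≠ 0 := by
    rintro rfl
    exact h HahnSeries.coeff_zero
  refine ⟨hx, ?_⟩
  have := HahnSeries.order_le_of_coeff_ne_zero h
  omega

variable (k)

theorem transcendental_jqModC : Transcendental k (jqModC k) := by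
  have h := order_ne_zero_of_coeff_ne_zero (x := jqModC k) (n := -1) (by norm_num)
    (by rw [coeff_jqModC_neg_one]; exact one_ne_zero)
  exact transcendental_of_order_ne_zero h.1 h.2

theorem transcendental_qExpand_jqModC (N : ℕ) [NeZero N] :
    Transcendental k (qExpand k N (jqModC k)) := by
  have hN : (0 : ℤ) < N := by exact_mod_cast Nat.pos_of_ne_zero (NeZero.ne N)
  have h := order_ne_zero_of_coeff_ne_zero (x := qExpand k N (jqModC k)) (n := (N : ℤ) * (-1))
    (by nlinarith) (by rw [qExpand_coeff_mul, coeff_jqModC_neg_one]; exact one_ne_zero)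
  exact transcendental_of_order_ne_zero h.1 h.2

variable {k}

theorem transcendental_inv_of_order_ne_zero {x : LaurentSeries k} (hx : x ≠ 0)
    (h : x.order ≠ 0) : Transcendental k x⁻¹ := by
  have hx' : x⁻¹ ≠ 0 := inv_ne_zero hx
  refine transcendental_of_order_ne_zero hx' ?_
  have h1 : (x * x⁻¹).order = x.order + (x⁻¹).order := HahnSeries.order_mul hx hx'
  rw [mul_inv_cancel₀ hx, HahnSeries.order_one] at h1
  omega

end Transc


/-! ### the Gauss lemma -/
section GaussLemma

variable {R : Type*} [CommRing R] [IsDomain R] [IsDiscreteValuationRing R]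
variable {L : Type*} [Field L] [Algebra R L] [IsFractionRing R L]

/-- the structure map `R → L((t))` (constants) -/
def constR : R →+* LaurentSeries L := (algebraMap L (LaurentSeries L)).comp (algebraMap R L)

theorem constR_apply (c : R) :
    constR (L := L) c = HahnSeries.C (algebraMap R L c) := by
  rw [constR, RingHom.comp_apply, algebraMap_laurentSeries_eq_single, HahnSeries.C_apply]

theorem constR_mem_gaussInt (c : R) : constR (L := L) c ∈ gaussInt R L := by
  rw [constR_apply]
  exact C_algebraMap_mem_gaussInt c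

/-- constants as elements of `𝒲` -/
def constW : R →+* gaussInt R L :=
  RingHom.codRestrict constR (gaussInt R L) constR_mem_gaussInt

theorem coe_constW (c : R) : ((constW (L := L) c : gaussInt R L) : LaurentSeries L) = constR c :=
  rfl

theorem gaussRed_constW (c : R) :
    gaussRed R L (constW c) =
      algebraMap (IsLocalRing.ResidueField R) (LaurentSeries (IsLocalRing.ResidueField R))
        (IsLocalRing.residue R c) := by
  have h : (constW (L := L) c : gaussInt R L) =
      ⟨emb R L (HahnSeries.C c), emb_mem_gaussInt R L _⟩ := by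
    apply Subtype.ext
    show constR c = emb R L (HahnSeries.C c)
    rw [constR_apply, emb_C]
  rw [h, gaussRed_emb, red_C, algebraMap_laurentSeries_eq_single, HahnSeries.C_apply]

/-- evaluation of polynomials over `R` at `s ∈ 𝒲` -/
def evalW (s : gaussInt R L) : R[X] →+* gaussInt R L := eval₂RingHom constW s

theorem coe_evalW (s : gaussInt R L) (P : R[X]) :
    ((evalW s P : gaussInt R L) : LaurentSeries L) = P.eval₂ constR (s : LaurentSeries L) := by
  have h := Polynomial.hom_eval₂ P (constW (L := L)) (gaussInt R L).subtype s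
  rw [evalW, coe_eval₂RingHom]
  exact h

theorem gaussRed_evalW (s : gaussInt R L) (P : R[X]) :
    gaussRed R L (evalW s P) = aeval (gaussRed R L s) (P.map (IsLocalRing.residue R)) := by
  have h : (gaussRed R L).comp (evalW s) =
      ((aeval (gaussRed R L s)).toRingHom).comp (mapRingHom (IsLocalRing.residue R)) := by
    refine Polynomial.ringHom_ext (fun a => ?_) ?_
    · simp only [RingHom.comp_apply, evalW, coe_eval₂RingHom, eval₂_C, coe_mapRingHom, map_C,
        AlgHom.toRingHom_eq_coe, RingHom.coe_coe, aeval_C]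
      exact gaussRed_constW a
    · simp only [RingHom.comp_apply, evalW, coe_eval₂RingHom, eval₂_X, coe_mapRingHom, map_X,
        AlgHom.toRingHom_eq_coe, RingHom.coe_coe, aeval_X]
  exact congrArg (fun φ => φ P) h

theorem map_residue_eq_zero_iff {ϖ : R} (hϖ : Irreducible ϖ) (P : R[X]) :
    P.map (IsLocalRing.residue R) = 0 ↔ ∃ P' : R[X], P = C ϖ * P' := by
  constructor
  · intro h
    have : C ϖ ∣ P := by
      rw [C_dvd_iff_dvd_coeff]
      intro i
      have h1 : IsLocalRing.residue R (P.coeff i) = 0 := by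
        rw [← coeff_map, h, coeff_zero]
      rw [IsLocalRing.residue_eq_zero_iff,
        (IsDiscreteValuationRing.irreducible_iff_uniformizer ϖ).1 hϖ,
        Ideal.mem_span_singleton] at h1
      exact h1
    exact this
  · rintro ⟨P', rfl⟩
    rw [Polynomial.map_mul, map_C, residue_irreducible hϖ, C_0, zero_mul]

theorem exists_C_pow_mul_map_ne_zero {ϖ : R} (hϖ : Irreducible ϖ) {P : R[X]} (hP : P ≠ 0) :
    ∃ (n : ℕ) (P₀ : R[X]), P = C ϖ ^ n * P₀ ∧ P₀.map (IsLocalRing.residue R) ≠ 0 := by
  have key : ∀ N : ℕ, ∀ P : R[X], (∃ m, ¬ ϖ ^ (N + 1) ∣ P.coeff m) →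
      ∃ (n : ℕ) (P₀ : R[X]), P = C ϖ ^ n * P₀ ∧ P₀.map (IsLocalRing.residue R) ≠ 0 := by
    intro N
    induction N with
    | zero =>
      rintro P ⟨m, hm⟩
      refine ⟨0, P, by rw [pow_zero, one_mul], fun h => hm ?_⟩
      obtain ⟨P', rfl⟩ := (map_residue_eq_zero_iff hϖ P).1 h
      rw [coeff_C_mul, zero_add, pow_one]
      exact dvd_mul_right _ _
    | succ N ih =>
      rintro P ⟨m, hm⟩
      by_cases h : P.map (IsLocalRing.residue R) = 0
      · obtain ⟨P', rfl⟩ := (map_residue_eq_zero_iff hϖ P).1 h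
        obtain ⟨n, P₀, hP₀, hr⟩ := ih P' ⟨m, fun hd => hm (by
          rw [coeff_C_mul, pow_succ']
          exact mul_dvd_mul_left _ hd)⟩
        exact ⟨n + 1, P₀, by rw [hP₀, pow_succ']; ring, hr⟩
      · exact ⟨0, P, by rw [pow_zero, one_mul], h⟩
  obtain ⟨m, hm⟩ : ∃ m, P.coeff m ≠ 0 := by
    by_contra h
    simp only [not_exists, not_not] at h
    exact hP (Polynomial.ext h)
  obtain ⟨N, hN⟩ := FiniteMultiplicity.of_not_isUnit hϖ.not_isUnit hm
  exact key N P ⟨m, hN⟩

/-- GAUSS LEMMA: if `s ∈ 𝒲` has transcendental reduction, `c ∈ 𝒲` and `ϖ^n c ∈ R[s]` then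
`c ∈ R[s]`. -/
theorem gauss_lemma {ϖ : R} (hϖ : Irreducible ϖ) {s : LaurentSeries L} (hs : s ∈ gaussInt R L)
    (hst : Transcendental (IsLocalRing.ResidueField R) (gaussRed R L ⟨s, hs⟩))
    {c : LaurentSeries L} (hc : c ∈ gaussInt R L) (n : ℕ) (P : R[X])
    (h : constR (R := R) (L := L) ϖ ^ n * c = P.eval₂ constR s) :
    ∃ Q : R[X], c = Q.eval₂ constR s := by
  induction n generalizing P with
  | zero => exact ⟨P, by rw [← h, pow_zero, one_mul]⟩
  | succ n ih =>
    -- `P(s) = ϖ · (ϖ^n c)` has vanishing reduction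
    have h1 : gaussRed R L (evalW ⟨s, hs⟩ P) = 0 := by
      rw [gaussRed_eq_zero_iff hϖ]
      refine ⟨⟨constR ϖ ^ n * c, (gaussInt R L).mul_mem
        ((gaussInt R L).pow_mem (constR_mem_gaussInt ϖ) n) hc⟩, ?_⟩
      rw [coe_evalW]
      show P.eval₂ constR s = _ * (constR ϖ ^ n * c)
      rw [← h, ← constR_apply, pow_succ']
      ring
    rw [gaussRed_evalW] at h1
    have h2 : P.map (IsLocalRing.residue R) = 0 := by
      by_contra hne
      exact hne ((transcendental_iff.1 hst) _ h1)
    obtain ⟨P', rfl⟩ := (map_residue_eq_zero_iff hϖ P).1 h2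
    apply ih P'
    have hC : constR (R := R) (L := L) ϖ ≠ 0 := by
      rw [constR_apply]
      exact C_algebraMap_ne_zero hϖ.ne_zero
    have h3 : constR (R := R) (L := L) ϖ * (constR ϖ ^ n * c) =
        constR ϖ * P'.eval₂ constR s := by
      rw [← mul_assoc, ← pow_succ', h, eval₂_mul, eval₂_C]
    exact mul_left_cancel₀ hC h3

theorem aeval_mem_adjoin_simple {K E : Type*} [Field K] [Field E] [Algebra K E] (a : E)
    (p : K[X]) : aeval a p ∈ IntermediateField.adjoin K {a} := by
  have h : aeval a p ∈ Algebra.adjoin K {a} := aeval_mem_adjoin_singleton K a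
  exact IntermediateField.algebra_adjoin_le_adjoin K _ h

/-- the residue field of `L(s) ∩ 𝒲` is `k(s̃)` -/
theorem gaussRed_mem_adjoin {s : LaurentSeries L} (hs : s ∈ gaussInt R L)
    (hst : Transcendental (IsLocalRing.ResidueField R) (gaussRed R L ⟨s, hs⟩))
    {x : LaurentSeries L} (hx : x ∈ IntermediateField.adjoin L {s}) (hxi : x ∈ gaussInt R L) :
    gaussRed R L ⟨x, hxi⟩ ∈
      IntermediateField.adjoin (IsLocalRing.ResidueField R) {gaussRed R L ⟨s, hs⟩} := by
  obtain ⟨ϖ, hϖ⟩ := IsDiscreteValuationRing.exists_irreducible R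
  set s' : gaussInt R L := ⟨s, hs⟩ with hs'
  set K' := IntermediateField.adjoin (IsLocalRing.ResidueField R) {gaussRed R L s'} with hK'
  obtain ⟨p, q, hxpq⟩ := (IntermediateField.mem_adjoin_simple_iff L x).1 hx
  by_cases hq0 : aeval s q = 0
  · have : x = 0 := by rw [hxpq, hq0, div_zero]
    have h0 : (⟨x, hxi⟩ : gaussInt R L) = 0 := Subtype.ext this
    rw [h0, map_zero]
    exact K'.zero_mem
  -- clear denominators
  obtain ⟨bp, hbpM, hbp⟩ := IsLocalization.integerNormalization_spec (nonZeroDivisors R) p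
  obtain ⟨bq, hbqM, hbq⟩ := IsLocalization.integerNormalization_spec (nonZeroDivisors R) q
  set P₁ := IsLocalization.integerNormalization (nonZeroDivisors R) p with hP₁
  set Q₁ := IsLocalization.integerNormalization (nonZeroDivisors R) q with hQ₁
  have hev : ∀ (P : R[X]), P.eval₂ constR s = aeval s (P.map (algebraMap R L)) := by
    intro P
    rw [aeval_def, eval₂_map]
    rfl
  have hbp0 : constR (L := L) (bp : R) ≠ 0 := by
    rw [constR_apply]; exact C_algebraMap_ne_zero (nonZeroDivisors.ne_zero hbpM)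
  have hbq0 : constR (L := L) (bq : R) ≠ 0 := by
    rw [constR_apply]; exact C_algebraMap_ne_zero (nonZeroDivisors.ne_zero hbqM)
  have hsm : ∀ (b : R) (p : L[X]), aeval s (b • p) = constR b * aeval s p := by
    intro b p
    rw [← IsScalarTower.algebraMap_smul L b p, Algebra.smul_def, map_mul]
    rw [Polynomial.algebraMap_apply, aeval_C]
    rfl
  have hP₁s : P₁.eval₂ constR s = constR (bp : R) * aeval s p := by
    rw [hev, hbp, hsm]
  have hQ₁s : Q₁.eval₂ constR s = constR (bq : R) * aeval s q := by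
    rw [hev, hbq, hsm]
  -- `x · Q(s) = P(s)` with `P := bq·P₁`, `Q := bp·Q₁`
  set P : R[X] := C (bq : R) * P₁ with hP
  set Q : R[X] := C (bp : R) * Q₁ with hQ
  have hQs : Q.eval₂ constR s ≠ 0 := by
    rw [hQ, eval₂_mul, eval₂_C, hQ₁s]
    exact mul_ne_zero hbp0 (mul_ne_zero hbq0 hq0)
  have hrel : x * Q.eval₂ constR s = P.eval₂ constR s := by
    rw [hQ, hP, eval₂_mul, eval₂_mul, eval₂_C, eval₂_C, hP₁s, hQ₁s, hxpq]
    field_simp
  have hQ0 : Q ≠ 0 := by
    rintro h0
    rw [h0, eval₂_zero] at hQs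
    exact hQs rfl
  by_cases hP0 : P = 0
  · have : x = 0 := by
      rw [hP0, eval₂_zero] at hrel
      exact (mul_eq_zero.1 hrel).resolve_right hQs
    have h0 : (⟨x, hxi⟩ : gaussInt R L) = 0 := Subtype.ext this
    rw [h0, map_zero]
    exact K'.zero_mem
  obtain ⟨a, P₀, hPa, hP₀⟩ := exists_C_pow_mul_map_ne_zero hϖ hP0
  obtain ⟨b, Q₀, hQb, hQ₀⟩ := exists_C_pow_mul_map_ne_zero hϖ hQ0
  have hredP : gaussRed R L (evalW s' P₀) ≠ 0 := by
    rw [gaussRed_evalW]
    exact fun h => hP₀ ((transcendental_iff.1 hst) _ h)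
  have hredQ : gaussRed R L (evalW s' Q₀) ≠ 0 := by
    rw [gaussRed_evalW]
    exact fun h => hQ₀ ((transcendental_iff.1 hst) _ h)
  have hϖred : gaussRed R L (constW ϖ) = 0 := by
    rw [gaussRed_constW, residue_irreducible hϖ, map_zero]
  have hC : (constW (L := L) ϖ : gaussInt R L) ≠ 0 := by
    intro h0
    have := congrArg Subtype.val h0
    rw [coe_constW, constR_apply] at this
    exact C_algebraMap_ne_zero hϖ.ne_zero this
  -- the relation inside `𝒲`
  have hrelW : (⟨x, hxi⟩ : gaussInt R L) * (constW ϖ ^ b * evalW s' Q₀) =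
      constW ϖ ^ a * evalW s' P₀ := by
    apply Subtype.ext
    simp only [Subring.coe_mul, Subring.coe_pow, coe_constW, coe_evalW]
    rw [hPa, hQb, eval₂_mul, eval₂_mul, eval₂_pow, eval₂_pow, eval₂_C] at hrel
    exact hrel
  have hdom : IsDomain (gaussInt R L) := inferInstance
  rcases le_total b a with hab | hab
  · obtain ⟨c, rfl⟩ := Nat.exists_eq_add_of_le hab
    have h4 : (⟨x, hxi⟩ : gaussInt R L) * evalW s' Q₀ = constW ϖ ^ c * evalW s' P₀ := by
      have : constW ϖ ^ b * ((⟨x, hxi⟩ : gaussInt R L) * evalW s' Q₀) =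
          constW ϖ ^ b * (constW ϖ ^ c * evalW s' P₀) := by
        rw [← mul_assoc (constW ϖ ^ b) (constW ϖ ^ c), ← pow_add, ← hrelW]; ring
      exact mul_left_cancel₀ (pow_ne_zero b hC) this
    have h5 := congrArg (gaussRed R L) h4
    rw [map_mul, map_mul, map_pow] at h5
    have h6 : gaussRed R L ⟨x, hxi⟩ =
        gaussRed R L (constW ϖ) ^ c * gaussRed R L (evalW s' P₀) / gaussRed R L (evalW s' Q₀) := by
      rw [← h5, mul_div_cancel_right₀ _ hredQ]
    rw [h6, gaussRed_evalW, gaussRed_evalW, hϖred]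
    exact K'.div_mem (K'.mul_mem (K'.pow_mem K'.zero_mem c) (aeval_mem_adjoin_simple _ _))
      (aeval_mem_adjoin_simple _ _)
  · obtain ⟨c, rfl⟩ := Nat.exists_eq_add_of_le hab
    rcases Nat.eq_zero_or_pos c with rfl | hc
    · -- same as the previous case with `c = 0`
      have h4 : (⟨x, hxi⟩ : gaussInt R L) * evalW s' Q₀ = evalW s' P₀ := by
        have : constW ϖ ^ a * ((⟨x, hxi⟩ : gaussInt R L) * evalW s' Q₀) =
            constW ϖ ^ a * evalW s' P₀ := by
          rw [← hrelW, add_zero]; ring
        exact mul_left_cancel₀ (pow_ne_zero a hC) this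
      have h5 := congrArg (gaussRed R L) h4
      rw [map_mul] at h5
      have h6 : gaussRed R L ⟨x, hxi⟩ =
          gaussRed R L (evalW s' P₀) / gaussRed R L (evalW s' Q₀) := by
        rw [← h5, mul_div_cancel_right₀ _ hredQ]
      rw [h6, gaussRed_evalW, gaussRed_evalW]
      exact K'.div_mem (aeval_mem_adjoin_simple _ _) (aeval_mem_adjoin_simple _ _)
    · exfalso
      have h4 : constW ϖ ^ c * ((⟨x, hxi⟩ : gaussInt R L) * evalW s' Q₀) = evalW s' P₀ := by
        have : constW ϖ ^ a * (constW ϖ ^ c * ((⟨x, hxi⟩ : gaussInt R L) * evalW s' Q₀)) =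
            constW ϖ ^ a * evalW s' P₀ := by
          rw [← hrelW, pow_add]; ring
        exact mul_left_cancel₀ (pow_ne_zero a hC) this
      have h5 := congrArg (gaussRed R L) h4
      rw [map_mul, map_pow, hϖred, zero_pow hc.ne', zero_mul] at h5
      exact hredP h5.symm

end GaussLemma

/-! ### the packaged form: integrality detected after a morphism of Gauss data -/
section Packaged

variable {R : Type*} [CommRing R] [IsDomain R] [IsDiscreteValuationRing R]
variable {L : Type*} [Field L] [Algebra R L] [IsFractionRing R L]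
variable {R' : Type*} [CommRing R'] [IsDomain R'] [IsDiscreteValuationRing R']
variable {L' : Type*} [Field L'] [Algebra R' L'] [IsFractionRing R' L']

theorem eval₂_constR_mem_gaussInt {s : LaurentSeries L} (hs : s ∈ gaussInt R L) (P : R[X]) :
    P.eval₂ constR s ∈ gaussInt R L := by
  rw [← coe_evalW ⟨s, hs⟩ P]
  exact (evalW ⟨s, hs⟩ P).2

/-- PACKAGED GAUSS LEMMA: `s ∈ 𝒲` with transcendental reduction, `ϖ^n c = P(s)` with `P ∈ R[X]`,
and `σ c` integral for some morphism of Gauss data `σ` (e.g. `ι : ℚ((q)) → L((t))`). Then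
`c ∈ R[s]`. -/
theorem mem_adjoin_of_map_mem (σ : GaussHom R L R' L') {ϖ : R} (hϖ : Irreducible ϖ)
    {s : LaurentSeries L} (hs : s ∈ gaussInt R L)
    (hst : Transcendental (IsLocalRing.ResidueField R) (gaussRed R L ⟨s, hs⟩))
    {c : LaurentSeries L} (n : ℕ) (P : R[X])
    (h : constR (R := R) (L := L) ϖ ^ n * c = P.eval₂ constR s)
    (hc : σ.σL c ∈ gaussInt R' L') :
    ∃ Q : R[X], c = Q.eval₂ constR s := by
  have hC : constR (R := R) (L := L) ϖ ≠ 0 := by
    rw [constR_apply]
    exact C_algebraMap_ne_zero hϖ.ne_zero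
  have hcF : c ∈ gaussField R L := by
    have h1 : c = P.eval₂ constR s * (constR (R := R) (L := L) ϖ ^ n)⁻¹ := by
      rw [← h, mul_comm, ← mul_assoc, inv_mul_cancel₀ (pow_ne_zero n hC), one_mul]
    rw [h1]
    exact (gaussField R L).mul_mem (gaussInt_le_gaussField (eval₂_constR_mem_gaussInt hs P))
      ((gaussField R L).inv_mem ((gaussField R L).pow_mem
        (gaussInt_le_gaussField (constR_mem_gaussInt ϖ)) n))
  exact gauss_lemma hϖ hs hst (σ.mem_gaussInt_of_map_mem hcF hc) n P h

end Packaged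

/-! ### the `j`-invariant and the modular function fields -/
section JInv

variable (R : Type*) [CommRing R] [IsDomain R] [IsDiscreteValuationRing R]
variable (L : Type*) [Field L] [Algebra R L] [IsFractionRing R L]

theorem adjoin_le_gaussField {s : LaurentSeries L} (hs : s ∈ gaussField R L) :
    IntermediateField.adjoin L {s} ≤ gaussField R L :=
  IntermediateField.adjoin_le_iff.2 (Set.singleton_subset_iff.2 hs)

theorem emb_jqModC : emb R L (jqModC R) = jqModC L := coeffMap_jqModC _

theorem red_jqModC : red R (jqModC R) = jqModC (IsLocalRing.ResidueField R) := coeffMap_jqModC _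

theorem emb_qExpand (N : ℕ) [NeZero N] (f : LaurentSeries R) :
    emb R L (qExpand R N f) = qExpand L N (emb R L f) := coeffMap_qExpand _ N f

theorem red_qExpand (N : ℕ) [NeZero N] (f : LaurentSeries R) :
    red R (qExpand R N f) = qExpand _ N (red R f) := coeffMap_qExpand _ N f

theorem qExpand_jqModC_mem_gaussInt (d : ℕ) [NeZero d] :
    qExpand L d (jqModC L) ∈ gaussInt R L := by
  rw [← emb_jqModC R L, ← emb_qExpand]
  exact emb_mem_gaussInt R L _

theorem gaussRed_qExpand_jqModC (d : ℕ) [NeZero d] :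
    gaussRed R L ⟨qExpand L d (jqModC L), qExpand_jqModC_mem_gaussInt R L d⟩ =
      qExpand _ d (jqModC (IsLocalRing.ResidueField R)) := by
  have h : (⟨qExpand L d (jqModC L), qExpand_jqModC_mem_gaussInt R L d⟩ : gaussInt R L) =
      ⟨emb R L (qExpand R d (jqModC R)), emb_mem_gaussInt R L _⟩ := by
    apply Subtype.ext
    show qExpand L d (jqModC L) = emb R L (qExpand R d (jqModC R))
    rw [emb_qExpand, emb_jqModC]
  rw [h, gaussRed_emb, red_qExpand, red_jqModC]

theorem jqModC_mem_gaussInt : jqModC L ∈ gaussInt R L := by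
  rw [← emb_jqModC R L]
  exact emb_mem_gaussInt R L _

theorem gaussRed_jqModC :
    gaussRed R L ⟨jqModC L, jqModC_mem_gaussInt R L⟩ = jqModC (IsLocalRing.ResidueField R) := by
  have h : (⟨jqModC L, jqModC_mem_gaussInt R L⟩ : gaussInt R L) =
      ⟨emb R L (jqModC R), emb_mem_gaussInt R L _⟩ := by
    apply Subtype.ext
    show jqModC L = emb R L (jqModC R)
    rw [emb_jqModC]
  rw [h, gaussRed_emb, red_jqModC]

theorem inv_jqModC_mem_gaussInt : (jqModC L)⁻¹ ∈ gaussInt R L := by
  refine inv_mem_gaussInt_of_gaussRed_ne_zero ⟨jqModC L, jqModC_mem_gaussInt R L⟩ ?_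
  rw [gaussRed_jqModC]
  exact jqModC_ne_zero_of_nontrivial _

theorem gaussRed_inv_jqModC :
    gaussRed R L ⟨(jqModC L)⁻¹, inv_jqModC_mem_gaussInt R L⟩ =
      (jqModC (IsLocalRing.ResidueField R))⁻¹ := by
  have h1 : (⟨(jqModC L)⁻¹, inv_jqModC_mem_gaussInt R L⟩ : gaussInt R L) *
      ⟨jqModC L, jqModC_mem_gaussInt R L⟩ = 1 := by
    apply Subtype.ext
    show (jqModC L)⁻¹ * jqModC L = 1
    exact inv_mul_cancel₀ (jqModC_ne_zero_of_nontrivial L)
  have h2 := congrArg (gaussRed R L) h1
  rw [map_mul, map_one, gaussRed_jqModC] at h2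
  exact eq_inv_of_mul_eq_one_left h2

theorem transcendental_gaussRed_jqModC :
    Transcendental (IsLocalRing.ResidueField R)
      (gaussRed R L ⟨jqModC L, jqModC_mem_gaussInt R L⟩) := by
  rw [gaussRed_jqModC]
  exact transcendental_jqModC _

theorem transcendental_gaussRed_inv_jqModC :
    Transcendental (IsLocalRing.ResidueField R)
      (gaussRed R L ⟨(jqModC L)⁻¹, inv_jqModC_mem_gaussInt R L⟩) := by
  rw [gaussRed_inv_jqModC]
  have h := order_ne_zero_of_coeff_ne_zero (x := jqModC (IsLocalRing.ResidueField R)) (n := -1)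
    (by norm_num) (by rw [coeff_jqModC_neg_one]; exact one_ne_zero)
  exact transcendental_inv_of_order_ne_zero h.1 h.2

/-- the full modular function field over `L` lies in `Frac(R((t)))` -/
theorem modularFunctionFieldFullC_le_gaussField (N : ℕ) [NeZero N] :
    modularFunctionFieldFullC L N ≤ gaussField R L := by
  rw [modularFunctionFieldFullC, IntermediateField.adjoin_le_iff]
  rintro x ⟨d, hd, -, rfl⟩
  exact gaussInt_le_gaussField (qExpand_jqModC_mem_gaussInt R L d)

end JInv

end

end Fermat.Agent.Igusa
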