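import Mathlib
import Fermat.Agent.Igusa.A_helper2_Fixed
import Fermat.Agent.X0N.SYM_helper2_Final

/-!
# S28 package (A), part 9: the bridge `ι : ℚ((q)) → L((t))`, `q ↦ t^N`, between the Prelude function
field `F = ℚ(j(q^d) : d ∣ N)` and the field `M`

* `iotaF L N = qExpand L N ∘ coeffEmb L`;
* `iotaF_mem`: `ι(F) ⊆ M`;
* `realM_iotaF`: the realisation of `M` restricts to `realN` on `F`;
* `iotaF_coeff_minpoly_mem` (**A-final**): for a subring `S ⊆ L((t))` stable under `ρ` on `M`,
  `ι x ∈ S` implies `ι c ∈ S` for the coefficients `c` of the minimal polynomial of `x ∈ F` over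
  `ℚ(j)`;
* `exists_zeta`: the root of unity `ζ` exists as soon as `L` contains a primitive `N`-th root.
-/

set_option autoImplicit false

namespace Fermat.Agent.Igusa

open UpperHalfPlane hiding I
open Complex Filter Function Topology ModularCurve ModularForm IntermediateField
open Fermat.Agent.RatStr Fermat.Agent.X0N CongruenceSubgroup
open scoped Manifold MatrixGroups Real ModularForm

noncomputable section

/-- the base change of a field of rational Laurent series to `ℚ` is the field itself. -/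
theorem laurentBaseChange_rat (F₀ : IntermediateField ℚ (LaurentSeries ℚ)) :
    laurentBaseChange ℚ F₀ = F₀ := by
  have h : ∀ x : LaurentSeries ℚ, coeffEmb ℚ x = x := by
    intro x
    rw [coeffEmb]
    have : algebraMap ℚ ℚ = RingHom.id ℚ := Subsingleton.elim _ _
    rw [coeffMap_congr this, coeffMap_id]
  rw [laurentBaseChange]
  have : (⇑(coeffEmb ℚ) '' (F₀ : Set (LaurentSeries ℚ))) = (F₀ : Set (LaurentSeries ℚ)) := by
    ext x
    constructor
    · rintro ⟨y, hy, rfl⟩
      rw [h]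
      exact hy
    · intro hx
      exact ⟨x, hx, h x⟩
  rw [this, IntermediateField.adjoin_self]

/-- the subfield `k(j)` of the Prelude function field (with the instances of
`SYM_helper2_Final`). -/
abbrev fieldKJ (k : Type*) [Field k] [Algebra ℚ k] (N : ℕ) : IntermediateField k (FNk k N) :=
  k⟮jB (k := k) N⟯

theorem jB_mem_fieldKJ (k : Type*) [Field k] [Algebra ℚ k] (N : ℕ) :
    jB (k := k) N ∈ fieldKJ k N := IntermediateField.mem_adjoin_simple_self k _

/-- the `i`-th coefficient of the minimal polynomial of `x` over `k(j)` (with the instances of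
`SYM_helper2_Final`). -/
def minpolyCoeffJ (k : Type*) [Field k] [Algebra ℚ k] (N : ℕ) (x : FNk k N) (i : ℕ) : FNk k N :=
  (((minpoly (fieldKJ k N) x).coeff i : fieldKJ k N) : FNk k N)

section Iota

variable (L : Type*) [Field L] [Algebra ℚ L] (N : ℕ) [NeZero N]

/-- `ι : ℚ((q)) → L((t))`, `q ↦ t^N`. -/
def iotaF : LaurentSeries ℚ →+* LaurentSeries L := (qExpand L N).comp (coeffEmb L)

theorem iotaF_apply (x : LaurentSeries ℚ) : iotaF L N x = qExpand L N (coeffEmb L x) := rfl

theorem iotaF_injective : Function.Injective (iotaF L N) := (iotaF L N).injective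

theorem iotaF_algebraMap (c : ℚ) :
    iotaF L N (algebraMap ℚ (LaurentSeries ℚ) c) =
      algebraMap L (LaurentSeries L) (algebraMap ℚ L c) := by
  rw [iotaF_apply, coeffEmb_algebraMap_rat, algebraMap_laurentSeries_eq_single, qExpand_single,
    mul_zero, ← algebraMap_laurentSeries_eq_single]

theorem iotaF_jqd (d : ℕ) [NeZero d] [NeZero (N * d)] :
    iotaF L N (qExpand ℚ d jq) = qExpand L (N * d) (jqModC L) := by
  rw [iotaF_apply, coeffEmb, coeffMap_qExpand, ← jqModC_rat, coeffMap_jqModC, qExpand_qExpand]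

end Iota

section Bridge

variable {L : Type*} [Field L] [Algebra ℚ L] [Algebra L ℂ] {ζ : Lˣ} {N : ℕ} [NeZero N]

theorem iotaF_jqd_eq_xSer {d : ℕ} [NeZero d] (hd : d ∣ N) (h0 : 0 < d) :
    iotaF L N (qExpand ℚ d jq) = xSer L ζ N (Idx.diag N d hd h0) := by
  haveI : NeZero (N * d) := ⟨Nat.mul_ne_zero (NeZero.ne N) h0.ne'⟩
  rw [iotaF_jqd, xSer_diag]

/-- `ι(F) ⊆ M`. -/
theorem iotaF_mem {y : LaurentSeries ℚ} (hy : y ∈ modularFunctionFieldFull N) :
    iotaF L N y ∈ fieldM L ζ N := by
  rw [modularFunctionFieldFull] at hy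
  induction hy using IntermediateField.adjoin_induction with
  | mem x hx =>
    obtain ⟨d, hd0, hd, rfl⟩ := hx
    haveI := hd0
    rw [iotaF_jqd_eq_xSer (ζ := ζ) hd (Nat.pos_of_ne_zero (NeZero.ne d))]
    exact xSer_mem_fieldM _
  | algebraMap c =>
    rw [iotaF_algebraMap]
    exact (fieldM L ζ N).algebraMap_mem _
  | add x y _ _ hx hy => rw [map_add]; exact add_mem hx hy
  | mul x y _ _ hx hy => rw [map_mul]; exact mul_mem hx hy
  | inv x _ hx => rw [map_inv₀]; exact inv_mem hx

theorem iotaF_mem' (x : FNk ℚ N) : iotaF L N (x : LaurentSeries ℚ) ∈ fieldM L ζ N := by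
  apply iotaF_mem
  obtain ⟨x, hx⟩ := x
  have hx' := hx
  rw [laurentBaseChange_rat] at hx'
  exact hx'

variable (L ζ N) in
/-- `ι` as a ring homomorphism `F → M`. -/
def iotaFM : FNk ℚ N →+* ↥(fieldM L ζ N) where
  toFun x := ⟨iotaF L N (x : LaurentSeries ℚ), iotaF_mem' x⟩
  map_one' := Subtype.ext (by simp)
  map_mul' x y := Subtype.ext (by simp)
  map_zero' := Subtype.ext (by simp)
  map_add' x y := Subtype.ext (by simp)

@[simp] theorem coe_iotaFM (x : FNk ℚ N) :
    ((iotaFM L ζ N x : ↥(fieldM L ζ N)) : LaurentSeries L) = iotaF L N (x : LaurentSeries ℚ) := rfl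

theorem iotaFM_jdBar {d : ℕ} [NeZero d] (hd : d ∣ N) :
    iotaFM L ζ N (jdBar (k := ℚ) N hd) = xM (Idx.diag N d hd (Nat.pos_of_ne_zero (NeZero.ne d))) := by
  apply Subtype.ext
  rw [coe_iotaFM, coe_xM, ← iotaF_jqd_eq_xSer]
  congr 1

theorem jA_diag (d : ℕ) [NeZero d] (hd : d ∣ N) (h0 : 0 < d) :
    jA (Idx.diag N d hd h0) = jdHol d := by
  ext z
  rw [jA_apply, diag_toGL_eq_alphaN d hd h0, ← heckeDiagMatrix_eq_alphaN]
  rfl

variable (hζ : algebraMap L ℂ (ζ : L) = zetaH (N : ℝ))

include hζ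

/-- the realisation of `M` restricts to the realisation `realN` of the Prelude function field. -/
theorem realM_iotaF (x : FNk ℚ N) :
    realM hζ (iotaFM L ζ N x) = realN (algebraMap ℚ ℂ) N x := by
  induction x using modularFunctionField_induction with
  | hconst c =>
    have key : ∀ A : ℚ →+* FNk ℚ N,
        realM hζ (iotaFM L ζ N (A c)) = realN (algebraMap ℚ ℂ) N (A c) := fun A =>
      RingHom.congr_fun (Subsingleton.elim
        (((realM hζ).comp (iotaFM L ζ N)).comp A) ((realN (algebraMap ℚ ℂ) N).comp A)) c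
    exact key _
  | hgen d hd =>
    rw [iotaFM_jdBar, realM_xM, realN_jdBar, jA_diag]
  | hadd x y hx hy => rw [map_add, map_add, map_add, hx, hy]
  | hmul x y hx hy => rw [map_mul, map_mul, map_mul, hx, hy]
  | hinv x hx => rw [map_inv₀, map_inv₀, map_inv₀, hx]

/-- **(A-final)**, version for the type `FNk ℚ N`: descent of the coefficients of the minimal
polynomial over `ℚ(j)` to any subring of `L((t))` which is stable under `ρ`. -/
theorem iotaF_minpolyCoeffJ_mem (S : Subring (LaurentSeries L))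
    (hS : ∀ (γ : SL(2, ℤ)) (x : ↥(fieldM L ζ N)), (x : LaurentSeries L) ∈ S →
      ((rho hζ γ x : ↥(fieldM L ζ N)) : LaurentSeries L) ∈ S)
    (x : FNk ℚ N) (hx : iotaF L N (x : LaurentSeries ℚ) ∈ S) (i : ℕ) :
    iotaF L N ((minpolyCoeffJ ℚ N x i : FNk ℚ N) : LaurentSeries ℚ) ∈ S := by
  set S' : Subring MerH :=
    (S.comap (fieldM L ζ N).val.toRingHom).map (realM hζ) with hS'
  have h := realN_coeff_minpoly_mem' (k := ℚ) N x S' (by
    intro q
    rw [← realM_iotaF hζ x, conjM_realM]
    exact ⟨_, hS q.out _ hx, rfl⟩) i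
  rw [hS', Subring.mem_map] at h
  obtain ⟨y, hy, hyc⟩ := h
  rw [Subring.mem_comap] at hy
  rw [← realM_iotaF hζ] at hyc
  obtain rfl := realM_injective hζ hyc
  exact hy

omit hζ [Algebra ℚ L] in
/-- `ζ` exists as soon as `L` contains a primitive `N`-th root of unity. -/
theorem exists_zeta (h : ∃ z : L, IsPrimitiveRoot z N) :
    ∃ ζ : Lˣ, algebraMap L ℂ (ζ : L) = zetaH (N : ℝ) := by
  obtain ⟨z, hz⟩ := h
  have hz' : IsPrimitiveRoot (algebraMap L ℂ z) N := hz.map_of_injective (algebraMap L ℂ).injective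
  have hN : zetaH (N : ℝ) ^ N = 1 := zetaH_nat_pow_self N
  obtain ⟨i, -, hi⟩ := hz'.eq_pow_of_pow_eq_one hN
  have hz0 : z ≠ 0 := hz.ne_zero (NeZero.ne N)
  refine ⟨Units.mk0 (z ^ i) (pow_ne_zero _ hz0), ?_⟩
  rw [Units.val_mk0, map_pow, hi]

omit [Algebra ℚ L] in
/-- `ζ` is a primitive `N`-th root of unity. -/
theorem isPrimitiveRoot_zeta : IsPrimitiveRoot (ζ : L) N := by
  refine IsPrimitiveRoot.of_map_of_injective (f := algebraMap L ℂ) ?_ (algebraMap L ℂ).injective
  rw [hζ, zetaH]
  have := Complex.isPrimitiveRoot_exp N (NeZero.ne N)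
  convert this using 2
  push_cast
  rfl

end Bridge

end

end Fermat.Agent.Igusa
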