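/-
S28 (Igusa) — package (V), helper5.
(V5) The instance `R = ℤ_(ℓ) ⊂ ℚ` (`GaloisRep.ratLocalizedAt ℓ`): discrete valuation ring with
fraction field `ℚ`, uniformizer `ℓ`, residue field `𝔽_ℓ`.
-/
import Fermat.Agent.Igusa.V_helper5_Val
import Fermat.Prelude.Def_ModularCurve_IgusaScheme

set_option autoImplicit false
set_option linter.unusedSectionVars false

open ModularCurve

namespace Fermat.Agent.Igusa

noncomputable section

variable (ℓ : ℕ) [Fact ℓ.Prime]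

/-- the prime ideal `(ℓ)` of `ℤ` -/
abbrev ellIdeal (ℓ : ℕ) : Ideal ℤ := Ideal.span {(ℓ : ℤ)}

theorem ellIdeal_ne_bot : ellIdeal ℓ ≠ ⊥ := by
  rw [Ne, Ideal.span_singleton_eq_bot]
  exact_mod_cast (Fact.out : ℓ.Prime).ne_zero

instance isPrime_ellIdeal : (ellIdeal ℓ).IsPrime :=
  (Ideal.span_singleton_prime (by exact_mod_cast (Fact.out : ℓ.Prime).ne_zero)).2
    (Nat.prime_iff_prime_int.1 Fact.out)

instance isMaximal_ellIdeal : (ellIdeal ℓ).IsMaximal :=
  (isPrime_ellIdeal ℓ).isMaximal (ellIdeal_ne_bot ℓ)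

theorem mem_primeCompl_ellIdeal_iff {n : ℤ} :
    n ∈ (ellIdeal ℓ).primeCompl ↔ n.natAbs.Coprime ℓ := by
  rw [Ideal.mem_primeCompl_iff, Ideal.mem_span_singleton, Int.natCast_dvd, Nat.coprime_comm,
    (Fact.out : ℓ.Prime).coprime_iff_not_dvd]

theorem coe_algebraMap_int_zl (n : ℤ) :
    ((algebraMap ℤ (GaloisRep.ratLocalizedAt ℓ) n : GaloisRep.ratLocalizedAt ℓ) : ℚ) = (n : ℚ) := by
  rw [eq_intCast, Subring.coe_intCast]

instance isLocalization_atPrime_ratLocalizedAt :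
    IsLocalization.AtPrime (GaloisRep.ratLocalizedAt ℓ) (ellIdeal ℓ) where
  map_units := by
    rintro ⟨y, hy⟩
    have hy' : y.natAbs.Coprime ℓ := (mem_primeCompl_ellIdeal_iff ℓ).1 hy
    have hy0 : y ≠ 0 := by
      rintro rfl
      rw [Int.natAbs_zero, Nat.coprime_zero_left] at hy'
      exact (Fact.out : ℓ.Prime).one_lt.ne' hy'
    have hmem : ((y : ℚ))⁻¹ ∈ GaloisRep.ratLocalizedAt ℓ := by
      show ((y : ℚ))⁻¹.den.Coprime ℓ
      rw [Rat.inv_intCast_den, if_neg hy0]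
      exact hy'
    refine IsUnit.of_mul_eq_one ⟨(y : ℚ)⁻¹, hmem⟩ ?_
    apply Subtype.ext
    rw [Subring.coe_mul, coe_algebraMap_int_zl, Subring.coe_one]
    exact mul_inv_cancel₀ (Int.cast_ne_zero.mpr hy0)
  surj := by
    rintro ⟨q, hq⟩
    have hden : (q.den : ℤ) ∈ (ellIdeal ℓ).primeCompl := by
      rw [mem_primeCompl_ellIdeal_iff, Int.natAbs_natCast]
      exact hq
    refine ⟨(q.num, ⟨(q.den : ℤ), hden⟩), ?_⟩
    apply Subtype.ext
    rw [Subring.coe_mul, coe_algebraMap_int_zl, coe_algebraMap_int_zl]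
    simp [Rat.mul_den_eq_num q]
  exists_of_eq := by
    intro x y hxy
    refine ⟨1, ?_⟩
    have := congrArg (fun z : GaloisRep.ratLocalizedAt ℓ => (z : ℚ)) hxy
    simp only [coe_algebraMap_int_zl] at this
    rw [Int.cast_inj.mp this]

instance isFractionRing_ratLocalizedAt : IsFractionRing (GaloisRep.ratLocalizedAt ℓ) ℚ :=
  IsFractionRing.isFractionRing_of_isDomain_of_isLocalization (ellIdeal ℓ).primeCompl
    (GaloisRep.ratLocalizedAt ℓ) ℚ

instance isDiscreteValuationRing_ratLocalizedAt :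
    IsDiscreteValuationRing (GaloisRep.ratLocalizedAt ℓ) :=
  IsLocalization.AtPrime.isDiscreteValuationRing_of_dedekind_domain ℤ (ellIdeal_ne_bot ℓ)
    (GaloisRep.ratLocalizedAt ℓ)

/-- `ℓ` as an element of `ℤ_(ℓ)` -/
def ellZl (ℓ : ℕ) [Fact ℓ.Prime] : GaloisRep.ratLocalizedAt ℓ :=
  ((ℓ : ℕ) : GaloisRep.ratLocalizedAt ℓ)

theorem coe_ellZl : ((ellZl ℓ : GaloisRep.ratLocalizedAt ℓ) : ℚ) = (ℓ : ℚ) :=
  Subring.coe_natCast _ _

theorem algebraMap_ellZl : algebraMap ℤ (GaloisRep.ratLocalizedAt ℓ) (ℓ : ℤ) = ellZl ℓ := by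
  rw [ellZl, eq_intCast, Int.cast_natCast]

theorem maximalIdeal_ratLocalizedAt :
    IsLocalRing.maximalIdeal (GaloisRep.ratLocalizedAt ℓ) = Ideal.span {ellZl ℓ} := by
  rw [← IsLocalization.AtPrime.map_eq_maximalIdeal (ellIdeal ℓ) (GaloisRep.ratLocalizedAt ℓ),
    Ideal.map_span, Set.image_singleton, algebraMap_ellZl]

theorem irreducible_ellZl : Irreducible (ellZl ℓ) :=
  (IsDiscreteValuationRing.irreducible_iff_uniformizer _).2 (maximalIdeal_ratLocalizedAt ℓ)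

/-- the residue field of `ℤ_(ℓ)` is `𝔽_ℓ` -/
def residueFieldZlEquiv (ℓ : ℕ) [Fact ℓ.Prime] :
    IsLocalRing.ResidueField (GaloisRep.ratLocalizedAt ℓ) ≃+* ZMod ℓ :=
  (IsLocalization.AtPrime.equivQuotMaximalIdeal (ellIdeal ℓ) (GaloisRep.ratLocalizedAt ℓ)).symm.trans
    (Int.quotientSpanNatEquivZMod ℓ)

instance charP_residueField_ratLocalizedAt :
    CharP (IsLocalRing.ResidueField (GaloisRep.ratLocalizedAt ℓ)) ℓ :=
  charP_of_injective_ringHom (f := (residueFieldZlEquiv ℓ).symm.toRingHom)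
    (residueFieldZlEquiv ℓ).symm.injective ℓ

/-- the residue map to `𝔽_ℓ` -/
def residueZl (ℓ : ℕ) [Fact ℓ.Prime] : GaloisRep.ratLocalizedAt ℓ →+* ZMod ℓ :=
  (residueFieldZlEquiv ℓ).toRingHom.comp (IsLocalRing.residue _)

theorem residueZl_surjective : Function.Surjective (residueZl ℓ) :=
  (residueFieldZlEquiv ℓ).surjective.comp IsLocalRing.residue_surjective

theorem residueZl_eq_zero_iff (x : GaloisRep.ratLocalizedAt ℓ) :
    residueZl ℓ x = 0 ↔ ∃ y, x = ellZl ℓ * y := by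
  rw [residueZl, RingHom.comp_apply]
  show (residueFieldZlEquiv ℓ) _ = 0 ↔ _
  rw [map_eq_zero_iff _ (residueFieldZlEquiv ℓ).injective, IsLocalRing.residue_eq_zero_iff,
    maximalIdeal_ratLocalizedAt, Ideal.mem_span_singleton]
  exact Iff.rfl

end

end Fermat.Agent.Igusa
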