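/-
S28 (Igusa) — package (V), helper5.
(V6) Existence of the data `(L, R)`: `L = ℚ(ζ_N)`, `R = (𝓞_L)_λ` for a prime `λ ∣ ℓ`, the local
homomorphism `ℤ_(ℓ) → R`, the root of unity in `Rˣ`, unramifiedness of `ℓ ∤ N`, and the morphism of
Gauss data `ι : ℚ((q)) → L((t))`, `q ↦ t^N`.
-/
import Fermat.Agent.Igusa.V_helper5_GaussLemma
import Fermat.Agent.Igusa.V_helper5_Zl

set_option autoImplicit false
set_option linter.unusedSectionVars false

open ModularCurve Polynomial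

namespace Fermat.Agent.Igusa

noncomputable section

/-- reduction of a primitive root of unity in a local domain stays primitive when `N` is invertible
in the residue field -/
theorem residue_isPrimitiveRoot {A : Type*} [CommRing A] [IsDomain A] [IsLocalRing A] {N : ℕ}
    {ζ : A} (hζ : IsPrimitiveRoot ζ N) (hN : (N : IsLocalRing.ResidueField A) ≠ 0) :
    IsPrimitiveRoot (IsLocalRing.residue A ζ) N := by
  have hN0 : N ≠ 0 := by
    rintro rfl
    exact hN Nat.cast_zero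
  obtain ⟨n, rfl⟩ := Nat.exists_eq_succ_of_ne_zero hN0
  have hpow : IsLocalRing.residue A ζ ^ (n + 1) = 1 := by
    rw [← map_pow, hζ.pow_eq_one, map_one]
  refine IsPrimitiveRoot.mk_of_lt _ (Nat.succ_pos n) hpow ?_
  intro l hl0 hl h1
  -- `1 - ζ^l` lies in the maximal ideal, and divides `n + 1`
  obtain ⟨k, rfl⟩ := Nat.exists_eq_succ_of_ne_zero hl0.ne'
  have hk : k ∈ Finset.range n := Finset.mem_range.2 (by omega)
  have hprod := hζ.prod_one_sub_pow_eq_order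
  have hdvd : (1 - ζ ^ (k + 1)) ∣ ((n : A) + 1) := by
    rw [← hprod]
    exact Finset.dvd_prod_of_mem _ hk
  have hmem : (1 - ζ ^ (k + 1)) ∈ IsLocalRing.maximalIdeal A := by
    rw [← IsLocalRing.residue_eq_zero_iff, map_sub, map_one, map_pow, h1, sub_self]
  have hmem2 : ((n : A) + 1) ∈ IsLocalRing.maximalIdeal A := by
    obtain ⟨c, hc⟩ := hdvd
    rw [hc]
    exact Ideal.mul_mem_right _ _ hmem
  apply hN
  rw [← IsLocalRing.residue_eq_zero_iff] at hmem2
  rw [Nat.cast_succ, ← hmem2, map_add, map_natCast, map_one]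

variable (N : ℕ) [NeZero N] (ℓ : ℕ) [Fact ℓ.Prime]

/-- `L = ℚ(ζ_N)` -/
abbrev cycL : Type := CyclotomicField N ℚ

instance isCyclotomicExtension_cycL : IsCyclotomicExtension {N} ℚ (cycL N) :=
  (inferInstance :
    @IsCyclotomicExtension {N} ℚ (CyclotomicField N ℚ) _ _ (CyclotomicField.algebra N ℚ))

/-- a prime of `𝓞_L` above `ℓ` -/
def cycPrime (N : ℕ) [NeZero N] (ℓ : ℕ) [Fact ℓ.Prime] :
    Ideal (NumberField.RingOfIntegers (cycL N)) :=
  ((ellIdeal ℓ).nonempty_primesOver (S := NumberField.RingOfIntegers (cycL N))).some.1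

instance isPrime_cycPrime : (cycPrime N ℓ).IsPrime :=
  ((ellIdeal ℓ).nonempty_primesOver (S := NumberField.RingOfIntegers (cycL N))).some.2.1

instance liesOver_cycPrime : (cycPrime N ℓ).LiesOver (ellIdeal ℓ) :=
  ((ellIdeal ℓ).nonempty_primesOver (S := NumberField.RingOfIntegers (cycL N))).some.2.2

theorem natCast_mem_cycPrime : (ℓ : NumberField.RingOfIntegers (cycL N)) ∈ cycPrime N ℓ := by
  have h : (ℓ : ℤ) ∈ ellIdeal ℓ := Ideal.mem_span_singleton_self _
  rw [(liesOver_cycPrime N ℓ).over, Ideal.under_def, Ideal.mem_comap] at h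
  simpa using h

theorem cycPrime_ne_bot : cycPrime N ℓ ≠ ⊥ := by
  intro h
  have h1 := natCast_mem_cycPrime N ℓ
  rw [h, Ideal.mem_bot] at h1
  exact (Fact.out : ℓ.Prime).ne_zero (by exact_mod_cast h1)

instance isMaximal_cycPrime : (cycPrime N ℓ).IsMaximal :=
  (isPrime_cycPrime N ℓ).isMaximal (cycPrime_ne_bot N ℓ)

/-- `R = (𝓞_L)_λ` -/
abbrev cycR (N : ℕ) [NeZero N] (ℓ : ℕ) [Fact ℓ.Prime] : Type :=
  Localization.AtPrime (cycPrime N ℓ)

instance isDomain_cycR : IsDomain (cycR N ℓ) := inferInstance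

instance isDiscreteValuationRing_cycR : IsDiscreteValuationRing (cycR N ℓ) :=
  IsLocalization.AtPrime.isDiscreteValuationRing_of_dedekind_domain
    (NumberField.RingOfIntegers (cycL N)) (cycPrime_ne_bot N ℓ) (cycR N ℓ)

instance cycAlgebra : Algebra (cycR N ℓ) (cycL N) :=
  IsLocalization.localizationAlgebraOfSubmonoidLe (cycR N ℓ) (cycL N) (cycPrime N ℓ).primeCompl
    (nonZeroDivisors (NumberField.RingOfIntegers (cycL N)))
    (cycPrime N ℓ).primeCompl_le_nonZeroDivisors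

instance isScalarTower_cycR :
    IsScalarTower (NumberField.RingOfIntegers (cycL N)) (cycR N ℓ) (cycL N) :=
  IsLocalization.localization_isScalarTower_of_submonoid_le (cycR N ℓ) (cycL N)
    (cycPrime N ℓ).primeCompl (nonZeroDivisors (NumberField.RingOfIntegers (cycL N)))
    (cycPrime N ℓ).primeCompl_le_nonZeroDivisors

instance isFractionRing_cycR : IsFractionRing (cycR N ℓ) (cycL N) :=
  IsFractionRing.isFractionRing_of_isDomain_of_isLocalization (cycPrime N ℓ).primeCompl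
    (cycR N ℓ) (cycL N)

theorem natCast_mem_maximalIdeal_cycR :
    ((ℓ : ℕ) : cycR N ℓ) ∈ IsLocalRing.maximalIdeal (cycR N ℓ) := by
  have h := (IsLocalization.AtPrime.to_map_mem_maximal_iff (cycR N ℓ) (cycPrime N ℓ)
    (ℓ : NumberField.RingOfIntegers (cycL N))).2 (natCast_mem_cycPrime N ℓ)
  rwa [map_natCast] at h

instance charP_residueField_cycR : CharP (IsLocalRing.ResidueField (cycR N ℓ)) ℓ := by
  obtain ⟨p, hp⟩ := CharP.exists (IsLocalRing.ResidueField (cycR N ℓ))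
  have h0 : ((ℓ : ℕ) : IsLocalRing.ResidueField (cycR N ℓ)) = 0 := by
    rw [← map_natCast (IsLocalRing.residue (cycR N ℓ)), IsLocalRing.residue_eq_zero_iff]
    exact natCast_mem_maximalIdeal_cycR N ℓ
  have hdvd : p ∣ ℓ := (CharP.cast_eq_zero_iff _ p ℓ).1 h0
  rcases (Nat.dvd_prime (Fact.out : ℓ.Prime)).1 hdvd with h1 | h1
  · exact absurd h1 (CharP.char_ne_one (IsLocalRing.ResidueField (cycR N ℓ)) p)
  · rwa [h1] at hp

theorem algebraMap_int_notMem_cycPrime {n : ℤ} (hn : n ∈ (ellIdeal ℓ).primeCompl) :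
    algebraMap ℤ (NumberField.RingOfIntegers (cycL N)) n ∈ (cycPrime N ℓ).primeCompl := by
  intro h
  apply hn
  have h' : n ∈ Ideal.comap (algebraMap ℤ (NumberField.RingOfIntegers (cycL N))) (cycPrime N ℓ) :=
    Ideal.mem_comap.2 h
  rw [(liesOver_cycPrime N ℓ).over, Ideal.under_def]
  exact h'

/-- `ℤ_(ℓ) → R` -/
def zlToCycR (N : ℕ) [NeZero N] (ℓ : ℕ) [Fact ℓ.Prime] :
    GaloisRep.ratLocalizedAt ℓ →+* cycR N ℓ :=
  IsLocalization.lift (M := (ellIdeal ℓ).primeCompl) (S := GaloisRep.ratLocalizedAt ℓ)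
    (g := algebraMap ℤ (cycR N ℓ)) (fun y => by
      rw [IsScalarTower.algebraMap_apply ℤ (NumberField.RingOfIntegers (cycL N)) (cycR N ℓ)]
      exact IsLocalization.map_units (cycR N ℓ)
        (⟨_, algebraMap_int_notMem_cycPrime N ℓ y.2⟩ : (cycPrime N ℓ).primeCompl))

theorem zlToCycR_ellZl : zlToCycR N ℓ (ellZl ℓ) = ((ℓ : ℕ) : cycR N ℓ) := by
  rw [ellZl, map_natCast]

instance isLocalHom_zlToCycR : IsLocalHom (zlToCycR N ℓ) := by
  constructor
  intro a ha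
  by_contra hna
  have h1 : a ∈ IsLocalRing.maximalIdeal (GaloisRep.ratLocalizedAt ℓ) :=
    (IsLocalRing.mem_maximalIdeal a).2 hna
  rw [maximalIdeal_ratLocalizedAt, Ideal.mem_span_singleton] at h1
  obtain ⟨b, rfl⟩ := h1
  rw [map_mul, zlToCycR_ellZl] at ha
  have h2 : ((ℓ : ℕ) : cycR N ℓ) * zlToCycR N ℓ b ∈ IsLocalRing.maximalIdeal (cycR N ℓ) :=
    Ideal.mul_mem_right _ _ (natCast_mem_maximalIdeal_cycR N ℓ)
  exact (IsLocalRing.mem_maximalIdeal _).1 h2 ha

theorem algebraMap_zlToCycR (x : GaloisRep.ratLocalizedAt ℓ) :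
    algebraMap (cycR N ℓ) (cycL N) (zlToCycR N ℓ x) = algebraMap ℚ (cycL N) (x : ℚ) := by
  have h : (algebraMap (cycR N ℓ) (cycL N)).comp (zlToCycR N ℓ) =
      (algebraMap ℚ (cycL N)).comp (algebraMap (GaloisRep.ratLocalizedAt ℓ) ℚ) := by
    apply IsLocalization.ringHom_ext (ellIdeal ℓ).primeCompl
    exact RingHom.ext_int _ _
  exact congrArg (fun φ => φ x) h

/-- every element of `L` integral over `ℤ` lies in `R` -/
theorem exists_cycR_of_isIntegral {x : cycL N} (hx : IsIntegral ℤ x) :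
    ∃ r : cycR N ℓ, algebraMap (cycR N ℓ) (cycL N) r = x := by
  refine ⟨algebraMap (NumberField.RingOfIntegers (cycL N)) (cycR N ℓ) ⟨x, hx⟩, ?_⟩
  rw [← IsScalarTower.algebraMap_apply]
  rfl

/-- the primitive `N`-th root of unity in `𝓞_L` -/
def cycZetaInt (N : ℕ) [NeZero N] : NumberField.RingOfIntegers (cycL N) :=
  (IsCyclotomicExtension.zeta_spec N ℚ (cycL N)).toInteger

theorem cycZetaInt_isPrimitiveRoot : IsPrimitiveRoot (cycZetaInt N) N :=
  (IsCyclotomicExtension.zeta_spec N ℚ (cycL N)).toInteger_isPrimitiveRoot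

theorem algebraMap_cycR_injective : Function.Injective (algebraMap (cycR N ℓ) (cycL N)) :=
  IsFractionRing.injective _ _

theorem algebraMap_int_cycR_injective :
    Function.Injective (algebraMap (NumberField.RingOfIntegers (cycL N)) (cycR N ℓ)) :=
  IsLocalization.injective (cycR N ℓ) (cycPrime N ℓ).primeCompl_le_nonZeroDivisors

/-- the primitive `N`-th root of unity `ζ ∈ Rˣ` -/
def cycZeta (N : ℕ) [NeZero N] (ℓ : ℕ) [Fact ℓ.Prime] : (cycR N ℓ)ˣ :=
  Units.ofPowEqOne (algebraMap (NumberField.RingOfIntegers (cycL N)) (cycR N ℓ) (cycZetaInt N)) N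
    (by rw [← map_pow, (cycZetaInt_isPrimitiveRoot N).pow_eq_one, map_one]) (NeZero.ne N)

theorem coe_cycZeta : (cycZeta N ℓ : cycR N ℓ) =
    algebraMap (NumberField.RingOfIntegers (cycL N)) (cycR N ℓ) (cycZetaInt N) := rfl

theorem cycZeta_isPrimitiveRoot : IsPrimitiveRoot (cycZeta N ℓ : cycR N ℓ) N := by
  rw [coe_cycZeta]
  exact (cycZetaInt_isPrimitiveRoot N).map_of_injective (algebraMap_int_cycR_injective N ℓ)

theorem algebraMap_cycZeta_isPrimitiveRoot :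
    IsPrimitiveRoot (algebraMap (cycR N ℓ) (cycL N) (cycZeta N ℓ)) N :=
  (cycZeta_isPrimitiveRoot N ℓ).map_of_injective (algebraMap_cycR_injective N ℓ)

theorem natCast_residueField_cycR_ne_zero (hℓN : ¬ ℓ ∣ N) :
    (N : IsLocalRing.ResidueField (cycR N ℓ)) ≠ 0 := by
  rw [Ne, CharP.cast_eq_zero_iff (IsLocalRing.ResidueField (cycR N ℓ)) ℓ]
  exact hℓN

/-- `ζ̄` has exact order `N` in the residue field (`ℓ ∤ N`) -/
theorem residue_cycZeta_isPrimitiveRoot (hℓN : ¬ ℓ ∣ N) :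
    IsPrimitiveRoot (IsLocalRing.residue (cycR N ℓ) (cycZeta N ℓ)) N :=
  residue_isPrimitiveRoot (cycZeta_isPrimitiveRoot N ℓ) (natCast_residueField_cycR_ne_zero N ℓ hℓN)

/-- for `ℓ ∤ N` the prime `ℓ` is unramified in `ℚ(ζ_N)`: `ℓ` generates the maximal ideal of `R` -/
theorem maximalIdeal_cycR (hℓN : ¬ ℓ ∣ N) :
    IsLocalRing.maximalIdeal (cycR N ℓ) = Ideal.span {((ℓ : ℕ) : cycR N ℓ)} := by
  have h := IsCyclotomicExtension.Rat.ramificationIdx_eq_of_not_dvd ℓ (cycL N) (cycPrime N ℓ)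
    (m := N) hℓN
  rw [Ideal.ramificationIdx_eq (ellIdeal ℓ) (cycPrime N ℓ), ENat.toNat_eq_iff_eq_natCast,
    Nat.cast_one, Module.length_eq_one_iff, isSimpleModule_iff_isCoatom, ← Ideal.isMaximal_def,
    IsLocalRing.isMaximal_iff] at h
  rw [← h, Ideal.map_span, Set.image_singleton]
  congr 2
  rw [eq_intCast, Int.cast_natCast]

/-- for `ℓ ∤ N` the prime `ℓ` is unramified in `ℚ(ζ_N)`: `ℓ` is a uniformizer of `R` -/
theorem irreducible_natCast_cycR (hℓN : ¬ ℓ ∣ N) : Irreducible ((ℓ : ℕ) : cycR N ℓ) :=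
  (IsDiscreteValuationRing.irreducible_iff_uniformizer _).2 (maximalIdeal_cycR N ℓ hℓN)

/-- `ι : ℚ((q)) → L((t))`, `q ↦ t^N`, as a morphism of Gauss data `(ℤ_(ℓ), ℚ) → (R, L)` -/
def gaussHomIota (N : ℕ) [NeZero N] (ℓ : ℕ) [Fact ℓ.Prime] :
    GaussHom (GaloisRep.ratLocalizedAt ℓ) ℚ (cycR N ℓ) (cycL N) :=
  (gaussHomQExpand (cycR N ℓ) (cycL N) N).comp
    (gaussHomBaseChange (zlToCycR N ℓ) (algebraMap ℚ (cycL N))
      (fun r => (algebraMap_zlToCycR N ℓ r).symm))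

theorem gaussHomIota_σL (x : LaurentSeries ℚ) :
    (gaussHomIota N ℓ).σL x = qExpand (cycL N) N (coeffMap (algebraMap ℚ (cycL N)) x) := rfl

theorem gaussHomIota_σW (x : LaurentSeries (GaloisRep.ratLocalizedAt ℓ)) :
    (gaussHomIota N ℓ).σW x = qExpand (cycR N ℓ) N (coeffMap (zlToCycR N ℓ) x) := rfl

theorem gaussHomIota_σk (x : LaurentSeries (IsLocalRing.ResidueField (GaloisRep.ratLocalizedAt ℓ))) :
    (gaussHomIota N ℓ).σk x =
      qExpand _ N (coeffMap (IsLocalRing.ResidueField.map (zlToCycR N ℓ)) x) := rfl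

/-- PACKAGED GAUSS LEMMA over `ℤ_(ℓ)`: `s ∈ 𝒲_ℚ` with transcendental reduction (e.g. `s = j` or
`j⁻¹`), `ℓ^n c = P(s)` with `P ∈ ℤ_(ℓ)[X]`, and `ι c` integral in `L((t))`. Then `c ∈ ℤ_(ℓ)[s]`. -/
theorem mem_adjoin_of_iota_mem {s : LaurentSeries ℚ}
    (hs : s ∈ gaussInt (GaloisRep.ratLocalizedAt ℓ) ℚ)
    (hst : Transcendental (IsLocalRing.ResidueField (GaloisRep.ratLocalizedAt ℓ))
      (gaussRed (GaloisRep.ratLocalizedAt ℓ) ℚ ⟨s, hs⟩))
    {c : LaurentSeries ℚ} (n : ℕ) (P : (GaloisRep.ratLocalizedAt ℓ)[X])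
    (h : constR (R := GaloisRep.ratLocalizedAt ℓ) (L := ℚ) (ellZl ℓ) ^ n * c = P.eval₂ constR s)
    (hc : qExpand (cycL N) N (coeffMap (algebraMap ℚ (cycL N)) c) ∈
      gaussInt (cycR N ℓ) (cycL N)) :
    ∃ Q : (GaloisRep.ratLocalizedAt ℓ)[X], c = Q.eval₂ constR s :=
  mem_adjoin_of_map_mem (gaussHomIota N ℓ) (irreducible_ellZl ℓ) hs hst n P h hc

end

end Fermat.Agent.Igusa
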