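import Mathlib

/-!
# (S) A subgroup of `SL(2,ℤ)` containing `T`, `Γ(N)` and, for every prime `r ∣ N`, an element whose
lower-left entry is prime to `r`, is everything.
-/

set_option autoImplicit false

namespace Fermat.Agent.Igusa

open Matrix ModularGroup MatrixGroups

/-- The lower unipotent matrix `(1 0; n 1)`. -/
def lowerU (n : ℤ) : SL(2, ℤ) :=
  ⟨!![1, 0; n, 1], by simp [Matrix.det_fin_two]⟩

@[simp] theorem lowerU_coe (n : ℤ) : (lowerU n : Matrix (Fin 2) (Fin 2) ℤ) = !![1, 0; n, 1] := rfl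

theorem lowerU_add (m n : ℤ) : lowerU (m + n) = lowerU m * lowerU n := by
  ext i j
  fin_cases i <;> fin_cases j <;> simp [lowerU, Matrix.mul_apply, Fin.sum_univ_two, add_comm]

theorem lowerU_zero : lowerU 0 = 1 := by
  ext i j
  fin_cases i <;> fin_cases j <;> simp [lowerU]

theorem lowerU_neg (n : ℤ) : lowerU (-n) = (lowerU n)⁻¹ := by
  rw [eq_inv_iff_mul_eq_one, ← lowerU_add, neg_add_cancel, lowerU_zero]

/-- `S = T⁻¹ * L * T⁻¹` with `L = lowerU 1`. -/
theorem S_eq_T_inv_lowerU_T_inv : S = T⁻¹ * lowerU 1 * T⁻¹ := by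
  ext i j
  have hT : ((T⁻¹ : SL(2, ℤ)) : Matrix (Fin 2) (Fin 2) ℤ) = !![1, -1; 0, 1] := by
    rw [← _root_.zpow_neg_one, coe_T_zpow]
  fin_cases i <;> fin_cases j <;>
    simp [Matrix.SpecialLinearGroup.coe_mul, hT, Matrix.mul_apply, Fin.sum_univ_two, S]

/-- the additive subgroup of those `n` with `lowerU n ∈ H`. -/
def lowerSet (H : Subgroup SL(2, ℤ)) : AddSubgroup ℤ where
  carrier := {n | lowerU n ∈ H}
  zero_mem' := by simp only [Set.mem_ofPred_eq, lowerU_zero]; exact H.one_mem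
  add_mem' := by
    intro a b ha hb
    simp only [Set.mem_ofPred_eq] at ha hb ⊢
    rw [lowerU_add]; exact H.mul_mem ha hb
  neg_mem' := by
    intro a ha
    simp only [Set.mem_ofPred_eq] at ha ⊢
    rw [lowerU_neg]; exact H.inv_mem ha

theorem mem_lowerSet {H : Subgroup SL(2, ℤ)} {n : ℤ} : n ∈ lowerSet H ↔ lowerU n ∈ H := Iff.rfl

/-- Two elements of `SL(2,ℤ)` congruent mod `N` differ by an element of `Γ(N)`. -/
theorem mul_inv_mem_Gamma_of_congr (N : ℕ) (g h : SL(2, ℤ))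
    (hc : ∀ i j, ((g i j : ℤ) : ZMod N) = ((h i j : ℤ) : ZMod N)) :
    g * h⁻¹ ∈ CongruenceSubgroup.Gamma N := by
  rw [CongruenceSubgroup.Gamma, MonoidHom.mem_ker]
  rw [map_mul, map_inv, mul_inv_eq_one]
  ext i j
  simp only [Matrix.SpecialLinearGroup.map_apply_coe, RingHom.mapMatrix_apply, Int.coe_castRingHom,
    Matrix.map_apply]
  exact hc i j

/-- Key computation: for `g = (a b; c d) ∈ SL(2,ℤ)`, `g * T^e * g⁻¹ = 1 + e (−ac, a²; −c², ac)`. -/
theorem conj_T_zpow (g : SL(2, ℤ)) (e : ℤ) :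
    ((g * T ^ e * g⁻¹ : SL(2, ℤ)) : Matrix (Fin 2) (Fin 2) ℤ) =
      !![1 - e * (g 0 0 * g 1 0), e * (g 0 0 * g 0 0); -(e * (g 1 0 * g 1 0)), 1 + e * (g 0 0 * g 1 0)] := by
  have hdet : g 0 0 * g 1 1 - g 0 1 * g 1 0 = 1 := by
    have := g.det_coe
    rwa [Matrix.det_fin_two] at this
  rw [Matrix.SpecialLinearGroup.coe_mul, Matrix.SpecialLinearGroup.coe_mul, coe_T_zpow,
    Matrix.SpecialLinearGroup.coe_inv, Matrix.adjugate_fin_two]
  ext i j
  fin_cases i <;> fin_cases j <;>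
    simp [Matrix.mul_apply, Fin.sum_univ_two]
  · linear_combination hdet
  · ring
  · ring
  · linear_combination hdet

/-- **Group theory for Igusa's theorem.** -/
theorem subgroup_eq_top_of_T_mem (N : ℕ) [NeZero N] (H : Subgroup SL(2, ℤ))
    (hT : T ∈ H) (hΓ : CongruenceSubgroup.Gamma N ≤ H)
    (hr : ∀ r : ℕ, r.Prime → r ∣ N → ∃ g ∈ H, ¬ (r : ℤ) ∣ (g : Matrix (Fin 2) (Fin 2) ℤ) 1 0) :
    H = ⊤ := by
  -- it suffices to show `lowerU 1 ∈ H`
  suffices h1 : (1 : ℤ) ∈ lowerSet H by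
    rw [eq_top_iff, ← SpecialLinearGroup.SL2Z_generators, Subgroup.closure_le]
    rintro x (rfl | rfl)
    · rw [S_eq_T_inv_lowerU_T_inv]
      exact H.mul_mem (H.mul_mem (H.inv_mem hT) h1) (H.inv_mem hT)
    · exact hT
  -- the subgroup `lowerSet H` of `ℤ` is `dℤ`
  obtain ⟨d, hd⟩ : ∃ d : ℤ, lowerSet H = AddSubgroup.zmultiples d := by
    obtain ⟨d, hd⟩ := Int.subgroup_cyclic (lowerSet H)
    exact ⟨d, by rw [hd, AddSubgroup.zmultiples_eq_closure]⟩
  -- `N ∈ lowerSet H`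
  have hN : (N : ℤ) ∈ lowerSet H := by
    rw [mem_lowerSet]
    apply hΓ
    rw [CongruenceSubgroup.Gamma_mem]
    simp [lowerU]
  have hdN : d ∣ (N : ℤ) := by
    rw [hd, AddSubgroup.mem_zmultiples_iff] at hN
    obtain ⟨k, hk⟩ := hN
    exact ⟨k, by rw [← hk]; simp [mul_comm]⟩
  -- if `d` is a unit we are done
  by_cases hdu : IsUnit d
  · rw [hd, AddSubgroup.mem_zmultiples_iff]
    rcases Int.isUnit_iff.mp hdu with h | h
    · exact ⟨1, by simp [h]⟩
    · exact ⟨-1, by simp [h]⟩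
  exfalso
  -- pick a prime `r ∣ d`
  have hd0 : d ≠ 0 := by
    rintro rfl
    rw [zero_dvd_iff] at hdN
    exact NeZero.ne N (by exact_mod_cast hdN)
  have hnat : d.natAbs ≠ 1 := fun h => hdu (Int.isUnit_iff_natAbs_eq.mpr h)
  obtain ⟨r, hrp, hrd⟩ := Nat.exists_prime_and_dvd hnat
  have hrd' : (r : ℤ) ∣ d := Int.natCast_dvd.mpr hrd
  have hrN : r ∣ N := by
    have := hrd'.trans hdN
    exact_mod_cast this
  obtain ⟨g, hgH, hgc⟩ := hr r hrp hrN
  -- write `N = r^k * N'` with `r ∤ N'`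
  obtain ⟨k, N', hN', hNeq⟩ := Nat.exists_eq_pow_mul_and_not_dvd (NeZero.ne N) r hrp.ne_one
  have hcop : IsCoprime ((r : ℤ) ^ k) (N' : ℤ) := by
    have : Nat.Coprime (r ^ k) N' := Nat.Coprime.pow_left k ((Nat.Prime.coprime_iff_not_dvd hrp).mpr hN')
    exact_mod_cast Nat.isCoprime_iff_coprime.mpr this
  obtain ⟨u, v, huv⟩ := hcop
  -- `e := v * N'` is `≡ 1 mod r^k`, `≡ 0 mod N'`
  set e : ℤ := v * N' with he
  have he1 : e = 1 - u * (r : ℤ) ^ k := by rw [he]; linear_combination huv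
  -- `c := g 1 0` is invertible mod `r^k`
  set c : ℤ := (g : Matrix (Fin 2) (Fin 2) ℤ) 1 0 with hc
  set a : ℤ := (g : Matrix (Fin 2) (Fin 2) ℤ) 0 0 with ha
  have hcr : IsCoprime c ((r : ℤ) ^ k) := by
    apply IsCoprime.pow_right
    rw [isCoprime_comm]
    exact (Int.prime_iff_natAbs_prime.mpr (by simpa using hrp)).coprime_iff_not_dvd.mpr hgc
  obtain ⟨u', v', huv'⟩ := hcr
  -- `m := -a u'`: then `a + m c = a v' r^k`
  set m : ℤ := -(a * u') with hm
  set g' : SL(2, ℤ) := T ^ m * g with hg'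
  have hg'H : g' ∈ H := H.mul_mem (H.zpow_mem hT m) hgH
  have hg'00 : (g' : Matrix (Fin 2) (Fin 2) ℤ) 0 0 = a * v' * (r : ℤ) ^ k := by
    rw [hg', Matrix.SpecialLinearGroup.coe_mul, coe_T_zpow]
    simp only [Matrix.mul_apply, Fin.sum_univ_two, Matrix.of_apply, Matrix.cons_val', Matrix.cons_val_zero,
      Matrix.cons_val_one, Matrix.cons_val_fin_one]
    rw [← ha, ← hc, hm]
    linear_combination (-a) * huv'
  have hg'10 : (g' : Matrix (Fin 2) (Fin 2) ℤ) 1 0 = c := by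
    rw [hg', Matrix.SpecialLinearGroup.coe_mul, coe_T_zpow]
    simp [Matrix.mul_apply, Fin.sum_univ_two, hc]
  set h : SL(2, ℤ) := g' * T ^ e * g'⁻¹ with hh
  have hhH : h ∈ H := H.mul_mem (H.mul_mem hg'H (H.zpow_mem hT e)) (H.inv_mem hg'H)
  set n : ℤ := -(e * (c * c)) with hn
  -- `h ≡ lowerU n mod N`
  have hcong : h * (lowerU n)⁻¹ ∈ CongruenceSubgroup.Gamma N := by
    apply mul_inv_mem_Gamma_of_congr
    have hmat := conj_T_zpow g' e
    rw [← hh] at hmat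
    have hNdvd : (N : ℤ) ∣ e * (g' : Matrix (Fin 2) (Fin 2) ℤ) 0 0 := by
      rw [hg'00, he, hNeq]
      push_cast
      exact ⟨v * (a * v'), by ring⟩
    intro i j
    rw [hmat, lowerU_coe]
    fin_cases i <;> fin_cases j
    · simp only [Fin.zero_eta, Fin.isValue, Matrix.of_apply, Matrix.cons_val', Matrix.cons_val_zero,
        Matrix.cons_val_fin_one]
      rw [Int.cast_sub, sub_eq_self, ← mul_assoc, Int.cast_mul,
        (ZMod.intCast_zmod_eq_zero_iff_dvd _ N).mpr hNdvd, zero_mul]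
    · simp only [Fin.zero_eta, Fin.isValue, Fin.mk_one, Matrix.of_apply, Matrix.cons_val', Matrix.cons_val_one,
        Matrix.cons_val_zero, Matrix.cons_val_fin_one]
      rw [← mul_assoc, Int.cast_mul, (ZMod.intCast_zmod_eq_zero_iff_dvd _ N).mpr hNdvd, zero_mul,
        Int.cast_zero]
    · simp only [Fin.mk_one, Fin.isValue, Fin.zero_eta, Matrix.of_apply, Matrix.cons_val', Matrix.cons_val_zero,
        Matrix.cons_val_one, Matrix.cons_val_fin_one]
      rw [hg'10, hn]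
    · simp only [Fin.mk_one, Fin.isValue, Matrix.of_apply, Matrix.cons_val', Matrix.cons_val_one,
        Matrix.cons_val_fin_one]
      rw [Int.cast_add, add_eq_left, ← mul_assoc, Int.cast_mul,
        (ZMod.intCast_zmod_eq_zero_iff_dvd _ N).mpr hNdvd, zero_mul]
  have hnH : n ∈ lowerSet H := by
    rw [mem_lowerSet]
    have h2 : lowerU n = (h * (lowerU n)⁻¹)⁻¹ * h := by group
    rw [h2]
    exact H.mul_mem (H.inv_mem (hΓ hcong)) hhH
  -- hence `r ∣ n`, contradiction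
  rw [hd, AddSubgroup.mem_zmultiples_iff] at hnH
  obtain ⟨q, hq⟩ := hnH
  have hrn : (r : ℤ) ∣ n := by
    rw [← hq, smul_eq_mul]
    exact Dvd.dvd.mul_left hrd' q
  have hk0 : k ≠ 0 := by
    rintro rfl
    rw [pow_zero, one_mul] at hNeq
    exact hN' (hNeq ▸ hrN)
  have hre : (r : ℤ) ∣ e - 1 := by
    rw [he1]
    exact ⟨-(u * (r : ℤ) ^ (k - 1)), by
      have : (r : ℤ) ^ k = (r : ℤ) * (r : ℤ) ^ (k - 1) := by
        rw [← pow_succ', Nat.sub_add_cancel (Nat.one_le_iff_ne_zero.mpr hk0)]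
      rw [this]; ring⟩
  have hrcc : (r : ℤ) ∣ c * c := by
    have h3 : c * c = -n - (e - 1) * (c * c) := by rw [hn]; ring
    rw [h3]
    exact dvd_sub (Dvd.dvd.neg_right hrn) (Dvd.dvd.mul_right hre _)
  have hrprime : Prime (r : ℤ) := Nat.prime_iff_prime_int.mp hrp
  rcases hrprime.dvd_or_dvd hrcc with h4 | h4 <;> exact hgc h4

end Fermat.Agent.Igusa
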