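import Mathlib
import Fermat.Agent.Igusa.S_lead_SL2

/-!
# (D) The decomposition group argument (abstract form)

`G` a finite group acting on `B` with invariants `A`; `Q` a maximal ideal of `B` over the maximal
ideal `P` of `A`; `ρ : SL(2,ℤ) →* G` surjective.  If `ρ T` fixes `Q`, `Γ(N) ≤ ker ρ`, and for every
prime `r ∣ N` there is a `ρ(Γ₀(r))`-fixed `φ ∈ B` whose residue class is not purely inseparable over
`A/P`, then every `ρ γ` fixes `Q`.
-/

set_option autoImplicit false

namespace Fermat.Agent.Igusa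

open scoped Pointwise MatrixGroups
open ModularGroup

section PurelyInsep

variable {F E : Type*} [Field F] [Field E] [Algebra F E] [Normal F E]

/-- In a normal extension, an element fixed by all automorphisms is purely inseparable over the
base. -/
theorem exists_pow_mem_range_of_forall_algEquiv_fixed (q : ℕ) [ExpChar F q] (x : E)
    (hx : ∀ σ : E ≃ₐ[F] E, σ x = x) : ∃ n : ℕ, x ^ q ^ n ∈ (algebraMap F E).range := by
  classical
  rw [← minpoly.natSepDegree_eq_one_iff_pow_mem q]
  have halg : IsAlgebraic F x := Algebra.IsAlgebraic.isAlgebraic x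
  have hsplits := Normal.splits (inferInstance : Normal F E) x
  rw [Polynomial.natSepDegree_eq_of_splits _ hsplits]
  have hroots : ((minpoly F x).aroots E).toFinset = {x} := by
    ext y
    rw [Multiset.mem_toFinset, Finset.mem_singleton, Polynomial.mem_aroots]
    constructor
    · rintro ⟨-, hy⟩
      obtain ⟨σ, hσ⟩ := minpoly.exists_algEquiv_of_root' halg hy
      rw [← hσ, hx σ]
    · rintro rfl
      exact ⟨minpoly.ne_zero halg.isIntegral, minpoly.aeval F y⟩
  rw [hroots, Finset.card_singleton]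

end PurelyInsep

section Decomp

variable {A B : Type*} [CommRing A] [CommRing B] [Algebra A B]
  (G : Type*) [Group G] [Finite G] [MulSemiringAction G B] [SMulCommClass G A B]
  [Algebra.IsInvariant A B G]
  (P : Ideal A) [P.IsMaximal] (Q : Ideal B) [Q.IsMaximal] [Q.LiesOver P]
  (q : ℕ) [Fact q.Prime] [CharP (A ⧸ P) q]

include P q in
/-- **Decomposition group argument.** -/
theorem smul_eq_self_of_decomp (N : ℕ) [NeZero N] (ρ : SL(2, ℤ) →* G)
    (hρ : Function.Surjective ρ)
    (hT : ρ T • Q = Q)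
    (hΓ : CongruenceSubgroup.Gamma N ≤ ρ.ker)
    (hφ : ∀ r : ℕ, r.Prime → r ∣ N → ∃ φ : B,
      (∀ γ ∈ CongruenceSubgroup.Gamma0 r, ρ γ • φ = φ) ∧
        ∀ (m : ℕ) (a : A), φ ^ q ^ m - algebraMap A B a ∉ Q)
    (γ : SL(2, ℤ)) : ρ γ • Q = Q := by
  set D : Subgroup G := MulAction.stabilizer G Q with hD
  set H : Subgroup SL(2, ℤ) := D.comap ρ with hH
  suffices h : H = ⊤ by
    have : γ ∈ H := by rw [h]; exact Subgroup.mem_top γ
    exact this
  apply subgroup_eq_top_of_T_mem N H
  · exact hT
  · intro g hg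
    have : ρ g = 1 := hΓ hg
    show ρ g • Q = Q
    rw [this, one_smul]
  · intro r hrp hrN
    by_contra hcon
    push Not at hcon
    have hHle : ∀ g ∈ H, g ∈ CongruenceSubgroup.Gamma0 r := by
      intro g hg
      rw [CongruenceSubgroup.Gamma0_mem]
      exact (ZMod.intCast_zmod_eq_zero_iff_dvd _ r).mpr (hcon g hg)
    obtain ⟨φ, hφfix, hφne⟩ := hφ r hrp hrN
    -- every element of the decomposition group fixes `φ`
    have hDfix : ∀ σ ∈ D, σ • φ = φ := by
      intro σ hσ
      obtain ⟨g, rfl⟩ := hρ σ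
      exact hφfix g (hHle g hσ)
    letI : Field (A ⧸ P) := Ideal.Quotient.field P
    letI : Field (B ⧸ Q) := Ideal.Quotient.field Q
    haveI : Normal (A ⧸ P) (B ⧸ Q) := Ideal.Quotient.normal G P Q
    haveI : ExpChar (A ⧸ P) q := ExpChar.prime (Fact.out)
    have hfixed : ∀ τ : (B ⧸ Q) ≃ₐ[A ⧸ P] (B ⧸ Q),
        τ (Ideal.Quotient.mk Q φ) = Ideal.Quotient.mk Q φ := by
      intro τ
      obtain ⟨σ, rfl⟩ := Ideal.Quotient.stabilizerHom_surjective G P Q τ
      rw [Ideal.Quotient.stabilizerHom_apply]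
      congr 1
      exact hDfix σ.1 σ.2
    obtain ⟨n, x, hx⟩ := exists_pow_mem_range_of_forall_algEquiv_fixed q
      (Ideal.Quotient.mk Q φ) hfixed
    obtain ⟨a, rfl⟩ := Ideal.Quotient.mk_surjective x
    apply hφne n a
    rw [← Ideal.Quotient.eq, map_pow, ← hx]
    rfl

end Decomp

end Fermat.Agent.Igusa
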