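import Mathlib
import Fermat.Agent.Igusa.D_lead_Decomp

set_option autoImplicit false

open scoped Pointwise MatrixGroups
open ModularGroup

noncomputable section

namespace Fermat.Agent.Igusa

section AKLB

variable {K : Type*} (M : Type*) [Field K] [Field M] [Algebra K M]
  (𝒪 : ValuationSubring M)

/-- the valuation ring of `K` below `𝒪`. -/
abbrev baseVal : ValuationSubring K := 𝒪.comap (algebraMap K M)

/-- the integral closure of the valuation ring below `𝒪`. -/
abbrev intCl : Subalgebra (baseVal (K := K) M 𝒪) M := integralClosure (baseVal (K := K) M 𝒪) M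

variable {M}

theorem algebraMap_baseVal_apply (a : baseVal (K := K) M 𝒪) :
    algebraMap (baseVal (K := K) M 𝒪) M a = algebraMap K M (a : K) := rfl

/-- the ring hom `A → 𝒪`. -/
def baseValTo : baseVal (K := K) M 𝒪 →+* 𝒪 where
  toFun a := ⟨algebraMap K M (a : K), a.2⟩
  map_one' := Subtype.ext (map_one _)
  map_mul' _ _ := Subtype.ext (map_mul _ _ _)
  map_zero' := Subtype.ext (map_zero _)
  map_add' _ _ := Subtype.ext (map_add _ _ _)

theorem mem_of_isIntegral_baseVal {b : M} (hb : IsIntegral (baseVal (K := K) M 𝒪) b) : b ∈ 𝒪 := by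
  have h1 : IsIntegral 𝒪 b :=
    hb.map_of_comp_eq (baseValTo (K := K) 𝒪) (RingHom.id M) (by ext a; rfl)
  obtain ⟨y, hy⟩ := IsIntegrallyClosed.isIntegral_iff.mp h1
  rw [← hy]
  exact y.2

/-- the ring hom `B → 𝒪`. -/
def intClTo : intCl (K := K) M 𝒪 →+* 𝒪 where
  toFun b := ⟨(b : M), mem_of_isIntegral_baseVal 𝒪 b.2⟩
  map_one' := rfl
  map_mul' _ _ := rfl
  map_zero' := rfl
  map_add' _ _ := rfl

/-- the centre of `𝒪` on `B`. -/
def centre : Ideal (intCl (K := K) M 𝒪) :=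
  (IsLocalRing.maximalIdeal 𝒪).comap (intClTo (K := K) 𝒪)

theorem mem_centre_iff (b : intCl (K := K) M 𝒪) :
    b ∈ centre (K := K) 𝒪 ↔ (b : M) ∈ 𝒪.nonunits := by
  rw [centre, Ideal.mem_comap, ← ValuationSubring.coe_mem_nonunits_iff]
  rfl

instance centre_isPrime : (centre (K := K) 𝒪).IsPrime :=
  Ideal.comap_isPrime _ _

theorem mem_maximalIdeal_baseVal_iff (a : baseVal (K := K) M 𝒪) :
    a ∈ IsLocalRing.maximalIdeal (baseVal (K := K) M 𝒪) ↔ algebraMap K M (a : K) ∈ 𝒪.nonunits := by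
  rw [← ValuationSubring.coe_mem_nonunits_iff, ValuationSubring.mem_nonunits_iff_or,
    ValuationSubring.mem_nonunits_iff_or, ValuationSubring.mem_comap, map_inv₀,
    map_eq_zero]

instance centre_liesOver :
    (centre (K := K) 𝒪).LiesOver (IsLocalRing.maximalIdeal (baseVal (K := K) M 𝒪)) := by
  constructor
  ext a
  rw [Ideal.under_def, Ideal.mem_comap, mem_centre_iff, mem_maximalIdeal_baseVal_iff]
  rfl

instance centre_isMaximal : (centre (K := K) 𝒪).IsMaximal := by
  have h : (centre (K := K) 𝒪).comap (algebraMap (baseVal (K := K) M 𝒪) (intCl (K := K) M 𝒪)) =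
      IsLocalRing.maximalIdeal (baseVal (K := K) M 𝒪) :=
    ((centre_liesOver (K := K) 𝒪).over).symm
  exact Ideal.isMaximal_of_isIntegral_of_isMaximal_comap _
    (h ▸ IsLocalRing.maximalIdeal.isMaximal _)

section Galois

variable [FiniteDimensional K M] [IsGalois K M]

instance intCl_isFractionRing : IsFractionRing (intCl (K := K) M 𝒪) M :=
  integralClosure.isFractionRing_of_finite_extension K M

instance intCl_action : MulSemiringAction Gal(M/K) (intCl (K := K) M 𝒪) :=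
  IsIntegralClosure.MulSemiringAction (baseVal (K := K) M 𝒪) K M (intCl (K := K) M 𝒪)

instance intCl_isInvariant :
    Algebra.IsInvariant (baseVal (K := K) M 𝒪) (intCl (K := K) M 𝒪) Gal(M/K) :=
  Algebra.isInvariant_of_isGalois (baseVal (K := K) M 𝒪) K M (intCl (K := K) M 𝒪)

omit [FiniteDimensional K M] in
theorem coe_smul_intCl (g : Gal(M/K)) (b : intCl (K := K) M 𝒪) :
    ((g • b : intCl (K := K) M 𝒪) : M) = g (b : M) :=
  algebraMap_galRestrict_apply (baseVal (K := K) M 𝒪) g b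

instance intCl_smulCommClass :
    SMulCommClass Gal(M/K) (baseVal (K := K) M 𝒪) (intCl (K := K) M 𝒪) := ⟨fun g a b => by
  apply Subtype.ext
  rw [coe_smul_intCl]
  show g (a • (b : M)) = a • ((g • b : intCl (K := K) M 𝒪) : M)
  rw [coe_smul_intCl, Algebra.smul_def, Algebra.smul_def, map_mul]
  congr 1
  rw [IsScalarTower.algebraMap_apply (baseVal (K := K) M 𝒪) K M]
  exact g.commutes _⟩

omit [FiniteDimensional K M] in
/-- `g • Q = Q` as soon as `g` maps `Q` into itself. -/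
theorem smul_centre_eq_of_forall (g : Gal(M/K))
    (h : ∀ x : M, IsIntegral (baseVal (K := K) M 𝒪) x → x ∈ 𝒪.nonunits → g x ∈ 𝒪.nonunits) :
    g • centre (K := K) 𝒪 = centre (K := K) 𝒪 := by
  have hle : g • centre (K := K) 𝒪 ≤ centre (K := K) 𝒪 := by
    intro x hx
    rw [Ideal.mem_pointwise_smul_iff_inv_smul_mem] at hx
    have h1 := h _ (g⁻¹ • x).2 ((mem_centre_iff 𝒪 _).mp hx)
    rw [coe_smul_intCl, ← AlgEquiv.mul_apply, mul_inv_cancel, AlgEquiv.one_apply] at h1
    exact (mem_centre_iff 𝒪 x).mpr h1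
  have hmax : (g • centre (K := K) 𝒪).IsMaximal := by
    have : g • centre (K := K) 𝒪 = (centre (K := K) 𝒪).map
        (MulSemiringAction.toRingEquiv Gal(M/K) (intCl (K := K) M 𝒪) g) := rfl
    rw [this]
    exact Ideal.map_isMaximal_of_equiv _
  exact hmax.eq_of_le (centre_isMaximal 𝒪).ne_top hle

omit [FiniteDimensional K M] [IsGalois K M] in
theorem charP_quotient_maximalIdeal_baseVal (q : ℕ) [hq : Fact q.Prime]
    (hqM : (q : M) ∈ 𝒪.nonunits) :
    CharP (baseVal (K := K) M 𝒪 ⧸ IsLocalRing.maximalIdeal (baseVal (K := K) M 𝒪)) q := by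
  rw [CharP.charP_iff_prime_eq_zero hq.out, ← map_natCast (Ideal.Quotient.mk _),
    Ideal.Quotient.eq_zero_iff_mem, mem_maximalIdeal_baseVal_iff]
  have : algebraMap K M (((q : baseVal (K := K) M 𝒪) : baseVal (K := K) M 𝒪) : K) = (q : M) := by
    rw [show (((q : baseVal (K := K) M 𝒪) : baseVal (K := K) M 𝒪) : K) = (q : K) from rfl,
      map_natCast]
  rw [this]
  exact hqM

/-- **Decomposition group argument in the AKLB setting.**  Under the hypotheses of the abstract
theorem `smul_eq_self_of_decomp`, expressed in terms of elements of `M`, every automorphism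
`ρ γ` maps the integral elements of the maximal ideal of `𝒪` into the maximal ideal of `𝒪`. -/
theorem map_mem_nonunits_of_decomp (q : ℕ) [Fact q.Prime] (hqM : (q : M) ∈ 𝒪.nonunits)
    (N : ℕ) [NeZero N] (ρ : SL(2, ℤ) →* Gal(M/K)) (hρ : Function.Surjective ρ)
    (hT : ∀ x : M, IsIntegral (baseVal (K := K) M 𝒪) x → x ∈ 𝒪.nonunits → ρ T x ∈ 𝒪.nonunits)
    (hΓ : CongruenceSubgroup.Gamma N ≤ ρ.ker)
    (hφ : ∀ r : ℕ, r.Prime → r ∣ N → ∃ φ : M, IsIntegral (baseVal (K := K) M 𝒪) φ ∧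
      (∀ γ ∈ CongruenceSubgroup.Gamma0 r, ρ γ φ = φ) ∧
      ∀ (m : ℕ) (a : K), algebraMap K M a ∈ 𝒪 → φ ^ q ^ m - algebraMap K M a ∉ 𝒪.nonunits)
    (γ : SL(2, ℤ)) (x : M) (hx : IsIntegral (baseVal (K := K) M 𝒪) x) (hx' : x ∈ 𝒪.nonunits) :
    ρ γ x ∈ 𝒪.nonunits := by
  have := charP_quotient_maximalIdeal_baseVal (K := K) 𝒪 q hqM
  have key := smul_eq_self_of_decomp (A := baseVal (K := K) M 𝒪) (B := intCl (K := K) M 𝒪)
    (G := Gal(M/K))
    (P := IsLocalRing.maximalIdeal (baseVal (K := K) M 𝒪)) (Q := centre (K := K) 𝒪) q N ρ hρ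
    (smul_centre_eq_of_forall (K := K) 𝒪 (ρ T) hT) hΓ ?_ γ
  · have hb : (⟨x, hx⟩ : intCl (K := K) M 𝒪) ∈ centre (K := K) 𝒪 := (mem_centre_iff 𝒪 _).mpr hx'
    have h1 : ρ γ • (⟨x, hx⟩ : intCl (K := K) M 𝒪) ∈ ρ γ • centre (K := K) 𝒪 :=
      Ideal.smul_mem_pointwise_smul _ _ _ hb
    rw [key, mem_centre_iff, coe_smul_intCl] at h1
    exact h1
  · intro r hr hrN
    obtain ⟨φ, hφi, hφfix, hφne⟩ := hφ r hr hrN
    refine ⟨⟨φ, hφi⟩, ?_, ?_⟩
    · intro γ' hγ'
      apply Subtype.ext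
      rw [coe_smul_intCl]
      exact hφfix γ' hγ'
    · intro m a hmem
      rw [mem_centre_iff] at hmem
      exact hφne m (a : K) a.2 hmem

end Galois

end AKLB

end Fermat.Agent.Igusa
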