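import Mathlib
import Fermat.Prelude.Def_ModularCurve_X0ModL
import Fermat.Agent.Igusa.A_helper2_Poly

set_option autoImplicit false

open Polynomial IntermediateField ModularCurve

noncomputable section

namespace Fermat.Agent.Igusa

variable (k : Type*) [Field k] (N : ℕ) [NeZero N]

theorem coeff_jtSer_pow_self (b : ℕ) : ((jtSer k N) ^ b).coeff (-((N : ℤ) * b)) = 1 := by
  rw [jtSer, ← map_pow, show -((N : ℤ) * b) = (N : ℤ) * (-(b : ℤ)) by ring, qExpand_coeff_mul,
    coeff_jqModC_pow_self]

theorem coeff_jtSer_pow_of_lt {b n : ℕ} (h : b < n) :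
    ((jtSer k N) ^ b).coeff (-((N : ℤ) * n)) = 0 := by
  rw [jtSer, ← map_pow, show -((N : ℤ) * n) = (N : ℤ) * (-(n : ℤ)) by ring, qExpand_coeff_mul]
  apply coeff_jqModC_pow_of_lt
  omega

/-- the coefficient of `t^{-N deg P}` in `P(j)` is the leading coefficient of `P`. -/
theorem coeff_aeval_jtSer (P : k[X]) :
    (aeval (jtSer k N) P).coeff (-((N : ℤ) * P.natDegree)) = P.leadingCoeff := by
  rw [aeval_def, eval₂_eq_sum_range, HahnSeries.coeff_sum, Finset.sum_eq_single P.natDegree]
  · rw [algebraMap_laurentSeries_eq_single, HahnSeries.coeff_single_zero_mul,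
      coeff_jtSer_pow_self, mul_one]; rfl
  · intro b hb hne
    have hlt : b < P.natDegree := by
      have := Finset.mem_range.mp hb
      omega
    rw [algebraMap_laurentSeries_eq_single, HahnSeries.coeff_single_zero_mul,
      coeff_jtSer_pow_of_lt k N hlt, mul_zero]
  · intro h
    exact absurd (Finset.mem_range.mpr (Nat.lt_succ_self _)) h

theorem transcendental_jtSer : Transcendental k (jtSer k N) := by
  rw [transcendental_iff]
  intro P hP
  have h := coeff_aeval_jtSer k N P
  rw [hP, HahnSeries.coeff_zero] at h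
  exact leadingCoeff_eq_zero.mp h.symm

/-- a polynomial in `j` whose `t`-expansion has positive order vanishes. -/
theorem eq_zero_of_order_pos_of_eq_aeval {x : LaurentSeries k} (hx : 0 < x.order) (P : k[X])
    (h : x = aeval (jtSer k N) P) : P = 0 := by
  by_contra hP
  have h1 := coeff_aeval_jtSer k N P
  rw [← h, HahnSeries.coeff_eq_zero_of_lt_order] at h1
  · exact hP (leadingCoeff_eq_zero.mp h1.symm)
  · have : -((N : ℤ) * P.natDegree) ≤ 0 := by
      have : (0 : ℤ) ≤ (N : ℤ) * P.natDegree := by positivity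
      omega
    omega

section RationalRoot

variable {k} {E : Type*} [Field E] [Algebra k E]

/-- **Rational root theorem for `k[J]`, `J` transcendental.**  An element of `k(J)` integral over
`k[J]` lies in `k[J]`. -/
theorem exists_eq_aeval_of_isIntegralElem {J : E} (hJ : Transcendental k J) {h : E}
    (hmem : h ∈ k⟮J⟯) (hint : (aeval J : k[X] →ₐ[k] E).toRingHom.IsIntegralElem h) :
    ∃ P : k[X], h = aeval J P := by
  let alg : Algebra k[X] k⟮J⟯ := (aeval (AdjoinSimple.gen k J) : k[X] →ₐ[k] k⟮J⟯).toRingHom.toAlgebra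
  have hval : ∀ P : k[X], ((algebraMap k[X] k⟮J⟯ P : k⟮J⟯) : E) = aeval J P := by
    intro P
    have := aeval_algebraMap_apply E (AdjoinSimple.gen k J) P
    rw [AdjoinSimple.algebraMap_gen] at this
    exact this.symm
  have hinj : Function.Injective (algebraMap k[X] k⟮J⟯) := by
    intro P Q hPQ
    have := congrArg (fun x : k⟮J⟯ => (x : E)) hPQ
    simp only [hval] at this
    exact (transcendental_iff_injective.mp hJ) this
  have : FaithfulSMul k[X] k⟮J⟯ := (faithfulSMul_iff_algebraMap_injective _ _).mpr hinj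
  have : IsFractionRing k[X] k⟮J⟯ := by
    refine IsFractionRing.of_field _ _ ?_
    rintro ⟨z, hz⟩
    obtain ⟨r, s, hrs⟩ := (mem_adjoin_simple_iff k z).mp hz
    refine ⟨r, s, Subtype.ext ?_⟩
    rw [IntermediateField.coe_div, hval, hval]
    exact hrs
  -- integrality over `k[X]`
  obtain ⟨p, hpm, hp⟩ := hint
  have hint' : IsIntegral k[X] (⟨h, hmem⟩ : k⟮J⟯) := by
    refine ⟨p, hpm, ?_⟩
    apply Subtype.ext
    have h1 : ((eval₂ (algebraMap k[X] k⟮J⟯) (⟨h, hmem⟩ : k⟮J⟯) p : k⟮J⟯) : E) =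
        eval₂ ((aeval J : k[X] →ₐ[k] E).toRingHom) h p := by
      have := Polynomial.hom_eval₂ p (algebraMap k[X] k⟮J⟯) (k⟮J⟯.val.toRingHom) (⟨h, hmem⟩ : k⟮J⟯)
      rw [show (k⟮J⟯.val.toRingHom) (eval₂ (algebraMap k[X] k⟮J⟯) (⟨h, hmem⟩ : k⟮J⟯) p) =
        ((eval₂ (algebraMap k[X] k⟮J⟯) (⟨h, hmem⟩ : k⟮J⟯) p : k⟮J⟯) : E) from rfl] at this
      rw [this]
      congr 1
      ext P
      · simp [hval]
      · simp [hval]
    rw [h1, hp]
    rfl
  obtain ⟨P, hP⟩ := IsIntegrallyClosed.isIntegral_iff.mp hint'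
  refine ⟨P, ?_⟩
  have := congrArg (fun x : k⟮J⟯ => (x : E)) hP
  simp only [hval] at this
  exact this.symm

end RationalRoot

theorem isIntegralElem_pow {R S : Type*} [CommRing R] [CommRing S] (f : R →+* S) {x : S}
    (hx : f.IsIntegralElem x) (n : ℕ) : f.IsIntegralElem (x ^ n) := by
  induction n with
  | zero =>
    rw [pow_zero]
    exact ⟨X - C 1, monic_X_sub_C 1, by simp⟩
  | succ n ih =>
    rw [pow_succ]
    exact RingHom.IsIntegralElem.mul f ih hx

/-- **Pole argument.**  A series of positive `t`-order which is integral over `k[j]` has no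
positive power in `k(j)`. -/
theorem pow_notMem_adjoin_jtSer {x : LaurentSeries k} (hx : 0 < x.order)
    (hint : (aeval (jtSer k N) : k[X] →ₐ[k] LaurentSeries k).toRingHom.IsIntegralElem x)
    {n : ℕ} (hn : 0 < n) : x ^ n ∉ k⟮jtSer k N⟯ := by
  intro hmem
  obtain ⟨P, hP⟩ := exists_eq_aeval_of_isIntegralElem (transcendental_jtSer k N) hmem
    (isIntegralElem_pow _ hint n)
  have hord : 0 < (x ^ n).order := by
    rw [HahnSeries.order_pow]
    exact nsmul_pos hx hn.ne'
  have hP0 := eq_zero_of_order_pos_of_eq_aeval k N hord P hP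
  rw [hP0, map_zero] at hP
  rw [hP, HahnSeries.order_zero] at hord
  exact lt_irrefl _ hord

end Fermat.Agent.Igusa
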