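import Mathlib
import Fermat.Agent.Igusa.A_helper2_Fixed
import Fermat.Agent.Igusa.V_helper5_Val
import Fermat.Agent.Igusa.G_lead_AKLB
import Fermat.Agent.Igusa.P_lead_Pole

set_option autoImplicit false
set_option linter.unusedSectionVars false

open scoped MatrixGroups
open ModularCurve Polynomial IntermediateField Fermat.Agent.X0N

noncomputable section

namespace Fermat.Agent.Igusa

section Setup

variable {R : Type*} [CommRing R] [IsDomain R] [IsDiscreteValuationRing R]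
  {L : Type*} [Field L] [Algebra R L] [IsFractionRing R L] [Algebra L ℂ]
  {ζ : Lˣ} {N : ℕ} [NeZero N]
  (ζR : Rˣ) (hζR : Units.map (algebraMap R L : R →* L) ζR = ζ)

include hζR in
/-- `M ≤ Frac R((t))`. -/
theorem fieldM_le_gaussField : fieldM L ζ N ≤ gaussField R L := by
  rw [fieldM, IntermediateField.adjoin_le_iff]
  rintro x (⟨α, rfl⟩ | ⟨α, rfl⟩)
  · have := coeffMap_xSer (A := R) ζR N (algebraMap R L) α
    rw [hζR] at this
    rw [← this]
    exact emb_mem_gaussField R L _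
  · have := coeffMap_phiSer (A := R) ζR N (algebraMap R L) α
    rw [hζR] at this
    rw [← this]
    exact emb_mem_gaussField R L _

include hζR in
theorem phiSer_eq_emb (α : Idx N) : phiSer L ζ N α = emb R L (phiSer R ζR N α) := by
  have := coeffMap_phiSer (A := R) ζR N (algebraMap R L) α
  rw [hζR] at this
  exact this.symm

include hζR in
theorem xSer_eq_emb (α : Idx N) : xSer L ζ N α = emb R L (xSer R ζR N α) := by
  have := coeffMap_xSer (A := R) ζR N (algebraMap R L) α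
  rw [hζR] at this
  exact this.symm

/-- the Gauss valuation ring of `M`. -/
abbrev valM : ValuationSubring ↥(fieldM L ζ N) :=
  gaussValSub R L (fieldM L ζ N) (fieldM_le_gaussField ζR hζR)

theorem mem_nonunits_valM_iff {ϖ : R} (hϖ : Irreducible ϖ) (x : ↥(fieldM L ζ N)) :
    x ∈ (valM ζR hζR).nonunits ↔ ∃ y ∈ gaussInt R L,
      (x : LaurentSeries L) = HahnSeries.C (algebraMap R L ϖ) * y := by
  rw [ValuationSubring.mem_nonunits_iff_exists_mem_maximalIdeal]
  constructor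
  · rintro ⟨hx, hmem⟩
    rw [mem_maximalIdeal_gaussValSub_iff, gaussValRed_apply, gaussRed_eq_zero_iff hϖ] at hmem
    obtain ⟨y, hy⟩ := hmem
    exact ⟨y, y.2, hy⟩
  · rintro ⟨y, hy, hxy⟩
    have hx : x ∈ valM ζR hζR := by
      show (x : LaurentSeries L) ∈ gaussInt R L
      rw [hxy]
      exact (gaussInt R L).mul_mem (C_algebraMap_mem_gaussInt ϖ) hy
    refine ⟨hx, ?_⟩
    rw [mem_maximalIdeal_gaussValSub_iff, gaussValRed_apply, gaussRed_eq_zero_iff hϖ]
    exact ⟨⟨y, hy⟩, hxy⟩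

/-- the twist `t ↦ ξ t`, `ξ ∈ Rˣ`, preserves the Gauss valuation ring. -/
theorem twist_mem_gaussInt (ξ : Rˣ) {y : LaurentSeries L} (hy : y ∈ gaussInt R L) :
    twist (Units.map (algebraMap R L : R →* L) ξ) y ∈ gaussInt R L := by
  obtain ⟨f, g, hg, h⟩ := hy
  refine ⟨twist ξ f, twist ξ g, ?_, ?_⟩
  · have h1 : red R (twist ξ g) =
        twist (Units.map (IsLocalRing.residue R : R →* IsLocalRing.ResidueField R) ξ) (red R g) :=
      coeffMap_twist _ ξ g
    rw [h1]
    exact (EmbeddingLike.map_ne_zero_iff).mpr hg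
  · have h1 : emb R L (twist ξ g) =
        twist (Units.map (algebraMap R L : R →* L) ξ) (emb R L g) := coeffMap_twist _ ξ g
    have h2 : emb R L (twist ξ f) =
        twist (Units.map (algebraMap R L : R →* L) ξ) (emb R L f) := coeffMap_twist _ ξ f
    rw [h1, h2, ← map_mul, h]

end Setup

section PolyToSer

/-- `P ↦ P(j)`, `j` the `t`-expansion of the `j`-invariant, for polynomials over any ring. -/
def polyToSer (A : Type*) [CommRing A] (N : ℕ) [NeZero N] : A[X] →+* LaurentSeries A :=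
  Polynomial.eval₂RingHom (HahnSeries.C) (qExpand A N (jqModC A))

theorem coeffMap_comp_polyToSer {A B : Type*} [CommRing A] [CommRing B] (φ : A →+* B)
    (N : ℕ) [NeZero N] :
    (coeffMap φ).comp (polyToSer A N) = (polyToSer B N).comp (Polynomial.mapRingHom φ) := by
  apply Polynomial.ringHom_ext
  · intro a
    simp only [polyToSer, RingHom.comp_apply, Polynomial.coe_eval₂RingHom, Polynomial.eval₂_C,
      Polynomial.coe_mapRingHom, Polynomial.map_C]
    exact coeffMap_C φ a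
  · simp only [polyToSer, RingHom.comp_apply, Polynomial.coe_eval₂RingHom, Polynomial.eval₂_X,
      Polynomial.coe_mapRingHom, Polynomial.map_X]
    rw [coeffMap_qExpand, coeffMap_jqModC]

theorem polyToSer_eq_aeval (k : Type*) [Field k] (N : ℕ) [NeZero N] :
    polyToSer k N = (aeval (jtSer k N) : k[X] →ₐ[k] LaurentSeries k).toRingHom := by
  apply Polynomial.ringHom_ext
  · intro a
    simp only [polyToSer, Polynomial.coe_eval₂RingHom, Polynomial.eval₂_C, AlgHom.toRingHom_eq_coe,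
      RingHom.coe_coe, aeval_C]
    rw [algebraMap_laurentSeries_eq_single]
    rfl
  · simp only [polyToSer, Polynomial.coe_eval₂RingHom, Polynomial.eval₂_X, AlgHom.toRingHom_eq_coe,
      RingHom.coe_coe, aeval_X]
    rfl

end PolyToSer

section Order

theorem order_phiSer_diag_pos (k : Type*) [Field k] (ζ' : kˣ) (N : ℕ) [NeZero N] (r : ℕ)
    (hr : r.Prime) (h : r ∣ N) (hrk : (r : k) ≠ 0) :
    0 < (phiSer k ζ' N (Idx.diag N r h hr.pos)).order := by
  obtain ⟨h1, h2⟩ := phiSer_diag_coeff (A := k) ζ' N r h hr.pos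
  set x := phiSer k ζ' N (Idx.diag N r h hr.pos) with hx
  have hne : x.coeff ((N : ℤ) * (r - 1)) ≠ 0 := by
    rw [h1]
    exact pow_ne_zero _ hrk
  have hx0 : x ≠ 0 := HahnSeries.ne_zero_of_coeff_ne_zero hne
  have hle : x.order ≤ (N : ℤ) * (r - 1) := HahnSeries.order_le_of_coeff_ne_zero hne
  have hge : ¬ x.order < (N : ℤ) * (r - 1) := fun hlt =>
    hx0 (HahnSeries.coeff_order_eq_zero.mp (h2 _ hlt))
  have heq : x.order = (N : ℤ) * (r - 1) := le_antisymm hle (not_lt.mp hge)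
  rw [heq]
  have hN : (0 : ℤ) < N := by exact_mod_cast Nat.pos_of_ne_zero (NeZero.ne N)
  have hr2 : (2 : ℤ) ≤ r := by exact_mod_cast hr.two_le
  nlinarith

end Order

section Main

variable {R : Type*} [CommRing R] [IsDomain R] [IsDiscreteValuationRing R]
  {L : Type*} [Field L] [Algebra R L] [IsFractionRing R L] [Algebra L ℂ]
  {ζ : Lˣ} {N : ℕ} [NeZero N]
  (ζR : Rˣ) (hζR : Units.map (algebraMap R L : R →* L) ζR = ζ)
  (hζ : algebraMap L ℂ (ζ : L) = zetaH (N : ℝ))
  (ℓ : ℕ) [Fact ℓ.Prime] (hℓ : Irreducible ((ℓ : ℕ) : R))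

local notation "kR" => IsLocalRing.ResidueField R

include hℓ in
theorem natCast_mem_nonunits_valM : ((ℓ : ℕ) : ↥(fieldM L ζ N)) ∈ (valM ζR hζR).nonunits := by
  rw [mem_nonunits_valM_iff ζR hζR hℓ]
  refine ⟨1, (gaussInt R L).one_mem, ?_⟩
  rw [mul_one, map_natCast, map_natCast]
  rfl

include hℓ in
theorem charP_residueField : CharP kR ℓ := by
  rw [CharP.charP_iff_prime_eq_zero (Fact.out : ℓ.Prime)]
  have := residue_irreducible hℓ
  rwa [map_natCast] at this

include hℓ hζ in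
theorem rho_T_mem_nonunits_valM (x : ↥(fieldM L ζ N)) (hx : x ∈ (valM ζR hζR).nonunits) :
    rho hζ ModularGroup.T x ∈ (valM ζR hζR).nonunits := by
  rw [mem_nonunits_valM_iff ζR hζR hℓ] at hx ⊢
  obtain ⟨y, hy, hxy⟩ := hx
  refine ⟨twist ζ⁻¹ y, ?_, ?_⟩
  · have := twist_mem_gaussInt (L := L) ζR⁻¹ hy
    rwa [map_inv, hζR] at this
  · rw [rho_T, hxy, map_mul, twist_C]

/-- the base field `K = L(j)` inside `M`. -/
abbrev fieldKj : IntermediateField L ↥(fieldM L ζ N) := L⟮(jt : fieldM L ζ N)⟯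

/-- `P ↦ P(j)` as a ring hom `R[X] → K`. -/
def polyToKj : R[X] →+* ↥(fieldKj (L := L) (ζ := ζ) (N := N)) :=
  ((aeval (AdjoinSimple.gen L (jt : fieldM L ζ N)) :
      L[X] →ₐ[L] ↥(fieldKj (L := L) (ζ := ζ) (N := N))).toRingHom).comp
    (Polynomial.mapRingHom (algebraMap R L))

theorem coe_polyToKj (P : R[X]) :
    (((polyToKj (R := R) (L := L) (ζ := ζ) (N := N) P : ↥(fieldKj (L := L) (ζ := ζ) (N := N))) :
      ↥(fieldM L ζ N)) : LaurentSeries L) = emb R L (polyToSer R N P) := by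
  have key : (((fieldM L ζ N).val.toRingHom).comp
      ((fieldKj (L := L) (ζ := ζ) (N := N)).val.toRingHom)).comp
      (polyToKj (R := R) (L := L) (ζ := ζ) (N := N)) = (emb R L).comp (polyToSer R N) := by
    apply Polynomial.ringHom_ext
    · intro a
      simp only [polyToKj, polyToSer, RingHom.comp_apply, Polynomial.coe_mapRingHom,
        Polynomial.map_C, AlgHom.toRingHom_eq_coe, RingHom.coe_coe, aeval_C,
        Polynomial.coe_eval₂RingHom, Polynomial.eval₂_C]
      rw [emb_C]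
      show algebraMap L (LaurentSeries L) (algebraMap R L a) = _
      rw [algebraMap_laurentSeries_eq_single]
      rfl
    · simp only [polyToKj, polyToSer, RingHom.comp_apply, Polynomial.coe_mapRingHom,
        Polynomial.map_X, AlgHom.toRingHom_eq_coe, RingHom.coe_coe, aeval_X,
        Polynomial.coe_eval₂RingHom, Polynomial.eval₂_X]
      show ((jt : fieldM L ζ N) : LaurentSeries L) = _
      rw [coe_jt, emb, coeffMap_qExpand, coeffMap_jqModC]
  exact congrArg (fun f => f P) key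

theorem polyToKj_mem_baseVal (P : R[X]) :
    polyToKj (R := R) (L := L) (ζ := ζ) (N := N) P ∈
      baseVal (K := ↥(fieldKj (L := L) (ζ := ζ) (N := N))) ↥(fieldM L ζ N) (valM ζR hζR) := by
  rw [ValuationSubring.mem_comap]
  show ((algebraMap ↥(fieldKj (L := L) (ζ := ζ) (N := N)) ↥(fieldM L ζ N)
    (polyToKj (R := R) (L := L) (ζ := ζ) (N := N) P) : ↥(fieldM L ζ N)) : LaurentSeries L) ∈
      gaussInt R L
  have := coe_polyToKj (R := R) (L := L) (ζ := ζ) (N := N) P
  rw [show (algebraMap ↥(fieldKj (L := L) (ζ := ζ) (N := N)) ↥(fieldM L ζ N)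
    (polyToKj (R := R) (L := L) (ζ := ζ) (N := N) P) : ↥(fieldM L ζ N)) =
    ((polyToKj (R := R) (L := L) (ζ := ζ) (N := N) P :
      ↥(fieldKj (L := L) (ζ := ζ) (N := N))) : ↥(fieldM L ζ N)) from rfl, this]
  exact emb_mem_gaussInt R L _

/-- `P ↦ P(j)` as a ring hom `R[X] → 𝒪_K`. -/
def polyToBase : R[X] →+*
    baseVal (K := ↥(fieldKj (L := L) (ζ := ζ) (N := N))) ↥(fieldM L ζ N) (valM ζR hζR) :=
  (polyToKj (R := R) (L := L) (ζ := ζ) (N := N)).codRestrict _ (polyToKj_mem_baseVal ζR hζR)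

/-- integrality over `R[j]` (as a relation in `R((t))`) implies integrality over `𝒪_K`. -/
theorem isIntegral_baseVal_of_eval₂ (x : ↥(fieldM L ζ N)) (xR : LaurentSeries R)
    (hx : (x : LaurentSeries L) = emb R L xR) (p : (R[X])[X]) (hp : p.Monic)
    (h0 : eval₂ (polyToSer R N) xR p = 0) :
    IsIntegral (baseVal (K := ↥(fieldKj (L := L) (ζ := ζ) (N := N))) ↥(fieldM L ζ N)
      (valM ζR hζR)) x := by
  refine ⟨p.map (polyToBase ζR hζR), hp.map _, ?_⟩
  apply Subtype.ext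
  show (fieldM L ζ N).val.toRingHom (eval₂ (algebraMap (baseVal
    (K := ↥(fieldKj (L := L) (ζ := ζ) (N := N))) ↥(fieldM L ζ N) (valM ζR hζR)) ↥(fieldM L ζ N)) x
      (p.map (polyToBase ζR hζR))) = 0
  have h2 : ((fieldM L ζ N).val.toRingHom).comp
      ((algebraMap (baseVal (K := ↥(fieldKj (L := L) (ζ := ζ) (N := N))) ↥(fieldM L ζ N)
      (valM ζR hζR)) ↥(fieldM L ζ N)).comp (polyToBase ζR hζR)) =
      (emb R L).comp (polyToSer R N) := by
    apply RingHom.ext
    intro P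
    exact coe_polyToKj (R := R) (L := L) (ζ := ζ) (N := N) P
  have h3 : ((fieldM L ζ N).val.toRingHom) x = emb R L xR := hx
  rw [Polynomial.eval₂_map, Polynomial.hom_eval₂, h2, h3, ← Polynomial.hom_eval₂, h0, map_zero]

/-- reduction of an integrality relation over `R[j]` to `k[j]`. -/
theorem isIntegralElem_red_of_eval₂ (xR : LaurentSeries R) (p : (R[X])[X]) (hp : p.Monic)
    (h0 : eval₂ (polyToSer R N) xR p = 0) :
    (aeval (jtSer kR N) : kR[X] →ₐ[kR] LaurentSeries kR).toRingHom.IsIntegralElem (red R xR) := by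
  rw [← polyToSer_eq_aeval]
  refine ⟨p.map (Polynomial.mapRingHom (IsLocalRing.residue R)), hp.map _, ?_⟩
  rw [Polynomial.eval₂_map, ← coeffMap_comp_polyToSer]
  have := Polynomial.hom_eval₂ p (polyToSer R N) (red R) xR
  rw [h0, map_zero] at this
  exact this.symm

include hℓ in
/-- the non-membership condition `(P)` for `φ_r`. -/
theorem phiM_pow_sub_notMem_nonunits (hℓN : ¬ ℓ ∣ N)
    (hInt : ∀ (r : ℕ) (h : r ∣ N) (h0 : 0 < r), ∃ p : (R[X])[X], p.Monic ∧
      eval₂ (polyToSer R N) (phiSer R ζR N (Idx.diag N r h h0)) p = 0)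
    (hAdj : ∀ a : ↥(fieldM L ζ N), a ∈ fieldKj (L := L) (ζ := ζ) (N := N) →
      ∀ ha : (a : LaurentSeries L) ∈ gaussInt R L,
        gaussRed R L ⟨(a : LaurentSeries L), ha⟩ ∈ kR⟮jtSer kR N⟯)
    (r : ℕ) (hr : r.Prime) (hrN : r ∣ N) (m : ℕ)
    (a : ↥(fieldKj (L := L) (ζ := ζ) (N := N)))
    (ha : algebraMap ↥(fieldKj (L := L) (ζ := ζ) (N := N)) ↥(fieldM L ζ N) a ∈ valM ζR hζR) :
    (phiM (Idx.diag N r hrN hr.pos) : ↥(fieldM L ζ N)) ^ ℓ ^ m -
      algebraMap ↥(fieldKj (L := L) (ζ := ζ) (N := N)) ↥(fieldM L ζ N) a ∉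
        (valM ζR hζR).nonunits := by
  intro hmem
  have : CharP kR ℓ := charP_residueField (R := R) ℓ hℓ
  rw [mem_nonunits_valM_iff ζR hζR hℓ] at hmem
  obtain ⟨y, hy, hxy⟩ := hmem
  set α := Idx.diag N r hrN hr.pos with hα
  -- the elements of the Gauss ring
  have hφmem : phiSer L ζ N α ∈ gaussInt R L := by
    rw [phiSer_eq_emb ζR hζR]
    exact emb_mem_gaussInt R L _
  have hamem : ((a : ↥(fieldM L ζ N)) : LaurentSeries L) ∈ gaussInt R L := ha
  have hCy : HahnSeries.C (algebraMap R L ((ℓ : ℕ) : R)) * y ∈ gaussInt R L :=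
    (gaussInt R L).mul_mem (C_algebraMap_mem_gaussInt _) hy
  have heq : (⟨phiSer L ζ N α, hφmem⟩ : gaussInt R L) ^ ℓ ^ m -
      ⟨((a : ↥(fieldM L ζ N)) : LaurentSeries L), hamem⟩ =
      ⟨HahnSeries.C (algebraMap R L ((ℓ : ℕ) : R)) * y, hCy⟩ := by
    apply Subtype.ext
    exact hxy
  have hred := congrArg (gaussRed R L) heq
  have hzero : gaussRed R L ⟨HahnSeries.C (algebraMap R L ((ℓ : ℕ) : R)) * y, hCy⟩ = 0 :=
    (gaussRed_eq_zero_iff hℓ _).mpr ⟨⟨y, hy⟩, rfl⟩
  rw [map_sub, map_pow, hzero, sub_eq_zero] at hred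
  have hφred : gaussRed R L ⟨phiSer L ζ N α, hφmem⟩ =
      phiSer kR (Units.map (IsLocalRing.residue R : R →* kR) ζR) N α := by
    have h1 := gaussRed_emb R L (phiSer R ζR N α)
    have h2 : (⟨phiSer L ζ N α, hφmem⟩ : gaussInt R L) =
        ⟨emb R L (phiSer R ζR N α), emb_mem_gaussInt R L _⟩ :=
      Subtype.ext (phiSer_eq_emb ζR hζR α)
    rw [h2, h1]
    exact coeffMap_phiSer ζR N (IsLocalRing.residue R) α
  have hadj := hAdj (a : ↥(fieldM L ζ N)) a.2 hamem
  rw [← hred, hφred] at hadj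
  -- contradiction with the pole argument
  have hrk : ((r : ℕ) : kR) ≠ 0 := by
    intro h0
    have hdvd : ℓ ∣ r := (CharP.cast_eq_zero_iff kR ℓ r).mp h0
    have : ℓ = r := (Nat.prime_dvd_prime_iff_eq (Fact.out : ℓ.Prime) hr).mp hdvd
    exact hℓN (this ▸ hrN)
  obtain ⟨p, hp, h0⟩ := hInt r hrN hr.pos
  have hintk := isIntegralElem_red_of_eval₂ (R := R) (N := N) _ p hp h0
  have hredphi : red R (phiSer R ζR N α) =
      phiSer kR (Units.map (IsLocalRing.residue R : R →* kR) ζR) N α :=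
    coeffMap_phiSer ζR N (IsLocalRing.residue R) α
  rw [hredphi] at hintk
  exact pow_notMem_adjoin_jtSer kR N
    (order_phiSer_diag_pos kR _ N r hr hrN hrk) hintk
    (pow_pos (Fact.out : ℓ.Prime).pos m) hadj

include hℓ in
/-- **(D2)** every `ρ(γ)` maps integral elements of the maximal ideal of the Gauss valuation ring
of `M` into the maximal ideal. -/
theorem rho_mem_nonunits_valM (hℓN : ¬ ℓ ∣ N)
    (hInt : ∀ (r : ℕ) (h : r ∣ N) (h0 : 0 < r), ∃ p : (R[X])[X], p.Monic ∧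
      eval₂ (polyToSer R N) (phiSer R ζR N (Idx.diag N r h h0)) p = 0)
    (hAdj : ∀ a : ↥(fieldM L ζ N), a ∈ fieldKj (L := L) (ζ := ζ) (N := N) →
      ∀ ha : (a : LaurentSeries L) ∈ gaussInt R L,
        gaussRed R L ⟨(a : LaurentSeries L), ha⟩ ∈ kR⟮jtSer kR N⟯)
    (γ : SL(2, ℤ)) (x : ↥(fieldM L ζ N))
    (hx : IsIntegral (baseVal (K := ↥(fieldKj (L := L) (ζ := ζ) (N := N))) ↥(fieldM L ζ N)
      (valM ζR hζR)) x)
    (hx' : x ∈ (valM ζR hζR).nonunits) :
    rho hζ γ x ∈ (valM ζR hζR).nonunits := by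
  have := isGalois_fieldM hζ
  have := finiteDimensional_fieldM hζ
  have key := map_mem_nonunits_of_decomp (K := ↥(fieldKj (L := L) (ζ := ζ) (N := N)))
    (valM ζR hζR) ℓ (natCast_mem_nonunits_valM ζR hζR ℓ hℓ) N (rhoK hζ) (rhoK_surjective hζ)
    (fun y _ hy => rho_T_mem_nonunits_valM ζR hζR hζ ℓ hℓ y hy) (Gamma_le_ker_rhoK hζ) ?_ γ x hx hx'
  · exact key
  · intro r hr hrN
    refine ⟨phiM (Idx.diag N r hrN hr.pos), ?_, ?_, ?_⟩
    · obtain ⟨p, hp, h0⟩ := hInt r hrN hr.pos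
      exact isIntegral_baseVal_of_eval₂ ζR hζR _ _ (phiSer_eq_emb ζR hζR _) p hp h0
    · intro γ' hγ'
      rw [rhoK_apply]
      exact rho_phiM_diag hζ hrN hr.pos hγ'
    · intro m a ha
      exact phiM_pow_sub_notMem_nonunits ζR hζR ℓ hℓ hℓN hInt hAdj r hr hrN m a ha

end Main

end Fermat.Agent.Igusa
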