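/-
S28 (Igusa) — helper5.
The two inputs `hInt`, `hAdj` of lead's (D2) instantiation `rho_mem_nonunits_valM`, discharged from
helper2's (e) (`exists_monic_phiSer`) and from the residue-field computation `gaussRed_mem_adjoin`.
-/
import Fermat.Agent.Igusa.D2_lead_Inst
import Fermat.Agent.Igusa.A_helper2_Integral
import Fermat.Agent.Igusa.V_helper5_GaussLemma

set_option autoImplicit false
set_option linter.unusedSectionVars false

open scoped MatrixGroups
open ModularCurve Polynomial IntermediateField Fermat.Agent.X0N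

noncomputable section

namespace Fermat.Agent.Igusa

section Inputs

variable {R : Type*} [CommRing R] [IsDomain R] [IsDiscreteValuationRing R]
  {L : Type*} [Field L] [Algebra R L] [IsFractionRing R L] [Algebra L ℂ]
  {ζ : Lˣ} {N : ℕ} [NeZero N]
  (ζR : Rˣ) (hζR : Units.map (algebraMap R L : R →* L) ζR = ζ)
  (hζ : algebraMap L ℂ (ζ : L) = zetaH (N : ℝ))

variable (R L) in
/-- `R ≃ range(R → L)` -/
def rangeEquiv : R ≃+* (algebraMap R L).range :=
  RingEquiv.ofBijective (algebraMap R L).rangeRestrict
    ⟨fun _ _ hab => IsFractionRing.injective R L (congrArg Subtype.val hab),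
      (algebraMap R L).rangeRestrict_surjective⟩

theorem subtype_rangeEquiv (a : R) :
    ((algebraMap R L).range).subtype (rangeEquiv R L a) = algebraMap R L a := rfl

theorem emb_comp_polyToSer :
    (emb R L).comp (polyToSer R N) =
      (jtHom (algebraMap R L).range N).comp (Polynomial.mapRingHom (rangeEquiv R L).toRingHom) := by
  apply Polynomial.ringHom_ext
  · intro a
    simp only [polyToSer, jtHom, RingHom.comp_apply, Polynomial.coe_eval₂RingHom,
      Polynomial.eval₂_C, Polynomial.coe_mapRingHom, Polynomial.map_C, AlgHom.toRingHom_eq_coe,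
      RingHom.coe_coe, aeval_C]
    rw [emb_C, algebraMap_laurentSeries_eq_single]
    rfl
  · simp only [polyToSer, jtHom, RingHom.comp_apply, Polynomial.coe_eval₂RingHom,
      Polynomial.eval₂_X, Polynomial.coe_mapRingHom, Polynomial.map_X, AlgHom.toRingHom_eq_coe,
      RingHom.coe_coe, aeval_X]
    rw [emb, coeffMap_qExpand, coeffMap_jqModC]
    rfl

/-- transfer of a monic relation over `range(R → L)[j]` in `L((t))` to a monic relation over `R[j]`
in `R((t))` -/
theorem exists_monic_polyToSer_of_jtHom (xR : LaurentSeries R)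
    (h : ∃ p : Polynomial (Polynomial (algebraMap R L).range), p.Monic ∧
      Polynomial.eval₂ (jtHom (algebraMap R L).range N) (emb R L xR) p = 0) :
    ∃ p : (R[X])[X], p.Monic ∧ eval₂ (polyToSer R N) xR p = 0 := by
  obtain ⟨p, hp, h0⟩ := h
  refine ⟨p.map (Polynomial.mapRingHom (rangeEquiv R L).symm.toRingHom), hp.map _, ?_⟩
  apply emb_injective (R := R) (L := L)
  rw [map_zero, Polynomial.hom_eval₂, emb_comp_polyToSer, Polynomial.eval₂_map]
  have hcomp : ((jtHom (algebraMap R L).range N).comp
      (Polynomial.mapRingHom (rangeEquiv R L).toRingHom)).comp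
      (Polynomial.mapRingHom (rangeEquiv R L).symm.toRingHom) =
      jtHom (algebraMap R L).range N := by
    have h1 : (Polynomial.mapRingHom (rangeEquiv R L).toRingHom).comp
        (Polynomial.mapRingHom (rangeEquiv R L).symm.toRingHom) = RingHom.id _ := by
      apply Polynomial.ringHom_ext
      · intro a
        simp
      · simp
    rw [RingHom.comp_assoc, h1, RingHom.comp_id]
  rw [hcomp]
  exact h0

include hζR in
theorem zeta_mem_range : (ζ : L) ∈ (algebraMap R L).range :=
  ⟨(ζR : R), by rw [← hζR]; rfl⟩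

include hζR hζ in
/-- the input `hInt` of (D2) (for all `α`) -/
theorem exists_monic_polyToSer_phiSer (α : Idx N) :
    ∃ p : (R[X])[X], p.Monic ∧ eval₂ (polyToSer R N) (phiSer R ζR N α) p = 0 := by
  apply exists_monic_polyToSer_of_jtHom (L := L)
  rw [← phiSer_eq_emb ζR hζR]
  exact exists_monic_phiSer hζ _ (zeta_mem_range ζR hζR) α

include hζR hζ in
/-- the same for `x_α` -/
theorem exists_monic_polyToSer_xSer (α : Idx N) :
    ∃ p : (R[X])[X], p.Monic ∧ eval₂ (polyToSer R N) (xSer R ζR N α) p = 0 := by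
  apply exists_monic_polyToSer_of_jtHom (L := L)
  rw [← xSer_eq_emb ζR hζR]
  exact exists_monic_xSer hζ _ (zeta_mem_range ζR hζR) α

/-- the input `hAdj` of (D2): the residue field of `L(j) ∩ 𝒲` is `k(j̃)` -/
theorem gaussRed_mem_adjoin_jtSer (a : ↥(fieldM L ζ N))
    (haK : a ∈ fieldKj (L := L) (ζ := ζ) (N := N))
    (ha : (a : LaurentSeries L) ∈ gaussInt R L) :
    gaussRed R L ⟨(a : LaurentSeries L), ha⟩ ∈
      (IsLocalRing.ResidueField R)⟮jtSer (IsLocalRing.ResidueField R) N⟯ := by
  have h1 : (a : LaurentSeries L) ∈ L⟮qExpand L N (jqModC L)⟯ := by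
    have hmap : (fieldKj (L := L) (ζ := ζ) (N := N)).map (fieldM L ζ N).val =
        L⟮qExpand L N (jqModC L)⟯ := by
      rw [fieldKj, IntermediateField.adjoin_map, Set.image_singleton]
      congr 2
      exact coe_jt
    rw [← hmap]
    exact ⟨a, haK, rfl⟩
  have h2 := gaussRed_mem_adjoin (R := R) (L := L) (qExpand_jqModC_mem_gaussInt R L N)
    (by rw [gaussRed_qExpand_jqModC]; exact transcendental_qExpand_jqModC _ N) h1 ha
  rw [gaussRed_qExpand_jqModC] at h2
  exact h2

variable (ℓ : ℕ) [Fact ℓ.Prime] (hℓ : Irreducible ((ℓ : ℕ) : R))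

include hℓ in
/-- **(D2), unconditional form**: every `ρ(γ)` maps integral elements of the maximal ideal of the
Gauss valuation ring of `M` into the maximal ideal. -/
theorem rho_mem_nonunits_valM' (hℓN : ¬ ℓ ∣ N) (γ : SL(2, ℤ)) (x : ↥(fieldM L ζ N))
    (hx : IsIntegral (baseVal (K := ↥(fieldKj (L := L) (ζ := ζ) (N := N))) ↥(fieldM L ζ N)
      (valM ζR hζR)) x)
    (hx' : x ∈ (valM ζR hζR).nonunits) :
    rho hζ γ x ∈ (valM ζR hζR).nonunits :=
  rho_mem_nonunits_valM ζR hζR hζ ℓ hℓ hℓN
    (fun r h h0 => exists_monic_polyToSer_phiSer ζR hζR hζ (Idx.diag N r h h0))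
    (fun a haK ha => gaussRed_mem_adjoin_jtSer a haK ha) γ x hx hx'

end Inputs

end Fermat.Agent.Igusa
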