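/-
S28 (Igusa) — helper5.
(G2) "Q-stable ⇒ 𝒪-stable": if `𝒪` is a valuation subring of `M`, `M/K` algebraic, `A = 𝒪 ∩ K`, then
every element of `𝒪` is a quotient `b / s` of elements integral over `A` with `s` a unit of `𝒪`
(i.e. `𝒪` is the localisation of the integral closure of `A` at the centre of `𝒪`).  Consequently
an automorphism of `M/K` whose inverse maps the integral elements of the maximal ideal of `𝒪`
into the maximal ideal maps `𝒪` into `𝒪`.
-/
import Fermat.Agent.Igusa.G_lead_AKLB

set_option autoImplicit false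
set_option linter.unusedSectionVars false

open Polynomial

noncomputable section

namespace Fermat.Agent.Igusa

section Stable

variable {K M : Type*} [Field K] [Field M] [Algebra K M] (𝒪 : ValuationSubring M)

theorem algebraMap_mem_of_mem_baseVal {c : K} (hc : c ∈ baseVal (K := K) M 𝒪) :
    algebraMap K M c ∈ 𝒪 := hc

theorem valuation_algebraMap_le_one {c : K} (hc : c ∈ baseVal (K := K) M 𝒪) :
    𝒪.valuation (algebraMap K M c) ≤ 1 :=
  (𝒪.valuation_le_one_iff _).2 hc

theorem valuation_algebraMap_lt_one {c : K} (hc : c ∈ (baseVal (K := K) M 𝒪).nonunits) :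
    𝒪.valuation (algebraMap K M c) < 1 := by
  show algebraMap K M c ∈ 𝒪.nonunits
  rw [ValuationSubring.mem_nonunits_iff_or] at hc ⊢
  rcases hc with hc | hc
  · left; rw [hc, map_zero]
  · right
    rw [← map_inv₀]
    exact hc

/-- the algebraic core: a relation `∑_{i<k} a_i x^i + x^k y = 0` with `y = ∑ a_{k+i} x^i` shows
that `y` and `y x` lie in every valuation subring containing the `a_i`. -/
theorem mem_valuationSubring_of_relation (V : ValuationSubring M) (a : ℕ → M) (ha : ∀ i, a i ∈ V)
    (x : M) (k m : ℕ)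
    (hrel : ∑ i ∈ Finset.range k, a i * x ^ i +
      x ^ k * ∑ i ∈ Finset.range m, a (k + i) * x ^ i = 0) :
    (∑ i ∈ Finset.range m, a (k + i) * x ^ i) ∈ V ∧
      (∑ i ∈ Finset.range m, a (k + i) * x ^ i) * x ∈ V := by
  set y := ∑ i ∈ Finset.range m, a (k + i) * x ^ i with hy
  by_cases hxV : x ∈ V
  · have hyV : y ∈ V := V.toSubring.sum_mem fun i _ => V.mul_mem _ _ (ha _) (V.toSubring.pow_mem hxV i)
    exact ⟨hyV, V.mul_mem _ _ hyV hxV⟩
  · have hx0 : x ≠ 0 := fun h => hxV (h ▸ V.zero_mem)
    have hxi : x⁻¹ ∈ V := (V.mem_or_inv_mem x).resolve_left hxV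
    set w := ∑ i ∈ Finset.range k, a i * x⁻¹ ^ (k - 1 - i) with hw
    have hwV : w ∈ V :=
      V.toSubring.sum_mem fun i _ => V.mul_mem _ _ (ha _) (V.toSubring.pow_mem hxi _)
    have hkey : x ^ k * (y * x + w) = 0 := by
      have h1 : x ^ k * w = x * ∑ i ∈ Finset.range k, a i * x ^ i := by
        rw [hw, Finset.mul_sum, Finset.mul_sum]
        refine Finset.sum_congr rfl fun i hi => ?_
        have hik : i < k := Finset.mem_range.1 hi
        have hk : x ^ k = x ^ (i + 1) * x ^ (k - 1 - i) := by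
          rw [← pow_add]
          congr 1
          omega
        have h2 : x ^ k * x⁻¹ ^ (k - 1 - i) = x ^ (i + 1) := by
          rw [hk, mul_assoc, ← mul_pow, mul_inv_cancel₀ hx0, one_pow, mul_one]
        calc x ^ k * (a i * x⁻¹ ^ (k - 1 - i)) = a i * (x ^ k * x⁻¹ ^ (k - 1 - i)) := by ring
          _ = a i * x ^ (i + 1) := by rw [h2]
          _ = x * (a i * x ^ i) := by ring
      calc x ^ k * (y * x + w) = x * (x ^ k * y) + x ^ k * w := by ring
        _ = x * (x ^ k * y) + x * ∑ i ∈ Finset.range k, a i * x ^ i := by rw [h1]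
        _ = x * (∑ i ∈ Finset.range k, a i * x ^ i + x ^ k * y) := by ring
        _ = 0 := by rw [hrel, mul_zero]
    have hyx : y * x = -w := by
      have := (mul_eq_zero.1 hkey).resolve_left (pow_ne_zero k hx0)
      exact eq_neg_of_add_eq_zero_left this
    have hyxV : y * x ∈ V := by rw [hyx]; exact V.neg_mem _ hwV
    refine ⟨?_, hyxV⟩
    have : y = y * x * x⁻¹ := by rw [mul_assoc, mul_inv_cancel₀ hx0, mul_one]
    rw [this]
    exact V.mul_mem _ _ hyxV hxi

/-- membership in every valuation subring containing the image of `A` implies integrality -/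
theorem isIntegral_baseVal_of_forall_mem (y : M)
    (h : ∀ V : ValuationSubring M,
      (∀ c : K, c ∈ baseVal (K := K) M 𝒪 → algebraMap K M c ∈ V) → y ∈ V) :
    IsIntegral (baseVal (K := K) M 𝒪) y := by
  by_contra hy
  have hy' : y ∉ (integralClosure (baseVal (K := K) M 𝒪) M).toSubring := hy
  obtain ⟨V, hV, hyV⟩ := Subring.exists_le_valuationSubring_of_isIntegrallyClosedIn hy'
  apply hyV
  apply h V
  intro c hc
  apply hV
  have : IsIntegral (baseVal (K := K) M 𝒪)
      (algebraMap (baseVal (K := K) M 𝒪) M ⟨c, hc⟩) := isIntegral_algebraMap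
  exact this

/-- **`𝒪` is the localisation of the integral closure of `A = 𝒪 ∩ K` at its centre**: every element
of `𝒪` is a quotient `b / s` of integral elements with `s` a unit of `𝒪`. -/
theorem exists_isIntegral_div [Algebra.IsAlgebraic K M] {x : M} (hx : x ∈ 𝒪) :
    ∃ b s : M, IsIntegral (baseVal (K := K) M 𝒪) b ∧ IsIntegral (baseVal (K := K) M 𝒪) s ∧
      s ∈ 𝒪 ∧ s ∉ 𝒪.nonunits ∧ x * s = b := by
  classical
  set A := baseVal (K := K) M 𝒪 with hA
  obtain ⟨p, hp0, hpx⟩ := (Algebra.IsAlgebraic.isAlgebraic (R := K) x)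
  -- choose the index `k`: maximal valuation of the coefficient, and largest such index
  have hsupp : p.support.Nonempty := Polynomial.support_nonempty.2 hp0
  obtain ⟨j, hj, hjmax⟩ := Finset.exists_max_image p.support (fun i => A.valuation (p.coeff i)) hsupp
  set S := p.support.filter (fun i => A.valuation (p.coeff i) = A.valuation (p.coeff j)) with hS
  have hjS : j ∈ S := Finset.mem_filter.2 ⟨hj, rfl⟩
  set k := S.max' ⟨j, hjS⟩ with hk
  have hkS : k ∈ S := Finset.max'_mem S _
  have hksupp : k ∈ p.support := (Finset.mem_filter.1 hkS).1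
  have hkval : A.valuation (p.coeff k) = A.valuation (p.coeff j) := (Finset.mem_filter.1 hkS).2
  set c := p.coeff k with hc
  have hc0 : c ≠ 0 := Polynomial.mem_support_iff.1 hksupp
  have hvc : A.valuation c ≠ 0 := (Valuation.ne_zero_iff _).2 hc0
  -- normalised coefficients
  set q : ℕ → K := fun i => c⁻¹ * p.coeff i with hq
  have hqk : q k = 1 := inv_mul_cancel₀ hc0
  have hqle : ∀ i, q i ∈ A := by
    intro i
    rw [← A.valuation_le_one_iff, hq, map_mul, map_inv₀]
    by_cases hi : i ∈ p.support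
    · have := hjmax i hi
      rw [← hkval] at this
      exact (inv_mul_le_one₀ (zero_lt_iff.2 hvc)).2 this
    · rw [Polynomial.notMem_support_iff.1 hi, map_zero, mul_zero]
      exact zero_le_one
  have hqlt : ∀ i, k < i → q i ∈ A.nonunits := by
    intro i hi
    show A.valuation (q i) < 1
    rw [hq, map_mul, map_inv₀]
    by_cases his : i ∈ p.support
    · have h1 := hjmax i his
      have h2 : A.valuation (p.coeff i) ≠ A.valuation (p.coeff j) := by
        intro heq
        have hiS : i ∈ S := Finset.mem_filter.2 ⟨his, heq⟩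
        have := Finset.le_max' S i hiS
        omega
      have h3 : A.valuation (p.coeff i) < A.valuation c := by
        rw [hkval]
        exact lt_of_le_of_ne h1 h2
      exact (inv_mul_lt_one₀ (zero_lt_iff.2 hvc)).2 h3
    · rw [Polynomial.notMem_support_iff.1 his, map_zero, mul_zero]
      exact zero_lt_one
  -- the relation in `M`
  set a : ℕ → M := fun i => algebraMap K M (q i) with ha
  set n := p.natDegree with hn
  have hkn : k ≤ n := Polynomial.le_natDegree_of_mem_supp k hksupp
  obtain ⟨m, hm⟩ : ∃ m, n + 1 = k + m := ⟨n + 1 - k, by omega⟩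
  have hrel0 : ∑ i ∈ Finset.range (n + 1), a i * x ^ i = 0 := by
    have h1 : aeval x p = ∑ i ∈ Finset.range (n + 1), algebraMap K M (p.coeff i) * x ^ i := by
      rw [Polynomial.aeval_eq_sum_range]
      refine Finset.sum_congr rfl fun i _ => ?_
      rw [Algebra.smul_def]
    have h2 : ∑ i ∈ Finset.range (n + 1), a i * x ^ i = algebraMap K M c⁻¹ * aeval x p := by
      rw [h1, Finset.mul_sum]
      refine Finset.sum_congr rfl fun i _ => ?_
      show algebraMap K M (c⁻¹ * p.coeff i) * x ^ i = _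
      rw [map_mul, mul_assoc]
    rw [h2, hpx, mul_zero]
  have hrel : ∑ i ∈ Finset.range k, a i * x ^ i +
      x ^ k * ∑ i ∈ Finset.range m, a (k + i) * x ^ i = 0 := by
    rw [hm, Finset.sum_range_add] at hrel0
    rw [← hrel0, Finset.mul_sum]
    congr 1
    refine Finset.sum_congr rfl fun i _ => ?_
    rw [pow_add]
    ring
  set y := ∑ i ∈ Finset.range m, a (k + i) * x ^ i with hy
  -- integrality of `y` and `y x`
  have hint : IsIntegral A y ∧ IsIntegral A (y * x) := by
    constructor
    · apply isIntegral_baseVal_of_forall_mem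
      intro V hV
      exact (mem_valuationSubring_of_relation V a (fun i => hV _ (hqle i)) x k m hrel).1
    · apply isIntegral_baseVal_of_forall_mem
      intro V hV
      exact (mem_valuationSubring_of_relation V a (fun i => hV _ (hqle i)) x k m hrel).2
  -- `y` is a unit of `𝒪`
  have hm0 : m ≠ 0 := by omega
  obtain ⟨m', rfl⟩ := Nat.exists_eq_succ_of_ne_zero hm0
  have hy1 : y = 1 + ∑ i ∈ Finset.range m', a (k + (i + 1)) * x ^ (i + 1) := by
    rw [hy, Finset.sum_range_succ', add_comm]
    congr 1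
    rw [Nat.add_zero, pow_zero, mul_one, ha]
    show algebraMap K M (q k) = 1
    rw [hqk, map_one]
  have hvx : 𝒪.valuation x ≤ 1 := (𝒪.valuation_le_one_iff _).2 hx
  have hrest : 𝒪.valuation (∑ i ∈ Finset.range m', a (k + (i + 1)) * x ^ (i + 1)) < 1 := by
    apply Valuation.map_sum_lt _ one_ne_zero
    intro i _
    rw [map_mul, map_pow]
    have h1 : 𝒪.valuation (a (k + (i + 1))) < 1 :=
      valuation_algebraMap_lt_one 𝒪 (hqlt _ (by omega))
    have h2 : 𝒪.valuation x ^ (i + 1) ≤ 1 := pow_le_one₀ zero_le hvx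
    calc 𝒪.valuation (a (k + (i + 1))) * 𝒪.valuation x ^ (i + 1)
        ≤ 𝒪.valuation (a (k + (i + 1))) * 1 := mul_le_mul_of_nonneg_left h2 zero_le
      _ < 1 := by rw [mul_one]; exact h1
  have hvy : 𝒪.valuation y = 1 := by
    rw [hy1]
    exact Valuation.map_one_add_of_lt _ hrest
  refine ⟨y * x, y, hint.2, hint.1, ?_, ?_, mul_comm x y⟩
  · exact (𝒪.valuation_le_one_iff _).1 hvy.le
  · show ¬ 𝒪.valuation y < 1
    rw [hvy]
    exact lt_irrefl _

/-- **(G2)** an automorphism of `M/K` whose inverse maps the integral elements of the maximal ideal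
of `𝒪` into the maximal ideal maps `𝒪` into `𝒪`. -/
theorem map_mem_of_forall_symm_mem_nonunits [Algebra.IsAlgebraic K M] (σ : M ≃ₐ[K] M)
    (h : ∀ z : M, IsIntegral (baseVal (K := K) M 𝒪) z → z ∈ 𝒪.nonunits →
      σ.symm z ∈ 𝒪.nonunits) {x : M} (hx : x ∈ 𝒪) : σ x ∈ 𝒪 := by
  obtain ⟨b, s, hb, hs, hs𝒪, hsu, hxs⟩ := exists_isIntegral_div (K := K) 𝒪 hx
  have hmap : ∀ z : M, IsIntegral (baseVal (K := K) M 𝒪) z →
      IsIntegral (baseVal (K := K) M 𝒪) (σ z) := by
    intro z hz
    exact hz.map_of_comp_eq (RingHom.id _) (σ : M →+* M) (by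
      ext a
      simp only [RingHom.comp_apply, RingHom.id_apply, RingHom.coe_coe]
      rw [algebraMap_baseVal_apply, σ.commutes])
  have hσb : σ b ∈ 𝒪 := mem_of_isIntegral_baseVal 𝒪 (hmap b hb)
  have hσs : σ s ∈ 𝒪 := mem_of_isIntegral_baseVal 𝒪 (hmap s hs)
  have hσsu : σ s ∉ 𝒪.nonunits := by
    intro hmem
    have := h (σ s) (hmap s hs) hmem
    rw [σ.symm_apply_apply] at this
    exact hsu this
  have hvs : 𝒪.valuation (σ s) = 1 := by
    have h1 : 𝒪.valuation (σ s) ≤ 1 := (𝒪.valuation_le_one_iff _).2 hσs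
    have h2 : ¬ 𝒪.valuation (σ s) < 1 := hσsu
    exact le_antisymm h1 (not_lt.1 h2)
  have hs0 : σ s ≠ 0 := by
    intro h0
    rw [h0, map_zero] at hvs
    exact zero_ne_one hvs
  have hrel : σ x = σ b * (σ s)⁻¹ := by
    rw [← hxs, map_mul, mul_assoc, mul_inv_cancel₀ hs0, mul_one]
  rw [hrel]
  refine 𝒪.mul_mem _ _ hσb ?_
  rw [← 𝒪.valuation_le_one_iff, map_inv₀, hvs, inv_one]

end Stable

end Fermat.Agent.Igusa
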