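/-
S28 (Igusa) — helper5.
Instantiation of (G2): every `ρ(γ)` preserves the Gauss valuation ring of `M`, i.e. the hypothesis
`hS` of helper2's (A-final) `iotaF_coeff_minpoly_mem'` for `S = gaussInt R L`.
-/
import Fermat.Agent.Igusa.V_helper5_Stable
import Fermat.Agent.Igusa.V_helper5_Inputs

set_option autoImplicit false
set_option linter.unusedSectionVars false

open scoped MatrixGroups
open ModularCurve Polynomial IntermediateField Fermat.Agent.X0N

noncomputable section

namespace Fermat.Agent.Igusa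

section StableInst

variable {R : Type*} [CommRing R] [IsDomain R] [IsDiscreteValuationRing R]
  {L : Type*} [Field L] [Algebra R L] [IsFractionRing R L] [Algebra L ℂ]
  {ζ : Lˣ} {N : ℕ} [NeZero N]
  (ζR : Rˣ) (hζR : Units.map (algebraMap R L : R →* L) ζR = ζ)
  (hζ : algebraMap L ℂ (ζ : L) = zetaH (N : ℝ))
  (ℓ : ℕ) [Fact ℓ.Prime] (hℓ : Irreducible ((ℓ : ℕ) : R))

include hζR hℓ in
/-- **every `ρ(γ)` preserves the Gauss valuation ring `𝒪_M = M ∩ 𝒲`** -/
theorem rho_mem_gaussInt (hℓN : ¬ ℓ ∣ N) (γ : SL(2, ℤ)) (x : ↥(fieldM L ζ N))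
    (hx : (x : LaurentSeries L) ∈ gaussInt R L) :
    ((rho hζ γ x : ↥(fieldM L ζ N)) : LaurentSeries L) ∈ gaussInt R L := by
  have := finiteDimensional_fieldM hζ
  have halg : Algebra.IsAlgebraic ↥(fieldKj (L := L) (ζ := ζ) (N := N)) ↥(fieldM L ζ N) :=
    Algebra.IsAlgebraic.of_finite _ _
  have h := map_mem_of_forall_symm_mem_nonunits
    (K := ↥(fieldKj (L := L) (ζ := ζ) (N := N))) (valM ζR hζR) (rhoK hζ γ)
    (fun z hz hz' => by
      have hsymm : (rhoK hζ γ).symm = rhoK hζ γ⁻¹ := by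
        rw [map_inv]
        rfl
      rw [hsymm, rhoK_apply]
      exact rho_mem_nonunits_valM' ζR hζR hζ ℓ hℓ hℓN γ⁻¹ z hz hz') (x := x) hx
  exact h

end StableInst

end Fermat.Agent.Igusa
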