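import Mathlib
import Fermat.Agent.Igusa.A_helper2_Bridge
import Fermat.Prelude.Def_ModularCurve_IgusaScheme

/-!
# S28 package (A), part 10: (A-final) in an instance-free form

The coefficients of the minimal polynomial of `y ∈ F = ℚ(j(q^d) : d ∣ N)` over **any** presentation
`K₀` of the subfield `ℚ(j)` descend to every `ρ`-stable subring of `L((t))` containing `ι y`.
-/

set_option autoImplicit false

namespace Fermat.Agent.Igusa

open UpperHalfPlane hiding I
open Complex Filter Function Topology ModularCurve ModularForm IntermediateField Polynomial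
open Fermat.Agent.RatStr Fermat.Agent.X0N CongruenceSubgroup
open scoped Manifold MatrixGroups Real ModularForm

noncomputable section

section General

variable {K₁ K₂ E : Type*} [Field K₁] [Field K₂] [Field E] [Algebra K₁ E] [Algebra K₂ E]

/-- if the image of `K₂` in `E` is contained in the image of `K₁`, the minimal polynomial over
`K₁` divides the minimal polynomial over `K₂`. -/
theorem minpoly_map_dvd_of_range_le
    (h : ∀ a : K₂, ∃ b : K₁, algebraMap K₁ E b = algebraMap K₂ E a) (x : E)
    (hx : IsIntegral K₂ x) :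
    IsIntegral K₁ x ∧
      (minpoly K₁ x).map (algebraMap K₁ E) ∣ (minpoly K₂ x).map (algebraMap K₂ E) := by
  have hl : (minpoly K₂ x).map (algebraMap K₂ E) ∈ Polynomial.lifts (algebraMap K₁ E) := by
    rw [Polynomial.lifts_iff_coeff_lifts]
    intro i
    rw [coeff_map]
    exact h _
  obtain ⟨Q, hQ, -, hQm⟩ :=
    Polynomial.lifts_and_natDegree_eq_and_monic hl ((minpoly.monic hx).map _)
  have hroot : Polynomial.aeval x Q = 0 := by
    rw [Polynomial.aeval_def, ← Polynomial.eval_map, hQ, Polynomial.eval_map,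
      ← Polynomial.aeval_def, minpoly.aeval]
  refine ⟨⟨Q, hQm, hroot⟩, ?_⟩
  rw [← hQ]
  exact Polynomial.map_dvd _ (minpoly.dvd K₁ x hroot)

/-- the minimal polynomial only depends on the image of the base field. -/
theorem minpoly_map_eq_of_range_eq
    (h₁ : ∀ a : K₂, ∃ b : K₁, algebraMap K₁ E b = algebraMap K₂ E a)
    (h₂ : ∀ b : K₁, ∃ a : K₂, algebraMap K₂ E a = algebraMap K₁ E b) (x : E) :
    (minpoly K₁ x).map (algebraMap K₁ E) = (minpoly K₂ x).map (algebraMap K₂ E) := by
  by_cases hx : IsIntegral K₂ x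
  · obtain ⟨hx', hd⟩ := minpoly_map_dvd_of_range_le h₁ x hx
    obtain ⟨-, hd'⟩ := minpoly_map_dvd_of_range_le h₂ x hx'
    exact Polynomial.eq_of_monic_of_associated ((minpoly.monic hx').map _)
      ((minpoly.monic hx).map _) (associated_of_dvd_dvd hd hd')
  · have hx' : ¬ IsIntegral K₁ x := fun h => hx (minpoly_map_dvd_of_range_le h₂ x h).1
    rw [minpoly.eq_zero hx, minpoly.eq_zero hx', Polynomial.map_zero, Polynomial.map_zero]

end General

section Desc

variable {L : Type*} [Field L] [Algebra ℚ L] [Algebra L ℂ] {ζ : Lˣ} {N : ℕ} [NeZero N]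
  (hζ : algebraMap L ℂ (ζ : L) = zetaH (N : ℝ))

/-- rational constants lie in every subfield. -/
theorem ratCast_mem_subfield {E : Type*} [Field E] (K : Subfield E) (f : ℚ →+* E) (c : ℚ) :
    f c ∈ K := by
  rw [eq_ratCast f c]
  exact SubfieldClass.ratCast_mem K c

/-- the image of `ℚ(x)` (for any `ℚ`-algebra structure on the field `F'`) is the subfield generated
by `x`; this discharges the hypothesis `hK₀` of `iotaF_coeff_minpoly_mem'` for
`K₀ = ℚ⟮jFull N⟯`. -/
theorem fieldRange_adjoin_rat {F' : Type*} [Field F'] [Algebra ℚ F'] (x : F') :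
    (algebraMap ℚ⟮x⟯ F').fieldRange = Subfield.closure {x} := by
  apply le_antisymm
  · rintro _ ⟨⟨b, hb⟩, rfl⟩
    show b ∈ Subfield.closure {x}
    induction hb using IntermediateField.adjoin_induction with
    | mem z hz => exact Subfield.subset_closure hz
    | algebraMap c => exact ratCast_mem_subfield _ (algebraMap ℚ F') c
    | add x y _ _ hx hy => exact add_mem hx hy
    | mul x y _ _ hx hy => exact mul_mem hx hy
    | inv x _ hx => exact inv_mem hx
  · rw [Subfield.closure_le]
    intro z hz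
    rw [Set.mem_singleton_iff] at hz
    subst hz
    exact ⟨⟨z, IntermediateField.mem_adjoin_simple_self ℚ z⟩, rfl⟩

/-- the image of `ℚ(j) ⊆ FNk ℚ N` in `ℚ((q))` is the subfield generated by `jq`. -/
theorem exists_adjoin_jB_iff (z : LaurentSeries ℚ) :
    (∃ b : fieldKJ ℚ N, ((b : FNk ℚ N) : LaurentSeries ℚ) = z) ↔
      z ∈ Subfield.closure {jq} := by
  constructor
  · rintro ⟨⟨b, hb⟩, rfl⟩
    show ((b : FNk ℚ N) : LaurentSeries ℚ) ∈ Subfield.closure {jq}
    induction hb using IntermediateField.adjoin_induction with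
    | mem x hx =>
      rw [Set.mem_singleton_iff] at hx
      subst hx
      apply Subfield.subset_closure
      show coeffEmb ℚ (qExpand ℚ 1 jq) = jq
      rw [qExpand_one_apply, coeffEmb]
      have : algebraMap ℚ ℚ = RingHom.id ℚ := Subsingleton.elim _ _
      rw [coeffMap_congr this, coeffMap_id]
    | algebraMap c =>
      have : ∀ A : ℚ →+* FNk ℚ N, ((A c : FNk ℚ N) : LaurentSeries ℚ) ∈
          Subfield.closure {jq} := fun A =>
        ratCast_mem_subfield _ ((algebraMap (FNk ℚ N) (LaurentSeries ℚ)).comp A) c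
      exact this _
    | add x y _ _ hx hy => exact add_mem hx hy
    | mul x y _ _ hx hy => exact mul_mem hx hy
    | inv x _ hx => exact inv_mem hx
  · intro hz
    induction hz using Subfield.closure_induction with
    | mem x hx =>
      rw [Set.mem_singleton_iff] at hx
      subst hx
      refine ⟨⟨jB (k := ℚ) N, jB_mem_fieldKJ ℚ N⟩, ?_⟩
      show coeffEmb ℚ (qExpand ℚ 1 jq) = jq
      rw [qExpand_one_apply, coeffEmb]
      have : algebraMap ℚ ℚ = RingHom.id ℚ := Subsingleton.elim _ _
      rw [coeffMap_congr this, coeffMap_id]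
    | one => exact ⟨1, rfl⟩
    | add x y _ _ hx hy =>
      obtain ⟨a, rfl⟩ := hx
      obtain ⟨b, rfl⟩ := hy
      exact ⟨a + b, rfl⟩
    | neg x _ hx =>
      obtain ⟨a, rfl⟩ := hx
      exact ⟨-a, rfl⟩
    | inv x _ hx =>
      obtain ⟨a, rfl⟩ := hx
      exact ⟨a⁻¹, rfl⟩
    | mul x y _ _ hx hy =>
      obtain ⟨a, rfl⟩ := hx
      obtain ⟨b, rfl⟩ := hy
      exact ⟨a * b, rfl⟩

include hζ

/-- **(A-final)**, instance-free form over the ambient field `ℚ((q))`: `K₀` is any field with an
algebra structure on `ℚ((q))` whose image is the subfield generated by `jq`. -/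
theorem iotaF_coeff_minpoly_mem {K₀ : Type*} [Field K₀] [Algebra K₀ (LaurentSeries ℚ)]
    (hK₀ : (algebraMap K₀ (LaurentSeries ℚ)).fieldRange = Subfield.closure {jq})
    (S : Subring (LaurentSeries L))
    (hS : ∀ (γ : SL(2, ℤ)) (x : ↥(fieldM L ζ N)), (x : LaurentSeries L) ∈ S →
      ((rho hζ γ x : ↥(fieldM L ζ N)) : LaurentSeries L) ∈ S)
    (y : LaurentSeries ℚ) (hy : y ∈ modularFunctionFieldFull N) (hyS : iotaF L N y ∈ S) (i : ℕ) :
    iotaF L N (algebraMap K₀ (LaurentSeries ℚ) ((minpoly K₀ y).coeff i)) ∈ S := by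
  have hy₁ : y ∈ laurentBaseChange ℚ (modularFunctionFieldFull N) := by
    rw [laurentBaseChange_rat]; exact hy
  set x₁ : FNk ℚ N := ⟨y, hy₁⟩ with hx₁
  have key := iotaF_minpolyCoeffJ_mem hζ S hS x₁ hyS i
  -- the two minimal polynomials agree
  have h1 : minpoly (fieldKJ ℚ N) x₁ = minpoly (fieldKJ ℚ N) y := by
    have := minpoly.algebraMap_eq (A := fieldKJ ℚ N) (B := FNk ℚ N)
      (B' := LaurentSeries ℚ) (algebraMap (FNk ℚ N) (LaurentSeries ℚ)).injective x₁
    rw [← this]
    rfl
  have h2 := minpoly_map_eq_of_range_eq (K₁ := fieldKJ ℚ N) (K₂ := K₀)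
    (E := LaurentSeries ℚ)
    (by
      intro a
      have : algebraMap K₀ (LaurentSeries ℚ) a ∈ Subfield.closure {jq} := by
        rw [← hK₀]; exact ⟨a, rfl⟩
      exact (exists_adjoin_jB_iff _).mpr this)
    (by
      intro b
      have : ((b : FNk ℚ N) : LaurentSeries ℚ) ∈ Subfield.closure {jq} :=
        (exists_adjoin_jB_iff _).mp ⟨b, rfl⟩
      rw [← hK₀] at this
      exact this) y
  have h3 := congrArg (fun p => Polynomial.coeff p i) h2
  simp only [coeff_map] at h3
  rw [← h3, ← h1]
  unfold minpolyCoeffJ at key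
  have e : ∀ c : fieldKJ ℚ N,
      algebraMap (fieldKJ ℚ N) (LaurentSeries ℚ) c = ((c : FNk ℚ N) : LaurentSeries ℚ) :=
    fun c => rfl
  rw [e]
  exact key

/-- **(A-final)**, instance-free form over `F = modularFunctionFieldFull N`: `K₀` is any field with
an algebra structure on `F` whose image is the subfield generated by `j`. -/
theorem iotaF_coeff_minpoly_mem' {K₀ : Type*} [Field K₀]
    [Algebra K₀ ↥(modularFunctionFieldFull N)]
    (hK₀ : (algebraMap K₀ ↥(modularFunctionFieldFull N)).fieldRange =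
      Subfield.closure {IgusaScheme.jFull N})
    (S : Subring (LaurentSeries L))
    (hS : ∀ (γ : SL(2, ℤ)) (x : ↥(fieldM L ζ N)), (x : LaurentSeries L) ∈ S →
      ((rho hζ γ x : ↥(fieldM L ζ N)) : LaurentSeries L) ∈ S)
    (y : ↥(modularFunctionFieldFull N)) (hyS : iotaF L N (y : LaurentSeries ℚ) ∈ S) (i : ℕ) :
    iotaF L N ((algebraMap K₀ ↥(modularFunctionFieldFull N) ((minpoly K₀ y).coeff i) :
      ↥(modularFunctionFieldFull N)) : LaurentSeries ℚ) ∈ S := by
  letI alg : Algebra K₀ (LaurentSeries ℚ) :=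
    ((algebraMap ↥(modularFunctionFieldFull N) (LaurentSeries ℚ)).comp
      (algebraMap K₀ ↥(modularFunctionFieldFull N))).toAlgebra
  haveI : IsScalarTower K₀ ↥(modularFunctionFieldFull N) (LaurentSeries ℚ) :=
    IsScalarTower.of_algebraMap_eq' rfl
  have h1 : minpoly K₀ (y : LaurentSeries ℚ) = minpoly K₀ y :=
    minpoly.algebraMap_eq (A := K₀) (B := ↥(modularFunctionFieldFull N))
      (B' := LaurentSeries ℚ)
      (algebraMap ↥(modularFunctionFieldFull N) (LaurentSeries ℚ)).injective y
  have hr : (algebraMap K₀ (LaurentSeries ℚ)).fieldRange = Subfield.closure {jq} := by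
    have e : (algebraMap K₀ (LaurentSeries ℚ)) =
        (algebraMap ↥(modularFunctionFieldFull N) (LaurentSeries ℚ)).comp
          (algebraMap K₀ ↥(modularFunctionFieldFull N)) := rfl
    rw [e, ← RingHom.map_fieldRange, hK₀, RingHom.map_field_closure, Set.image_singleton]
    rfl
  have := iotaF_coeff_minpoly_mem hζ hr S hS (y : LaurentSeries ℚ) y.2 hyS i
  rw [h1] at this
  exact this

end Desc

end

end Fermat.Agent.Igusa
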