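import Mathlib
import Fermat.Prelude.Def_ModularCurve_IgusaScheme
import Fermat.Agent.Igusa.V_helper5_Cyclo

set_option autoImplicit false
set_option linter.unusedSectionVars false

open ModularCurve ModularCurve.IgusaScheme Polynomial

noncomputable section

namespace Fermat.Agent.Igusa

/-- an element integral over a ring mapping into a valuation subring lies in it. -/
theorem mem_valuationSubring_of_isIntegral {F : Type*} [Field F] (𝒪 : ValuationSubring F)
    {A₁ : Type*} [CommRing A₁] [Algebra A₁ F] (h : ∀ a : A₁, algebraMap A₁ F a ∈ 𝒪) {x : F}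
    (hx : IsIntegral A₁ x) : x ∈ 𝒪 := by
  have h1 : IsIntegral 𝒪 x :=
    hx.map_of_comp_eq ((algebraMap A₁ F).codRestrict 𝒪 h) (RingHom.id F) (by ext a; rfl)
  obtain ⟨y, hy⟩ := IsIntegrallyClosed.isIntegral_iff.mp h1
  rw [← hy]
  exact y.2

variable (N : ℕ) [NeZero N] (ℓ : ℕ) [Fact ℓ.Prime]

theorem fullField_le_gaussField :
    modularFunctionFieldFull N ≤ gaussField (GaloisRep.ratLocalizedAt ℓ) ℚ :=
  modularFunctionFieldFullC_le_gaussField (GaloisRep.ratLocalizedAt ℓ) ℚ N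

/-- the Gauss valuation ring `𝒪_w` of the Prelude's function field. -/
abbrev valF : ValuationSubring ↥(modularFunctionFieldFull N) :=
  gaussValSub (GaloisRep.ratLocalizedAt ℓ) ℚ (modularFunctionFieldFull N)
    (fullField_le_gaussField N ℓ)

/-- the coercion `F → ℚ((q))` as a bare ring hom. -/
def fullFieldCoe : ↥(modularFunctionFieldFull N) →+* LaurentSeries ℚ where
  toFun x := (x : LaurentSeries ℚ)
  map_one' := rfl
  map_mul' _ _ := rfl
  map_zero' := rfl
  map_add' _ _ := rfl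

theorem coe_ratHom_apply (g : ℚ →+* ↥(modularFunctionFieldFull N)) (c : ℚ) :
    ((g c : ↥(modularFunctionFieldFull N)) : LaurentSeries ℚ) =
      algebraMap ℚ (LaurentSeries ℚ) c :=
  congrArg (fun f : ℚ →+* LaurentSeries ℚ => f c)
    (RingHom.ext_rat ((fullFieldCoe N).comp g) (algebraMap ℚ (LaurentSeries ℚ)))

theorem coe_algebraMap_zl (a : ↥(GaloisRep.ratLocalizedAt ℓ)) :
    ((algebraMap ↥(GaloisRep.ratLocalizedAt ℓ) ↥(modularFunctionFieldFull N) a :
      ↥(modularFunctionFieldFull N)) : LaurentSeries ℚ) =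
      constR (R := GaloisRep.ratLocalizedAt ℓ) (L := ℚ) a := by
  rw [constR, RingHom.comp_apply,
    IsScalarTower.algebraMap_apply ↥(GaloisRep.ratLocalizedAt ℓ) ℚ ↥(modularFunctionFieldFull N)]
  exact coe_ratHom_apply N _ _

theorem algebraMap_mem_valF (a : ↥(GaloisRep.ratLocalizedAt ℓ)) :
    algebraMap ↥(GaloisRep.ratLocalizedAt ℓ) ↥(modularFunctionFieldFull N) a ∈ valF N ℓ := by
  show ((algebraMap ↥(GaloisRep.ratLocalizedAt ℓ) ↥(modularFunctionFieldFull N) a :
      ↥(modularFunctionFieldFull N)) : LaurentSeries ℚ) ∈ gaussInt (GaloisRep.ratLocalizedAt ℓ) ℚ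
  rw [coe_algebraMap_zl]
  exact constR_mem_gaussInt a

theorem jFull_mem_valF : jFull N ∈ valF N ℓ :=
  jqModC_mem_gaussInt (GaloisRep.ratLocalizedAt ℓ) ℚ

theorem jFull_inv_mem_valF : (jFull N)⁻¹ ∈ valF N ℓ := by
  show (((jFull N)⁻¹ : ↥(modularFunctionFieldFull N)) : LaurentSeries ℚ) ∈
    gaussInt (GaloisRep.ratLocalizedAt ℓ) ℚ
  rw [IntermediateField.coe_inv]
  exact inv_jqModC_mem_gaussInt (GaloisRep.ratLocalizedAt ℓ) ℚ

variable {N ℓ}

theorem adjoin_le_valF {S : Set ↥(modularFunctionFieldFull N)} (hS : ∀ s ∈ S, s ∈ valF N ℓ)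
    (x : ↥(modularFunctionFieldFull N))
    (hx : x ∈ Algebra.adjoin ↥(GaloisRep.ratLocalizedAt ℓ) S) : x ∈ valF N ℓ := by
  induction hx using Algebra.adjoin_induction with
  | mem y hy => exact hS y hy
  | algebraMap a => exact algebraMap_mem_valF N ℓ a
  | add y z _ _ hy hz => exact (valF N ℓ).add_mem _ _ hy hz
  | mul y z _ _ hy hz => exact (valF N ℓ).mul_mem _ _ hy hz

theorem chartAlg_le_valF {S : Set ↥(modularFunctionFieldFull N)} (hS : ∀ s ∈ S, s ∈ valF N ℓ)
    (x : ↥(modularFunctionFieldFull N)) (hx : x ∈ chartAlg N ℓ S) : x ∈ valF N ℓ := by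
  have hx' : IsIntegral (Algebra.adjoin ↥(GaloisRep.ratLocalizedAt ℓ) S) x := hx
  have h : ∀ a : Algebra.adjoin ↥(GaloisRep.ratLocalizedAt ℓ) S,
      algebraMap (Algebra.adjoin ↥(GaloisRep.ratLocalizedAt ℓ) S) ↥(modularFunctionFieldFull N) a ∈
        valF N ℓ := fun a => adjoin_le_valF hS _ a.2
  exact mem_valuationSubring_of_isIntegral (valF N ℓ) h hx'

/-- the inclusion `A_S → 𝒪_w`. -/
def chartToValF {S : Set ↥(modularFunctionFieldFull N)} (hS : ∀ s ∈ S, s ∈ valF N ℓ) :
    chartAlg N ℓ S →+* valF N ℓ where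
  toFun x := ⟨(x : ↥(modularFunctionFieldFull N)), chartAlg_le_valF hS x x.2⟩
  map_one' := rfl
  map_mul' _ _ := rfl
  map_zero' := rfl
  map_add' _ _ := rfl

/-- the reduction map `A_S → 𝔽_ℓ((q))`. -/
def chartRed {S : Set ↥(modularFunctionFieldFull N)} (hS : ∀ s ∈ S, s ∈ valF N ℓ) :
    chartAlg N ℓ S →+* LaurentSeries (ZMod ℓ) :=
  ((coeffMap (residueFieldZlEquiv ℓ).toRingHom).comp
    (gaussValRed (GaloisRep.ratLocalizedAt ℓ) ℚ (modularFunctionFieldFull N)
      (fullField_le_gaussField N ℓ))).comp (chartToValF hS)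

theorem coe_gaussValSubC_ellZl :
    ((gaussValSubC (modularFunctionFieldFull N) (fullField_le_gaussField N ℓ) (ellZl ℓ) :
      valF N ℓ) : ↥(modularFunctionFieldFull N)) = ((ℓ : ℕ) : ↥(modularFunctionFieldFull N)) := by
  unfold gaussValSubC
  simp only [ellZl, map_natCast]

/-- **Kernel of the reduction map** on a chart algebra, given the Igusa property. -/
theorem ker_chartRed_of_core {S : Set ↥(modularFunctionFieldFull N)}
    (hS : ∀ s ∈ S, s ∈ valF N ℓ)
    (hcore : ∀ y : ↥(modularFunctionFieldFull N), y ∈ valF N ℓ →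
      ((ℓ : ℕ) : ↥(modularFunctionFieldFull N)) * y ∈ chartAlg N ℓ S → y ∈ chartAlg N ℓ S) :
    RingHom.ker (chartRed hS) = Ideal.span {((ℓ : ℕ) : chartAlg N ℓ S)} := by
  apply le_antisymm
  · intro x hx
    rw [RingHom.mem_ker, chartRed, RingHom.comp_apply, RingHom.comp_apply] at hx
    have hinj : Function.Injective (coeffMap (residueFieldZlEquiv ℓ).toRingHom) :=
      coeffMapV_injective (residueFieldZlEquiv ℓ).injective
    rw [map_eq_zero_iff _ hinj, ← mem_maximalIdeal_gaussValSub_iff,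
      maximalIdeal_gaussValSub (irreducible_ellZl ℓ), Ideal.mem_span_singleton] at hx
    obtain ⟨y, hy⟩ := hx
    have hxy : (x : ↥(modularFunctionFieldFull N)) =
        ((ℓ : ℕ) : ↥(modularFunctionFieldFull N)) * (y : ↥(modularFunctionFieldFull N)) := by
      have := congrArg (fun z : valF N ℓ => (z : ↥(modularFunctionFieldFull N))) hy
      rw [← coe_gaussValSubC_ellZl]
      exact this
    have hymem : (y : ↥(modularFunctionFieldFull N)) ∈ chartAlg N ℓ S := by
      apply hcore _ y.2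
      rw [← hxy]
      exact x.2
    rw [Ideal.mem_span_singleton]
    refine ⟨⟨(y : ↥(modularFunctionFieldFull N)), hymem⟩, Subtype.ext ?_⟩
    rw [hxy]
    rfl
  · rw [Ideal.span_le, Set.singleton_subset_iff, SetLike.mem_coe, RingHom.mem_ker, map_natCast]
    have : ((ℓ : ℕ) : LaurentSeries (ZMod ℓ)) = HahnSeries.C ((ℓ : ℕ) : ZMod ℓ) :=
      (map_natCast (HahnSeries.C : ZMod ℓ →+* LaurentSeries (ZMod ℓ)) ℓ).symm
    rw [this, ZMod.natCast_self, map_zero]

end Fermat.Agent.Igusa
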