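/-
S28 (Igusa) — helper5.
(I0) existence of the cyclotomic setup `(ℂ-embedding of L, ζ ∈ Lˣ with ζ ↦ e^{2πi/N}, ζ_R ∈ Rˣ)`;
(I1) all `ρ`-conjugates of `ι y`, `y ∈ 𝒪_w = F ∩ 𝒲_ℚ`, lie in the Gauss valuation ring of `L((t))`.
-/
import Fermat.Agent.Igusa.A_helper2_Descent
import Fermat.Agent.Igusa.A_helper2_Integral
import Fermat.Agent.Igusa.V_helper5_StableInst
import Fermat.Agent.Igusa.K2_lead_Chart

set_option autoImplicit false
set_option linter.unusedSectionVars false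
set_option linter.unusedVariables false
set_option linter.style.haveILetI false

open scoped MatrixGroups
open ModularCurve ModularCurve.IgusaScheme Polynomial IntermediateField Fermat.Agent.X0N

noncomputable section

namespace Fermat.Agent.Igusa

variable (N : ℕ) [NeZero N] (ℓ : ℕ) [Fact ℓ.Prime]

/-- **(I0)** the cyclotomic setup exists. -/
theorem exists_cyc_setup : ∃ (_ : Algebra (cycL N) ℂ) (ζ : (cycL N)ˣ) (ζR : (cycR N ℓ)ˣ),
    algebraMap (cycL N) ℂ (ζ : cycL N) = zetaH (N : ℝ) ∧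
      Units.map (algebraMap (cycR N ℓ) (cycL N) : cycR N ℓ →* cycL N) ζR = ζ := by
  -- an embedding `L → ℂ`
  have halg : Algebra.IsAlgebraic ℚ (cycL N) := inferInstance
  let e : cycL N →ₐ[ℚ] ℂ := IsAlgClosed.lift
  letI inst : Algebra (cycL N) ℂ := e.toRingHom.toAlgebra
  obtain ⟨ζ, hζ⟩ := exists_zeta (L := cycL N) (N := N)
    ⟨_, IsCyclotomicExtension.zeta_spec N ℚ (cycL N)⟩
  have hprim : IsPrimitiveRoot (ζ : cycL N) N := isPrimitiveRoot_zeta hζ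
  have hint : IsIntegral ℤ (ζ : cycL N) := hprim.isIntegral (Nat.pos_of_ne_zero (NeZero.ne N))
  obtain ⟨r, hr⟩ := exists_cycR_of_isIntegral N ℓ hint
  have hrN : r ^ N = 1 := by
    apply algebraMap_cycR_injective N ℓ
    rw [map_pow, hr, hprim.pow_eq_one, map_one]
  refine ⟨inst, ζ, Units.ofPowEqOne r N hrN (NeZero.ne N), hζ, ?_⟩
  apply Units.ext
  exact hr

variable [Algebra (cycL N) ℂ] {ζ : (cycL N)ˣ}
  (hζ : algebraMap (cycL N) ℂ (ζ : cycL N) = zetaH (N : ℝ))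
  (ζR : (cycR N ℓ)ˣ)
  (hζR : Units.map (algebraMap (cycR N ℓ) (cycL N) : cycR N ℓ →* cycL N) ζR = ζ)

variable {N ℓ}

/-- `ι` maps `𝒪_w = F ∩ 𝒲_ℚ` into `𝒲_L`. -/
theorem iotaF_mem_gaussInt_of_mem_valF (y : ↥(modularFunctionFieldFull N)) (hy : y ∈ valF N ℓ) :
    iotaF (cycL N) N (y : LaurentSeries ℚ) ∈ gaussInt (cycR N ℓ) (cycL N) :=
  (gaussHomIota N ℓ).map_mem_gaussInt hy

include hζR in
/-- **(I1), strong form**: every `ρ`-conjugate of `ι y`, `y ∈ 𝒪_w`, is in the Gauss valuation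
ring. -/
theorem rho_iotaF_mem_gaussInt (hℓN : ¬ ℓ ∣ N) (y : ↥(modularFunctionFieldFull N))
    (hy : y ∈ valF N ℓ) (γ : SL(2, ℤ)) :
    ((rho hζ γ ⟨iotaF (cycL N) N (y : LaurentSeries ℚ), iotaF_mem y.2⟩ :
      ↥(fieldM (cycL N) ζ N)) : LaurentSeries (cycL N)) ∈ gaussInt (cycR N ℓ) (cycL N) :=
  rho_mem_gaussInt ζR hζR hζ ℓ (irreducible_natCast_cycR N ℓ hℓN) hℓN γ _
    (iotaF_mem_gaussInt_of_mem_valF y hy)

include hζR in
/-- **(I1)**, literal form requested by lead (the hypotheses `hs`, `hly` are not needed). -/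
theorem conj_iotaF_mem_gaussInt (hℓN : ¬ ℓ ∣ N) {s : ↥(modularFunctionFieldFull N)}
    (hs : s = jFull N ∨ s = (jFull N)⁻¹) (y : ↥(modularFunctionFieldFull N))
    (hy : y ∈ valF N ℓ)
    (hly : IsIntegral (Algebra.adjoin ↥(GaloisRep.ratLocalizedAt ℓ) {s})
      (((ℓ : ℕ) : ↥(modularFunctionFieldFull N)) * y))
    (γ : SL(2, ℤ)) :
    ((rho hζ γ ⟨iotaF (cycL N) N (y : LaurentSeries ℚ), iotaF_mem y.2⟩ :
      ↥(fieldM (cycL N) ζ N)) : LaurentSeries (cycL N)) ∈ gaussInt (cycR N ℓ) (cycL N) :=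
  rho_iotaF_mem_gaussInt hζ ζR hζR hℓN y hy γ

end Fermat.Agent.Igusa
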