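import Mathlib
import Fermat.Agent.Igusa.A_helper2_Descent
import Fermat.Agent.Igusa.A_helper2_Integral
import Fermat.Agent.Igusa.V_helper5_Inputs
import Fermat.Agent.Igusa.K_lead_Core
import Fermat.Agent.Igusa.K2_lead_Chart

/-!
# S28, leaf (I2): Igusa's integrality step

If `ℓ y` is integral over `ℤ_(ℓ)[s]` (`s = j` or `j⁻¹`) and all `ρ`-conjugates of `ι y` are
Gauss-integral, then `y` is integral over `ℤ_(ℓ)[s]`.
-/

set_option autoImplicit false
set_option linter.unusedSectionVars false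

open scoped MatrixGroups
open ModularCurve ModularCurve.IgusaScheme Polynomial IntermediateField Fermat.Agent.X0N

noncomputable section

namespace Fermat.Agent.Igusa

attribute [local instance] FractionRing.liftAlgebra

/-! ### the image of the fraction field of a subalgebra -/

section FracRange

variable {R₀ F : Type*} [CommRing R₀] [Field F] [Algebra R₀ F] (A : Subalgebra R₀ F)

theorem fieldRange_liftAlgebra_le (K : Subfield F) (hA : ∀ a ∈ A, a ∈ K) :
    (algebraMap (FractionRing ↥A) F).fieldRange ≤ K := by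
  rintro _ ⟨z, rfl⟩
  obtain ⟨a, b, -, rfl⟩ := IsFractionRing.div_surjective (A := ↥A) z
  rw [map_div₀, ← IsScalarTower.algebraMap_apply, ← IsScalarTower.algebraMap_apply]
  exact div_mem (hA _ a.2) (hA _ b.2)

theorem mem_fieldRange_liftAlgebra {a : F} (ha : a ∈ A) :
    a ∈ (algebraMap (FractionRing ↥A) F).fieldRange :=
  ⟨algebraMap ↥A (FractionRing ↥A) ⟨a, ha⟩, (IsScalarTower.algebraMap_apply ↥A _ F _).symm⟩

end FracRange

/-! ### the subring of elements all of whose conjugates lie in a given subring -/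

section Stable

variable {L : Type*} [Field L] [Algebra L ℂ] {ζ : Lˣ} {N : ℕ} [NeZero N]
  (hζ : algebraMap L ℂ (ζ : L) = zetaH (N : ℝ)) (W : Subring (LaurentSeries L))

/-- the elements of `M` all of whose `ρ`-conjugates lie in `W`. -/
def conjSubring : Subring (LaurentSeries L) where
  carrier := {f | ∃ hf : f ∈ fieldM L ζ N, ∀ γ : SL(2, ℤ),
    ((rho hζ γ ⟨f, hf⟩ : ↥(fieldM L ζ N)) : LaurentSeries L) ∈ W}
  mul_mem' := by
    rintro f g ⟨hf, h1⟩ ⟨hg, h2⟩
    refine ⟨mul_mem hf hg, fun γ => ?_⟩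
    have e : (⟨f * g, mul_mem hf hg⟩ : ↥(fieldM L ζ N)) = ⟨f, hf⟩ * ⟨g, hg⟩ := rfl
    rw [e, map_mul]
    exact W.mul_mem (h1 γ) (h2 γ)
  one_mem' := by
    refine ⟨one_mem _, fun γ => ?_⟩
    have e : (⟨1, one_mem _⟩ : ↥(fieldM L ζ N)) = 1 := rfl
    rw [e, map_one]
    exact W.one_mem
  add_mem' := by
    rintro f g ⟨hf, h1⟩ ⟨hg, h2⟩
    refine ⟨add_mem hf hg, fun γ => ?_⟩
    have e : (⟨f + g, add_mem hf hg⟩ : ↥(fieldM L ζ N)) = ⟨f, hf⟩ + ⟨g, hg⟩ := rfl
    rw [e, map_add]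
    exact W.add_mem (h1 γ) (h2 γ)
  zero_mem' := by
    refine ⟨zero_mem _, fun γ => ?_⟩
    have e : (⟨0, zero_mem _⟩ : ↥(fieldM L ζ N)) = 0 := rfl
    rw [e, map_zero]
    exact W.zero_mem
  neg_mem' := by
    rintro f ⟨hf, h1⟩
    refine ⟨neg_mem hf, fun γ => ?_⟩
    have e : (⟨-f, neg_mem hf⟩ : ↥(fieldM L ζ N)) = -⟨f, hf⟩ := rfl
    rw [e, map_neg]
    exact W.neg_mem (h1 γ)

theorem mem_conjSubring {f : LaurentSeries L} :
    f ∈ conjSubring hζ W ↔ ∃ hf : f ∈ fieldM L ζ N, ∀ γ : SL(2, ℤ),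
      ((rho hζ γ ⟨f, hf⟩ : ↥(fieldM L ζ N)) : LaurentSeries L) ∈ W := Iff.rfl

theorem conjSubring_le {f : LaurentSeries L} (hf : f ∈ conjSubring hζ W) : f ∈ W := by
  obtain ⟨hf', h⟩ := hf
  have := h 1
  rwa [map_one, AlgEquiv.one_apply] at this

theorem conjSubring_stable (γ : SL(2, ℤ)) (x : ↥(fieldM L ζ N))
    (hx : (x : LaurentSeries L) ∈ conjSubring hζ W) :
    ((rho hζ γ x : ↥(fieldM L ζ N)) : LaurentSeries L) ∈ conjSubring hζ W := by
  obtain ⟨hf, h⟩ := hx
  refine ⟨(rho hζ γ x).2, fun γ' => ?_⟩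
  have e : (⟨((rho hζ γ x : ↥(fieldM L ζ N)) : LaurentSeries L), (rho hζ γ x).2⟩ :
      ↥(fieldM L ζ N)) = rho hζ γ x := rfl
  rw [e, ← AlgEquiv.mul_apply, ← map_mul]
  exact h (γ' * γ)

end Stable

/-! ### the core -/

section Core

variable (N : ℕ) [NeZero N] (ℓ : ℕ) [Fact ℓ.Prime]

set_option quotPrecheck false in
local notation "Zl" => ↥(GaloisRep.ratLocalizedAt ℓ)
set_option quotPrecheck false in
local notation "FF" => ↥(modularFunctionFieldFull N)

/-- the coercion `F → ℚ((q))` of a polynomial expression over `ℤ_(ℓ)`. -/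
theorem coe_aeval_zl (s : FF) (P : Zl[X]) :
    ((aeval s P : FF) : LaurentSeries ℚ) =
      P.eval₂ (constR (R := GaloisRep.ratLocalizedAt ℓ) (L := ℚ)) (s : LaurentSeries ℚ) := by
  have key : (fullFieldCoe N).comp ((aeval s : Zl[X] →ₐ[Zl] FF) : Zl[X] →+* FF) =
      Polynomial.eval₂RingHom (constR (R := GaloisRep.ratLocalizedAt ℓ) (L := ℚ))
        (s : LaurentSeries ℚ) := by
    apply Polynomial.ringHom_ext
    · intro a
      simp only [RingHom.comp_apply, RingHom.coe_coe, aeval_C, Polynomial.coe_eval₂RingHom,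
        Polynomial.eval₂_C]
      exact coe_algebraMap_zl N ℓ a
    · simp only [RingHom.comp_apply, RingHom.coe_coe, aeval_X, Polynomial.coe_eval₂RingHom,
        Polynomial.eval₂_X]
      rfl
  exact congrArg (fun f => f P) key

theorem constR_zl_injective :
    Function.Injective (constR (R := GaloisRep.ratLocalizedAt ℓ) (L := ℚ)) := by
  unfold constR
  exact (algebraMap ℚ (LaurentSeries ℚ)).injective.comp
    (IsFractionRing.injective (GaloisRep.ratLocalizedAt ℓ) ℚ)

/-- an element of `𝒲_ℚ` with transcendental reduction is transcendental over `ℤ_(ℓ)`. -/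
theorem eq_zero_of_eval₂_constR_eq_zero {sq : LaurentSeries ℚ}
    (hsm : sq ∈ gaussInt (GaloisRep.ratLocalizedAt ℓ) ℚ)
    (hst : Transcendental (IsLocalRing.ResidueField (GaloisRep.ratLocalizedAt ℓ))
      (gaussRed (GaloisRep.ratLocalizedAt ℓ) ℚ ⟨sq, hsm⟩))
    (P : Zl[X]) (hP : P.eval₂ (constR (R := GaloisRep.ratLocalizedAt ℓ) (L := ℚ)) sq = 0) :
    P = 0 := by
  by_contra hP0
  obtain ⟨n, P₀, rfl, hP₀⟩ := exists_C_pow_mul_map_ne_zero (irreducible_ellZl ℓ) hP0
  rw [Polynomial.eval₂_mul, Polynomial.eval₂_pow, Polynomial.eval₂_C] at hP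
  have hne : constR (R := GaloisRep.ratLocalizedAt ℓ) (L := ℚ) (ellZl ℓ) ≠ 0 := by
    rw [Ne, map_eq_zero_iff _ (constR_zl_injective ℓ)]
    exact (irreducible_ellZl ℓ).ne_zero
  have h0 : P₀.eval₂ (constR (R := GaloisRep.ratLocalizedAt ℓ) (L := ℚ)) sq = 0 :=
    (mul_eq_zero.mp hP).resolve_left (pow_ne_zero _ hne)
  have h1 : evalW (⟨sq, hsm⟩ : gaussInt (GaloisRep.ratLocalizedAt ℓ) ℚ) P₀ = 0 := by
    apply Subtype.ext
    rw [coe_evalW, h0]
    rfl
  have h2 := gaussRed_evalW (⟨sq, hsm⟩ : gaussInt (GaloisRep.ratLocalizedAt ℓ) ℚ) P₀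
  rw [h1, map_zero] at h2
  exact hP₀ ((transcendental_iff.mp hst) _ h2.symm)

variable [Algebra (cycL N) ℂ] {ζ : (cycL N)ˣ}
  (hζ : algebraMap (cycL N) ℂ (ζ : cycL N) = zetaH (N : ℝ))

/-- the common part of the two cases `s = j`, `s = j⁻¹`. -/
theorem isIntegral_of_conj_mem_aux {s : FF} {sq : LaurentSeries ℚ}
    (hsq : (s : LaurentSeries ℚ) = sq)
    (hsm : sq ∈ gaussInt (GaloisRep.ratLocalizedAt ℓ) ℚ)
    (hst : Transcendental (IsLocalRing.ResidueField (GaloisRep.ratLocalizedAt ℓ))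
      (gaussRed (GaloisRep.ratLocalizedAt ℓ) ℚ ⟨sq, hsm⟩))
    (hcl : Subfield.closure {s} = Subfield.closure {jFull N})
    (y : FF)
    (hly : IsIntegral (Algebra.adjoin Zl {s}) (((ℓ : ℕ) : FF) * y))
    (hconj : ∀ γ : SL(2, ℤ),
      ((rho hζ γ ⟨iotaF (cycL N) N (y : LaurentSeries ℚ), iotaF_mem y.2⟩ :
        ↥(fieldM (cycL N) ζ N)) : LaurentSeries (cycL N)) ∈ gaussInt (cycR N ℓ) (cycL N)) :
    IsIntegral (Algebra.adjoin Zl {s}) y := by
  classical
  subst hsq
  have hAr : Algebra.adjoin Zl {s} = (aeval s : Zl[X] →ₐ[Zl] FF).range :=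
    Algebra.adjoin_singleton_eq_range_aeval Zl s
  -- `ℤ_(ℓ)[s] ≃ ℤ_(ℓ)[X]` is integrally closed
  have hinj : Function.Injective (aeval s : Zl[X] →ₐ[Zl] FF) := by
    rw [injective_iff_map_eq_zero]
    intro P hP
    apply eq_zero_of_eval₂_constR_eq_zero ℓ hsm hst
    rw [← coe_aeval_zl, hP]
    rfl
  haveI : IsIntegrallyClosed ↥(Algebra.adjoin Zl {s}) := by
    have e : Zl[X] ≃+* ↥(Algebra.adjoin Zl {s}) :=
      ((AlgEquiv.ofInjective (aeval s : Zl[X] →ₐ[Zl] FF) hinj).trans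
        (Subalgebra.equivOfEq _ _ hAr.symm)).toRingEquiv
    exact IsIntegrallyClosed.of_equiv e
  have hℓ0 : ((ℓ : ℕ) : ↥(Algebra.adjoin Zl {s})) ≠ 0 := by
    intro h0
    have := congrArg (algebraMap ↥(Algebra.adjoin Zl {s}) FF) h0
    rw [map_natCast, map_zero] at this
    have hne : ((ℓ : ℕ) : FF) ≠ 0 := by
      rw [← map_natCast (algebraMap ℚ FF)]
      exact (_root_.map_ne_zero _).mpr (Nat.cast_ne_zero.mpr (Fact.out : ℓ.Prime).ne_zero)
    exact hne this
  -- the image of the fraction field of `ℤ_(ℓ)[s]` is `ℚ(j)`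
  have hK₀ : (algebraMap (FractionRing ↥(Algebra.adjoin Zl {s})) FF).fieldRange =
      Subfield.closure {jFull N} := by
    rw [← hcl]
    apply le_antisymm
    · apply fieldRange_liftAlgebra_le
      intro a ha
      induction ha using Algebra.adjoin_induction with
      | mem x hx =>
        rw [Set.mem_singleton_iff] at hx
        subst hx
        exact Subfield.subset_closure rfl
      | algebraMap r =>
        rw [IsScalarTower.algebraMap_apply Zl ℚ FF]
        exact ratCast_mem_subfield _ (algebraMap ℚ FF) _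
      | add x y _ _ hx hy => exact add_mem hx hy
      | mul x y _ _ hx hy => exact mul_mem hx hy
    · rw [Subfield.closure_le, Set.singleton_subset_iff]
      exact mem_fieldRange_liftAlgebra _ (Algebra.subset_adjoin rfl)
  refine isIntegral_of_isIntegral_mul_of_coeff (A₀ := ↥(Algebra.adjoin Zl {s}))
    (K₀ := FractionRing ↥(Algebra.adjoin Zl {s})) ((ℓ : ℕ) : ↥(Algebra.adjoin Zl {s})) hℓ0 y ?_ ?_
  · rwa [map_natCast]
  · intro i n hmem
    obtain ⟨a, ha⟩ := hmem
    set c := (minpoly (FractionRing ↥(Algebra.adjoin Zl {s})) y).coeff i with hc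
    set cF : FF := algebraMap (FractionRing ↥(Algebra.adjoin Zl {s})) FF c with hcF
    -- the relation in `F`
    have h1 : ((ℓ : ℕ) : FF) ^ n * cF = (a : FF) := by
      have := congrArg (algebraMap (FractionRing ↥(Algebra.adjoin Zl {s})) FF) ha
      rw [map_mul, map_pow, ← IsScalarTower.algebraMap_apply, ← IsScalarTower.algebraMap_apply,
        map_natCast] at this
      exact this.symm
    have hex : ∀ z ∈ Algebra.adjoin Zl {s}, ∃ P : Zl[X], aeval s P = z := by
      rw [hAr]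
      exact fun z hz => hz
    obtain ⟨P, hP⟩ := hex (a : FF) a.2
    -- the relation in `ℚ((q))`
    have h2 : constR (R := GaloisRep.ratLocalizedAt ℓ) (L := ℚ) (ellZl ℓ) ^ n *
        (cF : LaurentSeries ℚ) =
        P.eval₂ (constR (R := GaloisRep.ratLocalizedAt ℓ) (L := ℚ)) (s : LaurentSeries ℚ) := by
      rw [← coe_aeval_zl, hP, ← h1]
      have e : constR (R := GaloisRep.ratLocalizedAt ℓ) (L := ℚ) (ellZl ℓ) =
          ((ℓ : ℕ) : LaurentSeries ℚ) := by
        simp only [ellZl, map_natCast]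
      rw [e]
      show _ = fullFieldCoe N (((ℓ : ℕ) : FF) ^ n * cF)
      rw [map_mul, map_pow, map_natCast]
      rfl
    -- `ι c` is Gauss-integral
    have h3 : qExpand (cycL N) N (coeffMap (algebraMap ℚ (cycL N)) (cF : LaurentSeries ℚ)) ∈
        gaussInt (cycR N ℓ) (cycL N) := by
      have := iotaF_coeff_minpoly_mem' hζ hK₀
        (conjSubring hζ (gaussInt (cycR N ℓ) (cycL N)))
        (conjSubring_stable hζ _) y ⟨iotaF_mem y.2, hconj⟩ i
      exact conjSubring_le hζ _ this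
    obtain ⟨Q, hQ⟩ := mem_adjoin_of_iota_mem N ℓ hsm hst n P h2 h3
    refine ⟨⟨aeval s Q, by rw [hAr]; exact ⟨Q, rfl⟩⟩, ?_⟩
    apply (algebraMap (FractionRing ↥(Algebra.adjoin Zl {s})) FF).injective
    rw [← IsScalarTower.algebraMap_apply]
    apply Subtype.ext
    show ((aeval s Q : FF) : LaurentSeries ℚ) = (cF : LaurentSeries ℚ)
    rw [coe_aeval_zl, ← hQ]

/-- **(I2)** Igusa's integrality step. -/
theorem isIntegral_of_conj_mem {s : FF} (hs : s = jFull N ∨ s = (jFull N)⁻¹) (y : FF)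
    (hly : IsIntegral (Algebra.adjoin Zl {s}) (((ℓ : ℕ) : FF) * y))
    (hconj : ∀ γ : SL(2, ℤ),
      ((rho hζ γ ⟨iotaF (cycL N) N (y : LaurentSeries ℚ), iotaF_mem y.2⟩ :
        ↥(fieldM (cycL N) ζ N)) : LaurentSeries (cycL N)) ∈ gaussInt (cycR N ℓ) (cycL N)) :
    IsIntegral (Algebra.adjoin Zl {s}) y := by
  have hj : ((jFull N : FF) : LaurentSeries ℚ) = jqModC ℚ := (coe_jFull N).trans jqModC_rat.symm
  rcases hs with rfl | rfl
  · exact isIntegral_of_conj_mem_aux N ℓ hζ hj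
      (jqModC_mem_gaussInt (GaloisRep.ratLocalizedAt ℓ) ℚ)
      (transcendental_gaussRed_jqModC (GaloisRep.ratLocalizedAt ℓ) ℚ) rfl y hly hconj
  · have hji : (((jFull N)⁻¹ : FF) : LaurentSeries ℚ) = (jqModC ℚ)⁻¹ := by
      rw [IntermediateField.coe_inv, hj]
    refine isIntegral_of_conj_mem_aux N ℓ hζ hji
      (inv_jqModC_mem_gaussInt (GaloisRep.ratLocalizedAt ℓ) ℚ)
      (transcendental_gaussRed_inv_jqModC (GaloisRep.ratLocalizedAt ℓ) ℚ) ?_ y hly hconj
    · apply le_antisymm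
      · rw [Subfield.closure_le, Set.singleton_subset_iff]
        exact inv_mem (Subfield.subset_closure rfl)
      · rw [Subfield.closure_le, Set.singleton_subset_iff]
        have h := inv_mem (Subfield.subset_closure (s := {(jFull N)⁻¹})
          (Set.mem_singleton ((jFull N)⁻¹)))
        rwa [inv_inv] at h

end Core

end Fermat.Agent.Igusa
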