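import Mathlib
import Fermat.Prelude.Def_ModularCurve_IgusaScheme
import Fermat.Prelude.Def_ModularCurve_LaurentCoeff

/-!
# (T) Tensor step for Igusa's theorem

If a `ℤ_(ℓ)`-algebra `A` has a ring homomorphism `φ : A → 𝔽_ℓ((q))` with kernel `(ℓ)`, then for every
field `K` of characteristic `ℓ` the ring `K ⊗[ℤ_(ℓ)] A` embeds into `K((q))`, hence is a domain.
-/

set_option autoImplicit false

namespace Fermat.Agent.Igusa

open ModularCurve TensorProduct

variable {ℓ : ℕ} [Fact ℓ.Prime]

set_option quotPrecheck false in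
local notation "Zl" => ↥(GaloisRep.ratLocalizedAt ℓ)

/-- the natural number `d`, coprime to `ℓ`, is a unit of `ℤ_(ℓ)`. -/
theorem natCast_mul_inv_ratLocalizedAt {d : ℕ} (hd : d.Coprime ℓ) :
    ∃ e : Zl, (d : Zl) * e = 1 := by
  have hd0 : d ≠ 0 := by
    rintro rfl
    rw [Nat.coprime_zero_left] at hd
    exact (Fact.out : ℓ.Prime).ne_one hd
  refine ⟨⟨(d : ℚ)⁻¹, ?_⟩, ?_⟩
  · show ((d : ℚ)⁻¹).den.Coprime ℓ
    have : ((d : ℚ)⁻¹).den = d := by
      rw [Rat.inv_natCast_den]
      simp [hd0]
    rw [this]; exact hd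
  · apply Subtype.ext
    simp [hd0]

/-- Ring homomorphisms out of `ℤ_(ℓ)` into a commutative ring are unique. -/
theorem ratLocalizedAt_ringHom_ext {R : Type*} [CommRing R] (f g : Zl →+* R) : f = g := by
  ext z
  have hden : z.1.den.Coprime ℓ := z.2
  obtain ⟨e, he⟩ := natCast_mul_inv_ratLocalizedAt (ℓ := ℓ) hden
  have hz : z * (z.1.den : Zl) = (z.1.num : Zl) := by
    apply Subtype.ext
    simp [Rat.mul_den_eq_num]
  have hf : f z = f (z.1.num : Zl) * f e := by
    rw [← hz, ← map_mul, mul_assoc, he, mul_one]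
  have hg : g z = g (z.1.num : Zl) * g e := by
    rw [← hz, ← map_mul, mul_assoc, he, mul_one]
  have hfe : f e = g e := by
    have h1 : (z.1.den : R) * f e = 1 := by
      rw [← map_natCast f, ← map_mul, he, map_one]
    have h2 : (z.1.den : R) * g e = 1 := by
      rw [← map_natCast g, ← map_mul, he, map_one]
    calc f e = f e * ((z.1.den : R) * g e) := by rw [h2, mul_one]
      _ = ((z.1.den : R) * f e) * g e := by ring
      _ = g e := by rw [h1, one_mul]
  rw [hf, hg, hfe, map_intCast, map_intCast]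

section Main

variable {A : Type*} [CommRing A] [Algebra ↥(GaloisRep.ratLocalizedAt ℓ) A]
  (φ : A →+* LaurentSeries (ZMod ℓ))
  (K : Type*) [Field K] [CharP K ℓ] [Algebra ↥(GaloisRep.ratLocalizedAt ℓ) K]

/-- the embedding of coefficient fields `𝔽_ℓ → K`. -/
noncomputable def zmodToField : ZMod ℓ →+* K := ZMod.castHom (dvd_refl ℓ) K

/-- A type synonym of `K((q))` carrying only its field structure (this avoids the diamonds between
the various module structures on Hahn series). -/
def LSer (K : Type*) [Field K] : Type _ := LaurentSeries K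

noncomputable instance : Field (LSer K) := inferInstanceAs (Field (LaurentSeries K))

/-- the identity `K((q)) ≃+* LSer K`. -/
noncomputable def LSer.of : LaurentSeries K ≃+* LSer K := RingEquiv.refl _

/-- the ring hom `ℤ_(ℓ) → K → K((q))`. -/
noncomputable def baseToLSer : ↥(GaloisRep.ratLocalizedAt ℓ) →+* LSer K :=
  ((LSer.of K).toRingHom.comp (algebraMap K (LaurentSeries K))).comp
    (algebraMap ↥(GaloisRep.ratLocalizedAt ℓ) K)

noncomputable instance lserAlg : Algebra ↥(GaloisRep.ratLocalizedAt ℓ) (LSer K) :=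
  (baseToLSer K).toAlgebra

/-- `K → K((q))` as a `ℤ_(ℓ)`-algebra hom. -/
noncomputable def constAlgHom : K →ₐ[Zl] LSer K where
  __ := (LSer.of K).toRingHom.comp (algebraMap K (LaurentSeries K))
  commutes' _ := rfl

/-- `A → 𝔽_ℓ((q)) → K((q))` as a `ℤ_(ℓ)`-algebra hom. -/
noncomputable def redAlgHom : A →ₐ[Zl] LSer K where
  __ := ((LSer.of K).toRingHom.comp (coeffMap (zmodToField (ℓ := ℓ) K))).comp φ
  commutes' z := by
    have h := ratLocalizedAt_ringHom_ext (ℓ := ℓ)
      ((((LSer.of K).toRingHom.comp (coeffMap (zmodToField (ℓ := ℓ) K))).comp φ).comp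
        (algebraMap Zl A))
      (algebraMap Zl (LSer K))
    exact congrArg (fun f => f z) h

/-- the comparison map `K ⊗[ℤ_(ℓ)] A → K((q))`. -/
noncomputable def tensorToLaurent : K ⊗[Zl] A →ₐ[Zl] LSer K :=
  Algebra.TensorProduct.lift (constAlgHom K) (redAlgHom φ K) (fun _ _ => Commute.all _ _)

theorem tensorToLaurent_tmul (k : K) (a : A) :
    tensorToLaurent φ K (k ⊗ₜ a) =
      LSer.of K (algebraMap K (LaurentSeries K) k * coeffMap (zmodToField (ℓ := ℓ) K) (φ a)) := by
  rw [tensorToLaurent, Algebra.TensorProduct.lift_tmul, map_mul]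
  rfl

section Injective

/-- the `𝔽_ℓ`-algebra structure on a field of characteristic `ℓ`. -/
noncomputable abbrev zmodAlg : Algebra (ZMod ℓ) K := ZMod.algebra K ℓ

attribute [local instance] zmodAlg

omit [Algebra ↥(GaloisRep.ratLocalizedAt ℓ) K] in
theorem algebraMap_zmod_eq : (algebraMap (ZMod ℓ) K) = zmodToField (ℓ := ℓ) K := rfl

omit [Fact (Nat.Prime ℓ)] in
theorem ell_smul_eq_zero (k : K) : ((ℓ : ↥(GaloisRep.ratLocalizedAt ℓ)) • k : K) = 0 := by
  rw [Algebra.smul_def, map_natCast, CharP.cast_eq_zero K ℓ, zero_mul]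

/-- scalar action of the natural lift of `c : ZMod ℓ` to `ℤ_(ℓ)` agrees with that of `c`. -/
theorem val_smul_eq (c : ZMod ℓ) (k : K) :
    (((c.val : ℕ) : ↥(GaloisRep.ratLocalizedAt ℓ)) • k : K) = c • k := by
  have : NeZero ℓ := ⟨(Fact.out : ℓ.Prime).ne_zero⟩
  rw [Algebra.smul_def, Algebra.smul_def, map_natCast, algebraMap_zmod_eq, zmodToField,
    ZMod.castHom_apply, ZMod.natCast_val]

variable (A) in
/-- every element of `K ⊗ A` is a finite sum `∑ bᵢ ⊗ aᵢ` over an `𝔽_ℓ`-basis `b` of `K`. -/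
theorem exists_finsupp_eq {ι : Type*} (b : Module.Basis ι (ZMod ℓ) K) (x : K ⊗[Zl] A) :
    ∃ f : ι →₀ A, x = f.sum fun i a => b i ⊗ₜ[Zl] a := by
  classical
  induction x using TensorProduct.induction_on with
  | zero => exact ⟨0, by simp⟩
  | tmul k a =>
    refine ⟨(b.repr k).mapRange (fun c => ((c.val : ℕ) : Zl) • a) (by simp), ?_⟩
    rw [Finsupp.sum_mapRange_index (by intro i; simp)]
    have h1 : ∀ i (c : ZMod ℓ), b i ⊗ₜ[Zl] (((c.val : ℕ) : Zl) • a) = (c • b i) ⊗ₜ[Zl] a := by
      intro i c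
      rw [TensorProduct.tmul_smul, TensorProduct.smul_tmul', val_smul_eq]
    simp only [h1]
    rw [Finsupp.sum, ← TensorProduct.sum_tmul]
    congr 1
    exact (b.linearCombination_repr k).symm
  | add x y hx hy =>
    obtain ⟨f, rfl⟩ := hx
    obtain ⟨g, rfl⟩ := hy
    refine ⟨f + g, ?_⟩
    rw [Finsupp.sum_add_index' (by intro i; simp) (by intro i a a'; rw [TensorProduct.tmul_add])]

theorem coeff_const_mul (k : K) (y : LaurentSeries K) (n : ℤ) :
    (algebraMap K (LaurentSeries K) k * y).coeff n = k * y.coeff n := by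
  rw [algebraMap_laurentSeries_eq_single, HahnSeries.coeff_single_zero_mul]

/-- **Injectivity of the comparison map** when `ker φ = (ℓ)`. -/
theorem tensorToLaurent_injective (hker : RingHom.ker φ = Ideal.span {(ℓ : A)}) :
    Function.Injective (tensorToLaurent φ K) := by
  classical
  rw [injective_iff_map_eq_zero]
  intro x hx
  set b := Module.Free.chooseBasis (ZMod ℓ) K with hb
  obtain ⟨f, rfl⟩ := exists_finsupp_eq A K b x
  -- all `φ (f i)` vanish
  have hvan : ∀ i, φ (f i) = 0 := by
    intro i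
    ext n
    rw [HahnSeries.coeff_zero]
    have h1 : (tensorToLaurent φ K (f.sum fun i a => b i ⊗ₜ[Zl] a)) =
        LSer.of K (f.sum fun i a => algebraMap K (LaurentSeries K) (b i) *
          coeffMap (zmodToField (ℓ := ℓ) K) (φ a)) := by
      rw [Finsupp.sum, map_sum, Finsupp.sum, map_sum]
      exact Finset.sum_congr rfl fun i _ => tensorToLaurent_tmul φ K (b i) (f i)
    rw [h1] at hx
    have h2 : (f.sum fun i a => algebraMap K (LaurentSeries K) (b i) *
        coeffMap (zmodToField (ℓ := ℓ) K) (φ a)) = 0 := by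
      have := congrArg (LSer.of K).symm hx
      simpa using this
    have h3 := congrArg (fun y : LaurentSeries K => y.coeff n) h2
    simp only [HahnSeries.coeff_zero] at h3
    rw [Finsupp.sum, HahnSeries.coeff_sum] at h3
    simp only [coeff_const_mul, coeffMap_coeff] at h3
    -- linear independence
    set g : _ →₀ ZMod ℓ := f.mapRange (fun a => (φ a).coeff n) (by simp) with hg
    have h4 : Finsupp.linearCombination (ZMod ℓ) b g = 0 := by
      rw [Finsupp.linearCombination_apply, hg, Finsupp.sum_mapRange_index (by intro i; simp)]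
      rw [Finsupp.sum]
      rw [← h3]
      refine Finset.sum_congr rfl fun i _ => ?_
      rw [Algebra.smul_def, algebraMap_zmod_eq, mul_comm]
    have h5 := linearIndependent_iff.mp b.linearIndependent g h4
    have h6 := DFunLike.congr_fun h5 i
    rw [hg, Finsupp.mapRange_apply] at h6
    simpa using h6
  -- hence each `f i` is divisible by `ℓ` and each summand vanishes
  rw [Finsupp.sum]
  apply Finset.sum_eq_zero
  intro i _
  have hi : f i ∈ RingHom.ker φ := hvan i
  rw [hker, Ideal.mem_span_singleton] at hi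
  obtain ⟨a', ha'⟩ := hi
  have h7 : f i = (ℓ : Zl) • a' := by
    rw [ha', Algebra.smul_def, map_natCast]
  rw [h7, TensorProduct.tmul_smul, TensorProduct.smul_tmul', ell_smul_eq_zero,
    TensorProduct.zero_tmul]

/-- **(T)** `K ⊗[ℤ_(ℓ)] A` is a domain. -/
theorem isDomain_tensor_of_ker_eq (hker : RingHom.ker φ = Ideal.span {(ℓ : A)}) :
    IsDomain (K ⊗[Zl] A) :=
  (tensorToLaurent_injective φ K hker).isDomain (tensorToLaurent φ K).toRingHom

/-- `K ⊗[ℤ_(ℓ)] A` is nontrivial as soon as there is a ring hom `A → 𝔽_ℓ((q))`. -/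
theorem nontrivial_tensor_of_ringHom (φ' : A →+* LaurentSeries (ZMod ℓ)) :
    Nontrivial (K ⊗[Zl] A) :=
  (tensorToLaurent φ' K).toRingHom.domain_nontrivial

end Injective

end Main

end Fermat.Agent.Igusa
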