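/-
S28 (Igusa) — helper5.
The packaged Gauss lemma at the level of the Prelude function field `F = modularFunctionFieldFull N`:
for `s = j` or `s = j⁻¹`, `c ∈ F` with `ℓ^n c = P(s)`, `P ∈ ℤ_(ℓ)[X]`, and `ι c ∈ 𝒲_L`, one has
`c = Q(s)` for some `Q ∈ ℤ_(ℓ)[X]`.
-/
import Fermat.Agent.Igusa.K2_lead_Chart
import Fermat.Agent.Igusa.A_helper2_Bridge

set_option autoImplicit false
set_option linter.unusedSectionVars false

open ModularCurve ModularCurve.IgusaScheme Polynomial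

noncomputable section

namespace Fermat.Agent.Igusa

variable (N : ℕ) [NeZero N] (ℓ : ℕ) [Fact ℓ.Prime]

/-- the coercion `F → ℚ((q))` commutes with evaluation of polynomials over `ℤ_(ℓ)` -/
theorem coe_eval₂_algebraMap_zl (P : (GaloisRep.ratLocalizedAt ℓ)[X])
    (s : ↥(modularFunctionFieldFull N)) :
    ((P.eval₂ (algebraMap ↥(GaloisRep.ratLocalizedAt ℓ) ↥(modularFunctionFieldFull N)) s :
      ↥(modularFunctionFieldFull N)) : LaurentSeries ℚ) =
      P.eval₂ (constR (R := GaloisRep.ratLocalizedAt ℓ) (L := ℚ)) (s : LaurentSeries ℚ) := by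
  have h := Polynomial.hom_eval₂ P
    (algebraMap ↥(GaloisRep.ratLocalizedAt ℓ) ↥(modularFunctionFieldFull N)) (fullFieldCoe N) s
  have hcomp : (fullFieldCoe N).comp
      (algebraMap ↥(GaloisRep.ratLocalizedAt ℓ) ↥(modularFunctionFieldFull N)) =
      constR (R := GaloisRep.ratLocalizedAt ℓ) (L := ℚ) := by
    ext a : 1
    exact coe_algebraMap_zl N ℓ a
  rw [hcomp] at h
  exact h

theorem coe_natCast_fullField (n : ℕ) :
    (((n : ℕ) : ↥(modularFunctionFieldFull N)) : LaurentSeries ℚ) = (n : LaurentSeries ℚ) :=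
  map_natCast (fullFieldCoe N) n

theorem constR_ellZl :
    constR (R := GaloisRep.ratLocalizedAt ℓ) (L := ℚ) (ellZl ℓ) = ((ℓ : ℕ) : LaurentSeries ℚ) := by
  rw [ellZl, map_natCast]

variable {N ℓ}

/-- **Packaged Gauss lemma in `F`** (both charts `s = j`, `s = j⁻¹`). -/
theorem exists_eval₂_eq_of_iotaF_mem {s : ↥(modularFunctionFieldFull N)}
    (hs : s = jFull N ∨ s = (jFull N)⁻¹) (c : ↥(modularFunctionFieldFull N)) (n : ℕ)
    (P : (GaloisRep.ratLocalizedAt ℓ)[X])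
    (h : ((ℓ : ℕ) : ↥(modularFunctionFieldFull N)) ^ n * c =
      P.eval₂ (algebraMap ↥(GaloisRep.ratLocalizedAt ℓ) ↥(modularFunctionFieldFull N)) s)
    (hc : iotaF (cycL N) N (c : LaurentSeries ℚ) ∈ gaussInt (cycR N ℓ) (cycL N)) :
    ∃ Q : (GaloisRep.ratLocalizedAt ℓ)[X],
      c = Q.eval₂ (algebraMap ↥(GaloisRep.ratLocalizedAt ℓ) ↥(modularFunctionFieldFull N)) s := by
  -- the relation in `ℚ((q))`
  have h' : constR (R := GaloisRep.ratLocalizedAt ℓ) (L := ℚ) (ellZl ℓ) ^ n *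
      (c : LaurentSeries ℚ) = P.eval₂ constR (s : LaurentSeries ℚ) := by
    rw [← coe_eval₂_algebraMap_zl, ← h, constR_ellZl, ← coe_natCast_fullField N]
    rfl
  have key : ∃ Q : (GaloisRep.ratLocalizedAt ℓ)[X],
      (c : LaurentSeries ℚ) = Q.eval₂ constR (s : LaurentSeries ℚ) := by
    rcases hs with rfl | rfl
    · exact mem_adjoin_of_iota_mem N ℓ (jqModC_mem_gaussInt (GaloisRep.ratLocalizedAt ℓ) ℚ)
        (transcendental_gaussRed_jqModC (GaloisRep.ratLocalizedAt ℓ) ℚ) n P h' hc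
    · have hcoe : (((jFull N)⁻¹ : ↥(modularFunctionFieldFull N)) : LaurentSeries ℚ) =
          (jqModC ℚ)⁻¹ := IntermediateField.coe_inv _ _
      rw [hcoe] at h' ⊢
      exact mem_adjoin_of_iota_mem N ℓ (inv_jqModC_mem_gaussInt (GaloisRep.ratLocalizedAt ℓ) ℚ)
        (transcendental_gaussRed_inv_jqModC (GaloisRep.ratLocalizedAt ℓ) ℚ) n P h' hc
  obtain ⟨Q, hQ⟩ := key
  refine ⟨Q, Subtype.ext ?_⟩
  rw [hQ, coe_eval₂_algebraMap_zl]

end Fermat.Agent.Igusa
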