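import Mathlib
import Fermat.Prelude.Def_ModularCurve_IgusaScheme

set_option autoImplicit false
open AlgebraicGeometry CategoryTheory CategoryTheory.Limits ModularCurve ModularCurve.IgusaScheme
open TensorProduct

noncomputable section

namespace Fermat.Agent.Igusa

/-- A scheme covered by integral open subschemes which pairwise intersect is integral. -/
theorem isIntegral_of_openCover_of_pairwise {P : Scheme.{0}} (𝒱 : P.OpenCover)
    [Nonempty 𝒱.I₀] [∀ i, IsIntegral (𝒱.X i)]
    (hW : ∀ i j : 𝒱.I₀, ∃ (W : Scheme.{0}) (_ : Nonempty W) (w₁ : W ⟶ 𝒱.X i) (w₂ : W ⟶ 𝒱.X j),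
      w₁ ≫ 𝒱.f i = w₂ ≫ 𝒱.f j) : IsIntegral P := by
  have : IsReduced P := IsReduced.of_openCover P 𝒱
  have : IrreducibleSpace P := by
    have hpre : PreirreducibleSpace P := by
      refine ⟨?_⟩
      refine IsPreirreducible.of_subset_iUnion (U := fun i => (𝒱.f i).opensRange) ?_ ?_ isOpen_univ ?_
      · intro i j _
        obtain ⟨W, hne, w₁, w₂, h⟩ := hW i j
        obtain ⟨w⟩ := hne
        simp only [Function.onFun]
        intro hdis
        have hle := hdis.le_bot
        have hmem : (𝒱.f i).base (w₁.base w) ∈ (𝒱.f i).opensRange ⊓ (𝒱.f j).opensRange := by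
          refine ⟨⟨_, rfl⟩, ?_⟩
          have : (𝒱.f i).base (w₁.base w) = (𝒱.f j).base (w₂.base w) := by
            have := congrArg (fun φ => φ.base w) h
            simpa using this
          rw [this]
          exact ⟨_, rfl⟩
        exact (hle hmem).elim
      · intro i
        have : IsPreirreducible (Set.range (𝒱.f i).base) := by
          rw [← Set.image_univ]
          exact (IrreducibleSpace.isIrreducible_univ _).isPreirreducible.image _
            (𝒱.f i).continuous.continuousOn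
        exact this
      · intro x _
        obtain ⟨i, y, rfl⟩ := 𝒱.exists_eq x
        exact Set.mem_iUnion.mpr ⟨i, ⟨y, rfl⟩⟩
    obtain ⟨i⟩ := (inferInstance : Nonempty 𝒱.I₀)
    have : Nonempty P := ⟨(𝒱.f i).base (Classical.arbitrary _)⟩
    exact { toPreirreducibleSpace := hpre, toNonempty := inferInstance }
  exact isIntegral_of_irreducibleSpace_of_isReduced P

variable (N : ℕ) [NeZero N] (ℓ : ℕ) [Fact ℓ.Prime]

/-- the two charts -/
def chartX : Bool → Scheme.{0}
  | true => XFin N ℓ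
  | false => XInf N ℓ

/-- the two chart inclusions -/
def chartι : (b : Bool) → chartX N ℓ b ⟶ ModularCurve.IgusaScheme N ℓ
  | true => ιFin N ℓ
  | false => ιInf N ℓ

instance (b : Bool) : IsOpenImmersion (chartι N ℓ b) := by
  cases b
  · exact isOpenImmersion_ιInf N ℓ
  · exact isOpenImmersion_ιFin N ℓ

/-- the two-chart open cover of the Igusa scheme -/
def igusaCover2 : (ModularCurve.IgusaScheme N ℓ).OpenCover :=
  Scheme.Cover.mkOfCovers Bool (chartX N ℓ) (chartι N ℓ) (by
    intro x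
    rcases mem_range_ιFin_or_mem_range_ιInf N ℓ x with ⟨y, hy⟩ | ⟨y, hy⟩
    · exact ⟨true, y, hy⟩
    · exact ⟨false, y, hy⟩) (fun b => inferInstance)

variable (K : Type) [Field K] [Algebra ↥(GaloisRep.ratLocalizedAt ℓ) K]

/-- the base-change morphism -/
abbrev baseK : Spec (CommRingCat.of K) ⟶ Spec (CommRingCat.of ↥(GaloisRep.ratLocalizedAt ℓ)) :=
  Spec.map (CommRingCat.ofHom (algebraMap ↥(GaloisRep.ratLocalizedAt ℓ) K))

/-- the induced cover of the fibre -/
def fibreCover2 : (pullback (igusaTo N ℓ) (baseK ℓ K)).OpenCover :=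
  Scheme.Pullback.openCoverOfLeft (igusaCover2 N ℓ) (igusaTo N ℓ) (baseK ℓ K)

theorem isIntegral_fibreCover2_X
    (hFin : IsDomain (chartAlgFin N ℓ ⊗[↥(GaloisRep.ratLocalizedAt ℓ)] K))
    (hInf : IsDomain (chartAlgInf N ℓ ⊗[↥(GaloisRep.ratLocalizedAt ℓ)] K))
    (b : Bool) : IsIntegral ((fibreCover2 N ℓ K).X b) := by
  cases b
  · have e : (fibreCover2 N ℓ K).X false ≅
        Spec (CommRingCat.of (chartAlgInf N ℓ ⊗[↥(GaloisRep.ratLocalizedAt ℓ)] K)) :=
      pullback.congrHom (ιInf_igusaTo N ℓ) rfl ≪≫ pullbackSpecIso _ _ _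
    exact IsIntegral.of_isIso e.inv
  · have e : (fibreCover2 N ℓ K).X true ≅
        Spec (CommRingCat.of (chartAlgFin N ℓ ⊗[↥(GaloisRep.ratLocalizedAt ℓ)] K)) :=
      pullback.congrHom (ιFin_igusaTo N ℓ) rfl ≪≫ pullbackSpecIso _ _ _
    exact IsIntegral.of_isIso e.inv

/-- the structure morphism of the middle chart -/
abbrev midToBase : XMid N ℓ ⟶ Spec (CommRingCat.of ↥(GaloisRep.ratLocalizedAt ℓ)) :=
  Spec.map (CommRingCat.ofHom (algebraMap ↥(GaloisRep.ratLocalizedAt ℓ) (chartAlgMid N ℓ)))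

theorem midToBase_eq_fFin : midToBase N ℓ = fFin N ℓ ≫ ιFin N ℓ ≫ igusaTo N ℓ := by
  rw [ιFin_igusaTo]
  have h : (inclFin N ℓ).toRingHom.comp
      (algebraMap ↥(GaloisRep.ratLocalizedAt ℓ) (chartAlgFin N ℓ)) =
      algebraMap ↥(GaloisRep.ratLocalizedAt ℓ) (chartAlgMid N ℓ) :=
    RingHom.ext fun a => (inclFin N ℓ).commutes a
  simp only [midToBase, fFin, ← Spec.map_comp, ← CommRingCat.ofHom_comp, h]

theorem midToBase_eq_fInf : midToBase N ℓ = fInf N ℓ ≫ ιInf N ℓ ≫ igusaTo N ℓ := by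
  rw [midToBase_eq_fFin, ← Category.assoc, glue_condition, Category.assoc]

/-- the middle chart maps to both charts -/
def fMid : (b : Bool) → XMid N ℓ ⟶ chartX N ℓ b
  | true => fFin N ℓ
  | false => fInf N ℓ

theorem fMid_chartι (b : Bool) : fMid N ℓ b ≫ chartι N ℓ b = fFin N ℓ ≫ ιFin N ℓ := by
  cases b
  · exact (glue_condition N ℓ).symm
  · rfl

theorem midToBase_eq_fMid (b : Bool) :
    midToBase N ℓ = fMid N ℓ b ≫ chartι N ℓ b ≫ igusaTo N ℓ := by
  rw [← Category.assoc, fMid_chartι, Category.assoc]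
  exact midToBase_eq_fFin N ℓ

/-- the middle piece of the fibre -/
abbrev fibreMid : Scheme.{0} := pullback (midToBase N ℓ) (baseK ℓ K)

/-- the middle piece maps to the chart pieces -/
def fibreMidTo (b : Bool) :
    fibreMid N ℓ K ⟶ pullback (chartι N ℓ b ≫ igusaTo N ℓ) (baseK ℓ K) :=
  pullback.map (midToBase N ℓ) (baseK ℓ K) (chartι N ℓ b ≫ igusaTo N ℓ) (baseK ℓ K)
      (fMid N ℓ b) (𝟙 _) (𝟙 _) (by rw [Category.comp_id]; exact midToBase_eq_fMid N ℓ b)
      (by rw [Category.comp_id, Category.id_comp])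

theorem fibreCover2_f (b : Bool) : (fibreCover2 N ℓ K).f b =
    pullback.map (chartι N ℓ b ≫ igusaTo N ℓ) (baseK ℓ K) (igusaTo N ℓ) (baseK ℓ K)
      (chartι N ℓ b) (𝟙 _) (𝟙 _) (by rw [Category.comp_id])
      (by rw [Category.comp_id, Category.id_comp]) := rfl

theorem fibreMidTo_comp (b : Bool) :
    fibreMidTo N ℓ K b ≫ pullback.map (chartι N ℓ b ≫ igusaTo N ℓ) (baseK ℓ K) (igusaTo N ℓ)
      (baseK ℓ K) (chartι N ℓ b) (𝟙 _) (𝟙 _) (by rw [Category.comp_id])
      (by rw [Category.comp_id, Category.id_comp]) =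
      pullback.map (midToBase N ℓ) (baseK ℓ K) (igusaTo N ℓ) (baseK ℓ K)
        (fFin N ℓ ≫ ιFin N ℓ) (𝟙 _) (𝟙 _)
        (by rw [Category.comp_id, Category.assoc]; exact midToBase_eq_fFin N ℓ)
        (by rw [Category.comp_id, Category.id_comp]) := by
  apply pullback.hom_ext
  · simp only [fibreMidTo, pullback.map, Category.assoc, pullback.lift_fst,
      pullback.lift_fst_assoc, fMid_chartι]
  · simp only [fibreMidTo, pullback.map, Category.assoc, pullback.lift_snd, Category.comp_id]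

/-- **Scheme wrapper**: the fibre of the Igusa scheme over `K` is integral as soon as the two
chart algebras base-change to domains and the middle chart algebra base-changes to a nontrivial
ring. -/
theorem isIntegral_pullback_igusaTo_of_isDomain
    (hFin : IsDomain (chartAlgFin N ℓ ⊗[↥(GaloisRep.ratLocalizedAt ℓ)] K))
    (hInf : IsDomain (chartAlgInf N ℓ ⊗[↥(GaloisRep.ratLocalizedAt ℓ)] K))
    (hMid : Nontrivial (chartAlgMid N ℓ ⊗[↥(GaloisRep.ratLocalizedAt ℓ)] K)) :
    IsIntegral (pullback (igusaTo N ℓ) (baseK ℓ K)) := by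
  have hint : ∀ b : Bool, IsIntegral ((fibreCover2 N ℓ K).X b) :=
    isIntegral_fibreCover2_X N ℓ K hFin hInf
  have hne : Nonempty (fibreMid N ℓ K) := by
    have e : fibreMid N ℓ K ≅
        Spec (CommRingCat.of (chartAlgMid N ℓ ⊗[↥(GaloisRep.ratLocalizedAt ℓ)] K)) :=
      pullbackSpecIso _ _ _
    exact ⟨e.inv.base (Classical.arbitrary _)⟩
  have : Nonempty (fibreCover2 N ℓ K).I₀ := ⟨true⟩
  refine isIntegral_of_openCover_of_pairwise (fibreCover2 N ℓ K) ?_
  intro i j
  exact ⟨fibreMid N ℓ K, hne, fibreMidTo N ℓ K i, fibreMidTo N ℓ K j,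
    (fibreMidTo_comp N ℓ K i).trans (fibreMidTo_comp N ℓ K j).symm⟩

end Fermat.Agent.Igusa
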