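import Mathlib
import Fermat.Agent.Igusa.I1_helper5_Conj
import Fermat.Agent.Igusa.I2_helper2_Core
import Fermat.Agent.Igusa.T_lead_Tensor
import Fermat.Agent.Igusa.W_lead_Wrapper

set_option autoImplicit false
set_option linter.unusedSectionVars false

open scoped MatrixGroups TensorProduct
open ModularCurve ModularCurve.IgusaScheme Polynomial IntermediateField Fermat.Agent.X0N
open AlgebraicGeometry CategoryTheory CategoryTheory.Limits

noncomputable section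

namespace Fermat.Agent.Igusa

variable (N : ℕ) [NeZero N] (ℓ : ℕ) [Fact ℓ.Prime]

/-- **Igusa's property** for the two charts. -/
theorem core_chart (hℓN : ¬ ℓ ∣ N) {s : ↥(modularFunctionFieldFull N)}
    (hs : s = jFull N ∨ s = (jFull N)⁻¹) (y : ↥(modularFunctionFieldFull N))
    (hy : y ∈ valF N ℓ)
    (hly : ((ℓ : ℕ) : ↥(modularFunctionFieldFull N)) * y ∈ chartAlg N ℓ {s}) :
    y ∈ chartAlg N ℓ {s} := by
  obtain ⟨alg, ζ, ζR, hζ, hζR⟩ := exists_cyc_setup N ℓ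
  let _ := alg
  rw [mem_chartAlg_iff] at hly ⊢
  exact isIntegral_of_conj_mem N ℓ hζ hs y hly
    (fun γ => conj_iotaF_mem_gaussInt hζ ζR hζR hℓN hs y hy hly γ)

theorem hS_fin : ∀ s ∈ ({jFull N} : Set ↥(modularFunctionFieldFull N)), s ∈ valF N ℓ := by
  intro s hs
  rw [Set.mem_singleton_iff] at hs
  rw [hs]
  exact jFull_mem_valF N ℓ

theorem hS_inf : ∀ s ∈ ({(jFull N)⁻¹} : Set ↥(modularFunctionFieldFull N)), s ∈ valF N ℓ := by
  intro s hs
  rw [Set.mem_singleton_iff] at hs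
  rw [hs]
  exact jFull_inv_mem_valF N ℓ

theorem hS_mid :
    ∀ s ∈ ({jFull N, (jFull N)⁻¹} : Set ↥(modularFunctionFieldFull N)), s ∈ valF N ℓ := by
  intro s hs
  rcases hs with rfl | hs
  · exact jFull_mem_valF N ℓ
  · rw [Set.mem_singleton_iff] at hs
    rw [hs]
    exact jFull_inv_mem_valF N ℓ

theorem ker_chartRed_fin (hℓN : ¬ ℓ ∣ N) :
    RingHom.ker (chartRed (hS_fin N ℓ)) = Ideal.span {((ℓ : ℕ) : chartAlgFin N ℓ)} :=
  ker_chartRed_of_core (hS_fin N ℓ) (fun y hy hly => core_chart N ℓ hℓN (Or.inl rfl) y hy hly)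

theorem ker_chartRed_inf (hℓN : ¬ ℓ ∣ N) :
    RingHom.ker (chartRed (hS_inf N ℓ)) = Ideal.span {((ℓ : ℕ) : chartAlgInf N ℓ)} :=
  ker_chartRed_of_core (hS_inf N ℓ) (fun y hy hly => core_chart N ℓ hℓN (Or.inr rfl) y hy hly)

variable (K : Type) [Field K] [CharP K ℓ] [Algebra ↥(GaloisRep.ratLocalizedAt ℓ) K]

theorem isDomain_chartAlgFin_tensor (hℓN : ¬ ℓ ∣ N) :
    IsDomain (chartAlgFin N ℓ ⊗[↥(GaloisRep.ratLocalizedAt ℓ)] K) := by
  have := isDomain_tensor_of_ker_eq (chartRed (hS_fin N ℓ)) K (ker_chartRed_fin N ℓ hℓN)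
  exact (Algebra.TensorProduct.comm ↥(GaloisRep.ratLocalizedAt ℓ) (chartAlgFin N ℓ)
    K).toRingEquiv.toMulEquiv.isDomain _

theorem isDomain_chartAlgInf_tensor (hℓN : ¬ ℓ ∣ N) :
    IsDomain (chartAlgInf N ℓ ⊗[↥(GaloisRep.ratLocalizedAt ℓ)] K) := by
  have := isDomain_tensor_of_ker_eq (chartRed (hS_inf N ℓ)) K (ker_chartRed_inf N ℓ hℓN)
  exact (Algebra.TensorProduct.comm ↥(GaloisRep.ratLocalizedAt ℓ) (chartAlgInf N ℓ)
    K).toRingEquiv.toMulEquiv.isDomain _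

theorem nontrivial_chartAlgMid_tensor :
    Nontrivial (chartAlgMid N ℓ ⊗[↥(GaloisRep.ratLocalizedAt ℓ)] K) := by
  have := nontrivial_tensor_of_ringHom K (chartRed (hS_mid N ℓ))
  exact (Algebra.TensorProduct.comm ↥(GaloisRep.ratLocalizedAt ℓ) (chartAlgMid N ℓ)
    K).toRingEquiv.toEquiv.nontrivial

/-- **Igusa's theorem** (S28). -/
theorem isIntegral_pullback_igusaTo (hℓN : ¬ ℓ ∣ N) :
    IsIntegral ↑(pullback (igusaTo N ℓ)
      (Spec.map (CommRingCat.ofHom (algebraMap ↥(GaloisRep.ratLocalizedAt ℓ) K)))) :=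
  isIntegral_pullback_igusaTo_of_isDomain N ℓ K (isDomain_chartAlgFin_tensor N ℓ K hℓN)
    (isDomain_chartAlgInf_tensor N ℓ K hℓN) (nontrivial_chartAlgMid_tensor N ℓ K)

end Fermat.Agent.Igusa
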